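import Fermat.Agent.CFR.Br

/-!
# All-but-one reciprocity for quadratic imaginary fields
-/

set_option autoImplicit false

namespace Fermat.Agent.ZCFT

open Fermat.Agent.PT Fermat.Agent.PTLocal Fermat.Agent.CFT Fermat.Agent.CFT6
open Fermat.Agent.PTGlob (conjPair conj_h2)
open scoped ComplexConjugate

section gen

variable {G Γ : Type*} [Group G] [Group Γ] {A B : Type*} [AddCommGroup A] [AddCommGroup B]
  {L : Levels G} {L' : Levels Γ} {ρ : Act G A} {σ : Act Γ B}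

/-- restriction to the whole group is injective -/
lemma res_full (D : Subgroup G) (hD : ∀ g, g ∈ D) (x : H2 L ρ)
    (h : (resPair L ρ D).h2 x = 0) : x = 0 := by
  obtain ⟨f, rfl⟩ := H2.mk_surjective _ _ x
  rw [PairHom.h2_mk, H2.mk_eq_zero] at h
  obtain ⟨k, ⟨_, ⟨N, hN, rfl⟩, hk⟩, hkd⟩ := h
  refine H2.mk_eq_zero.2 ⟨fun g => k ⟨g, hD g⟩, ⟨N, hN, fun g s hs => ?_⟩, ?_⟩
  · exact hk ⟨g, hD g⟩ ⟨s, hD s⟩ hs
  · funext g g'
    have h1 := congrFun (congrFun hkd ⟨g, hD g⟩) ⟨g', hD g'⟩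
    rw [d1_apply] at h1 ⊢
    exact h1

/-- cohomology of the trivial group -/
lemma h2_of_subsingleton [Subsingleton G] (x : H2 L ρ) : x = 0 := by
  obtain ⟨f, rfl⟩ := H2.mk_surjective _ _ x
  refine H2.mk_eq_zero.2 ⟨fun _ => (f : G → G → A) 1 1, isLC₁_const L _, ?_⟩
  funext g g'
  rw [d1_apply, Subsingleton.elim g 1, Subsingleton.elim g' 1, act_one]
  abel

/-- evaluation at fixed points -/
def evE {X : Type*} (ξ : G →* Equiv.Perm X) (ρ : Act G A) (y : X) (hy : ∀ g, ξ g y = y) :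
    EHom (mapAct ξ ρ) ρ where
  f := { toFun := fun f => f y
         map_zero' := rfl
         map_add' := fun _ _ => rfl }
  comm g f := by
    show ρ g (f (ξ g⁻¹ y)) = ρ g (f y)
    rw [hy]

/-- evaluation, subgroups may be changed -/
lemma evPair_congr {X : Type*} {ξ : G →* Equiv.Perm X} {D D' : Subgroup G} (h : D = D') {y y' : X}
    (hy : y = y') (hD : ∀ d ∈ D, ξ d y = y) (hD' : ∀ d ∈ D', ξ d y' = y') (x : H2 L (mapAct ξ ρ))
    (hx : (ABHN.evPair L ξ ρ D y hD).h2 x = 0) : (ABHN.evPair L ξ ρ D' y' hD').h2 x = 0 := by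
  subst h
  subst hy
  exact hx

lemma sum_mapPair {X : Type*} [Fintype X] (ξ : G →* Equiv.Perm X) (φ : PairHom L ρ L' σ)
    (y : H2 L (mapAct ξ ρ)) :
    φ.h2 ((sumHom ξ ρ).h2 L y) = (sumHom (ξ.comp φ.r) σ).h2 L' ((ABHN.mapPair ξ φ).h2 y) := by
  have h1 : φ.h2 ((sumHom ξ ρ).h2 L y) = (φ.comp ((sumHom ξ ρ).pair L)).h2 y :=
    (PairHom.h2_comp _ _ _).symm
  have h2 : (sumHom (ξ.comp φ.r) σ).h2 L' ((ABHN.mapPair ξ φ).h2 y) =
      (((sumHom (ξ.comp φ.r) σ).pair L').comp (ABHN.mapPair ξ φ)).h2 y :=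
    (PairHom.h2_comp _ _ _).symm
  rw [h1, h2]
  refine PairHom.h2_congr (φ := φ.comp ((sumHom ξ ρ).pair L))
    (ψ := ((sumHom (ξ.comp φ.r) σ).pair L').comp (ABHN.mapPair ξ φ)) (fun _ => rfl)
    (fun a => ?_) y
  show φ.f (∑ x : X, a x) = ∑ x : X, φ.f (a x)
  rw [map_sum]

end gen

section sys

variable {Ω : Type} [Field Ω] [Algebra ℚ Ω] {G : Type} [Group G] {L : Levels G}
  {hG : LGal ℚ Ω L} (S : ABHN.LocSys hG)

/-- comparison of the local components -/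
lemma locU_sh {X : Type*} (ξ : G →* Equiv.Perm X) (x₀ : X) (q : Nat.Primes) (g : G)
    (y : H2 L (mapAct ξ hG.act))
    (hD : ∀ d ∈ (stab ξ x₀).comap (ABHN.cj (S.r q) g), (ξ.comp (S.loc q).r) d (ξ g x₀) = ξ g x₀) :
    (S.locU q g (stab ξ x₀)).h2 ((shPair L ξ hG.act x₀).h2 y) =
      (ABHN.evPair (S.Lq q) (ξ.comp (S.loc q).r) (galAct ℚ_[(q : ℕ)] (Cq q))
        ((stab ξ x₀).comap (ABHN.cj (S.r q) g)) (ξ g x₀) hD).h2
        ((ABHN.mapPair ξ (S.loc q)).h2 y) := by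
  have key : (S.locU q g (stab ξ x₀)).h2 ((shPair L ξ hG.act x₀).h2 y) =
      (ABHN.evPair (S.Lq q) (ξ.comp (S.loc q).r) (galAct ℚ_[(q : ℕ)] (Cq q))
        ((stab ξ x₀).comap (ABHN.cj (S.r q) g)) (ξ g x₀) hD).h2
        ((ABHN.mapPair ξ (S.loc q)).h2 ((conjPair L (mapAct ξ hG.act) g).h2 y)) := by
    rw [← PairHom.h2_comp (ABHN.mapPair ξ (S.loc q)) (conjPair L (mapAct ξ hG.act) g) y]
    refine (PairHom.h2_comp (S.locU q g (stab ξ x₀)) (shPair L ξ hG.act x₀) y).symm.trans ?_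
    refine Eq.trans ?_ (PairHom.h2_comp (ABHN.evPair (S.Lq q) (ξ.comp (S.loc q).r)
        (galAct ℚ_[(q : ℕ)] (Cq q)) ((stab ξ x₀).comap (ABHN.cj (S.r q) g)) (ξ g x₀) hD)
      ((ABHN.mapPair ξ (S.loc q)).comp (conjPair L (mapAct ξ hG.act) g)) y)
    refine PairHom.h2_congr (φ := (S.locU q g (stab ξ x₀)).comp (shPair L ξ hG.act x₀))
      (ψ := (ABHN.evPair (S.Lq q) (ξ.comp (S.loc q).r)
        (galAct ℚ_[(q : ℕ)] (Cq q)) ((stab ξ x₀).comap (ABHN.cj (S.r q) g)) (ξ g x₀) hD).comp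
        ((ABHN.mapPair ξ (S.loc q)).comp (conjPair L (mapAct ξ hG.act) g)))
      (fun _ => rfl) (fun a => ?_) y
    show ABHN.embU (S.e q) (hG.act g (a x₀)) =
      ABHN.embU (S.e q) (hG.act g (a (ξ g⁻¹ (ξ g x₀))))
    rw [← Equiv.Perm.mul_apply, ← map_mul, inv_mul_cancel, map_one]
    rfl
  rw [key, conj_h2 (ρ := mapAct ξ hG.act) g y]

lemma hD_aux {X : Type*} (ξ : G →* Equiv.Perm X) (x₀ : X) (q : Nat.Primes) (g : G) (d : Gq q) :
    d ∈ (stab ξ x₀).comap (ABHN.cj (S.r q) g) ↔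
      (ξ.comp (S.loc q).r) d (ξ g x₀) = ξ g x₀ := by
  have h2 : ξ g (ξ (g⁻¹ * S.r q d * g) x₀) = (ξ.comp (S.loc q).r) d (ξ g x₀) := by
    rw [← Equiv.Perm.mul_apply, ← map_mul]
    have h3 : g * (g⁻¹ * S.r q d * g) = S.r q d * g := by group
    rw [h3, map_mul, Equiv.Perm.mul_apply]
    rfl
  rw [← h2, Equiv.apply_eq_iff_eq]
  exact Iff.rfl

/-- locally trivial classes, semilocal form -/
lemma mapPair_eq_zero {X : Type} [Finite X] (ξ : G →* Equiv.Perm X) (hξ : LevelTrivial L ξ) (x₀ : X)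
    (ht : IsTrans ξ x₀) (q : Nat.Primes) (y : H2 L (mapAct ξ hG.act))
    (h : ∀ g, (S.locU q g (stab ξ x₀)).h2 ((shPair L ξ hG.act x₀).h2 y) = 0) :
    (ABHN.mapPair ξ (S.loc q)).h2 y = 0 := by
  obtain ⟨J, hJ, x, R⟩ := exists_reps (ξ.comp (S.loc q).r)
  have hξ' : LevelTrivial (S.Lq q) (ξ.comp (S.loc q).r) := by
    obtain ⟨N, hN, hs⟩ := hξ
    obtain ⟨N', hN', h'⟩ := S.lev q N hN
    exact ⟨N', hN', fun s hs' x => hs _ (h' s hs') x⟩
  have hsm : Smooth (S.Lq q) (galAct ℚ_[(q : ℕ)] (Cq q)) := by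
    have h1 := (S.hq q).smooth
    intro a
    obtain ⟨N, hN, hs⟩ := h1 a
    refine ⟨N, hN, fun s hs' => ?_⟩
    have h2 := hs s hs'
    apply Additive.toMul.injective
    apply Units.ext
    have h3 := congrArg (fun a => ((Additive.toMul a : (Cq q)ˣ) : Cq q)) h2
    have h4 : ((Additive.toMul ((S.hq q).act s a) : (Cq q)ˣ) : Cq q) =
        s ((Additive.toMul a : (Cq q)ˣ) : Cq q) := by
      show (S.hq q).j s ((Additive.toMul a : (Cq q)ˣ) : Cq q) = _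
      rw [S.hqj]
    exact h4.symm.trans h3
  apply (R.h2_bijective hξ' hsm).1
  funext j
  show (shPair (S.Lq q) (ξ.comp (S.loc q).r) (galAct ℚ_[(q : ℕ)] (Cq q)) (x j)).h2 _ =
    (shPair (S.Lq q) (ξ.comp (S.loc q).r) (galAct ℚ_[(q : ℕ)] (Cq q)) (x j)).h2 0
  rw [map_zero]
  obtain ⟨g, hg⟩ := ht (x j)
  have h1 := h g
  rw [locU_sh S ξ x₀ q g y (fun d hd => (hD_aux S ξ x₀ q g d).1 hd)] at h1
  refine evPair_congr ?_ hg _ (fun d hd => hd) _ h1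
  ext d
  rw [hD_aux S ξ x₀ q g d, hg]
  exact Iff.rfl

end sys

end Fermat.Agent.ZCFT
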