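import Fermat.Agent.ZCFT.Abo

/-!
# All-but-one reciprocity: general form
-/

set_option autoImplicit false

namespace Fermat.Agent.ZCFT

open Fermat.Agent.PT Fermat.Agent.PTLocal Fermat.Agent.CFT Fermat.Agent.CFT6

section gen

variable {G : Type*} [Group G] {A : Type*} [AddCommGroup A] {L : Levels G} {ρ : Act G A}

lemma evPair_eq {X : Type*} (ξ : G →* Equiv.Perm X) (D : Subgroup G) (y : X)
    (hD : ∀ d ∈ D, ξ d y = y) (hy : ∀ g, ξ g y = y) (x : H2 L (mapAct ξ ρ)) :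
    (ABHN.evPair L ξ ρ D y hD).h2 x = (resPair L ρ D).h2 ((evE ξ ρ y hy).h2 L x) := by
  refine Eq.trans ?_ (PairHom.h2_comp (resPair L ρ D) ((evE ξ ρ y hy).pair L) x)
  exact PairHom.h2_congr (φ := ABHN.evPair L ξ ρ D y hD)
    (ψ := (resPair L ρ D).comp ((evE ξ ρ y hy).pair L)) (fun _ => rfl) (fun _ => rfl) x

lemma exists_two_pow {H : Type*} [AddCommGroup H] (n : ℕ) (z : H) (hz : 2 ^ n • z = 0)
    (h0 : z ≠ 0) : ∃ j : ℕ, 2 ^ j • z ≠ 0 ∧ 2 • (2 ^ j • z) = 0 := by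
  induction n with
  | zero => exact absurd (by simpa using hz) h0
  | succ n ih =>
    by_cases h : 2 ^ n • z = 0
    · exact ih h
    · exact ⟨n, h, by rw [smul_smul, mul_comm, ← pow_succ]; exact hz⟩

end gen

section sys

variable {Ω : Type} [Field Ω] [Algebra ℚ Ω] {G : Type} [Group G] {L : Levels G}
  {hG : LGal ℚ Ω L} (S : ABHN.LocSys hG)

/-- core: all but one -/
theorem abo_core {X : Type} [Fintype X] [DecidableEq X] (ξ : G →* Equiv.Perm X)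
    (hξ : LevelTrivial L ξ) (hsmooth : Smooth L hG.act) (c : G)
    (hrec : ∀ (z : H2 L hG.act), 2 • z = 0 → ∀ v : Nat.Primes,
      (∀ q : Nat.Primes, q ≠ v → (S.loc q).h2 z = 0) →
      (resPair L hG.act (Subgroup.zpowers c)).h2 z = 0 → (S.loc v).h2 z = 0)
    (x₀ : X) (hcx : ∀ s ∈ Subgroup.zpowers c, ξ s x₀ = x₀ → s = 1)
    (hct : ∀ x, ∃ s ∈ Subgroup.zpowers c, ξ s x₀ = x)
    (v : Nat.Primes) (hv : ∀ (γ : Gq v) (x : X), (ξ.comp (S.loc v).r) γ x = x) (x₁ : X)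
    (y : H2 L (mapAct ξ hG.act)) (h2 : 2 • y = 0)
    (hq : ∀ q : Nat.Primes, q ≠ v → (ABHN.mapPair ξ (S.loc q)).h2 y = 0)
    (hx : ∀ x, x ≠ x₁ → (evE (ξ.comp (S.loc v).r) (galAct ℚ_[(v : ℕ)] (Cq v)) x
      (fun γ => hv γ x)).h2 _ ((ABHN.mapPair ξ (S.loc v)).h2 y) = 0) :
    (evE (ξ.comp (S.loc v).r) (galAct ℚ_[(v : ℕ)] (Cq v)) x₁
      (fun γ => hv γ x₁)).h2 _ ((ABHN.mapPair ξ (S.loc v)).h2 y) = 0 := by
  set β := (sumHom ξ hG.act).h2 L y with hβ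
  have hβ2 : 2 • β = 0 := by rw [hβ, ← map_nsmul, h2, map_zero]
  have hβq : ∀ q : Nat.Primes, q ≠ v → (S.loc q).h2 β = 0 := by
    intro q hqv
    refine (sum_mapPair ξ (S.loc q) y).trans ?_
    rw [hq q hqv]
    exact map_zero _
  have hreal : (resPair L hG.act (Subgroup.zpowers c)).h2 β = 0 := by
    refine (sum_mapPair ξ (resPair L hG.act (Subgroup.zpowers c)) y).trans ?_
    have h0 : (ABHN.mapPair ξ (resPair L hG.act (Subgroup.zpowers c))).h2 y = 0 := by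
      set ξ' := ξ.comp (resPair L hG.act (Subgroup.zpowers c)).r with hξ'
      have hl : LevelTrivial (L.sub (Subgroup.zpowers c)) ξ' := by
        obtain ⟨N, hN, hs⟩ := hξ
        exact ⟨_, ⟨N, hN, rfl⟩, fun s hs' x => hs _ hs' x⟩
      have hsm : Smooth (L.sub (Subgroup.zpowers c))
          (resAct hG.act (Subgroup.zpowers c)) := hsmooth.sub _
      have ht : IsTrans ξ' x₀ := by
        intro x
        obtain ⟨s, hs, hsx⟩ := hct x
        exact ⟨⟨s, hs⟩, hsx⟩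
      apply (sh_h2_bijective hl hsm ht).1
      have hsub : Subsingleton (stab ξ' x₀) := by
        constructor
        intro a b
        have ha : (a : Subgroup.zpowers c) = 1 := Subtype.ext (hcx _ a.1.2 a.2)
        have hb : (b : Subgroup.zpowers c) = 1 := Subtype.ext (hcx _ b.1.2 b.2)
        exact Subtype.ext (ha.trans hb.symm)
      rw [map_zero]
      exact h2_of_subsingleton _
    rw [h0]
    exact map_zero _
  have hβv : (S.loc v).h2 β = 0 := hrec β hβ2 v hβq hreal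
  have h3 := (sum_mapPair ξ (S.loc v) y).symm.trans hβv
  rw [EHom.h2_sum _ Finset.univ (sumHom (ξ.comp (S.loc v).r) (galAct ℚ_[(v : ℕ)] (Cq v)))
    (fun x => evE (ξ.comp (S.loc v).r) (galAct ℚ_[(v : ℕ)] (Cq v)) x (fun γ => hv γ x))
    (fun a => rfl), Finset.sum_eq_single x₁ (fun x _ hxx => hx x hxx)
    (fun h => absurd (Finset.mem_univ x₁) h)] at h3
  exact h3

lemma locU_congr {X : Type} (ξ : G →* Equiv.Perm X) (x₀ : X) (q : Nat.Primes) {g g' : G}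
    (h : ξ g x₀ = ξ g' x₀) (y : H2 L (mapAct ξ hG.act))
    (h0 : (S.locU q g (stab ξ x₀)).h2 ((shPair L ξ hG.act x₀).h2 y) = 0) :
    (S.locU q g' (stab ξ x₀)).h2 ((shPair L ξ hG.act x₀).h2 y) = 0 := by
  rw [locU_sh S ξ x₀ q g y (fun d hd => (hD_aux S ξ x₀ q g d).1 hd)] at h0
  rw [locU_sh S ξ x₀ q g' y (fun d hd => (hD_aux S ξ x₀ q g' d).1 hd)]
  refine evPair_congr ?_ h _ _ _ h0
  ext d
  rw [hD_aux S ξ x₀ q g d, hD_aux S ξ x₀ q g' d, h]

theorem abo_gen {X : Type} [Fintype X] [DecidableEq X] (ξ : G →* Equiv.Perm X)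
    (hξ : LevelTrivial L ξ) (hsmooth : Smooth L hG.act) (c : G)
    (hrec : ∀ (z : H2 L hG.act), 2 • z = 0 → ∀ v : Nat.Primes,
      (∀ q : Nat.Primes, q ≠ v → (S.loc q).h2 z = 0) →
      (resPair L hG.act (Subgroup.zpowers c)).h2 z = 0 → (S.loc v).h2 z = 0)
    (x₀ : X) (hcx : ∀ s ∈ Subgroup.zpowers c, ξ s x₀ = x₀ → s = 1)
    (hct : ∀ x, ∃ s ∈ Subgroup.zpowers c, ξ s x₀ = x)
    (n : ℕ)
    (habhn : ∀ β : H2 (L.sub (stab ξ x₀)) (resAct hG.act (stab ξ x₀)), 2 ^ n • β = 0 →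
      (∀ (q : Nat.Primes) (g : G), (S.locU q g (stab ξ x₀)).h2 β = 0) → β = 0)
    (v : Nat.Primes) (hv : ∀ (γ : Gq v) (x : X), (ξ.comp (S.loc v).r) γ x = x)
    (x : H2 (L.sub (stab ξ x₀)) (resAct hG.act (stab ξ x₀)))
    (hx : 2 ^ n • x = 0) (g₀ : G)
    (hloc : ∀ (q : Nat.Primes) (g : G), ¬ (q = v ∧ ξ g x₀ = ξ g₀ x₀) →
      (S.locU q g (stab ξ x₀)).h2 x = 0) :
    (S.locU v g₀ (stab ξ x₀)).h2 x = 0 := by
  have ht : IsTrans ξ x₀ := fun x => by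
    obtain ⟨s, -, hs⟩ := hct x
    exact ⟨s, hs⟩
  have hsh := sh_h2_bijective hξ hsmooth ht
  by_contra hne
  obtain ⟨j, hj0, hj2⟩ := exists_two_pow n _ (by rw [← map_nsmul, hx, map_zero]) hne
  obtain ⟨y, hy⟩ := hsh.2 (2 ^ j • x)
  have h2x : 2 • (2 ^ j • x) = 0 := by
    refine habhn _ ?_ (fun q g => ?_)
    · rw [smul_comm, smul_comm (2 ^ n) (2 ^ j) x, hx, smul_zero, smul_zero]
    · by_cases hq : q = v ∧ ξ g x₀ = ξ g₀ x₀
      · obtain ⟨rfl, hg⟩ := hq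
        have h1 : (S.locU q g₀ (stab ξ x₀)).h2 ((shPair L ξ hG.act x₀).h2 (2 • y)) = 0 := by
          rw [map_nsmul (shPair L ξ hG.act x₀).h2, map_nsmul (S.locU q g₀ _).h2, hy,
            map_nsmul (S.locU q g₀ _).h2]
          exact hj2
        have h2 := locU_congr S ξ x₀ q hg.symm (2 • y) h1
        rwa [map_nsmul (shPair L ξ hG.act x₀).h2, hy] at h2
      · rw [map_nsmul, map_nsmul, hloc q g hq, smul_zero, smul_zero]
  have h2y : 2 • y = 0 := by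
    apply hsh.1
    rw [map_nsmul, hy, h2x, map_zero]
  have hlocy : ∀ (q : Nat.Primes) (g : G), ¬ (q = v ∧ ξ g x₀ = ξ g₀ x₀) →
      (S.locU q g (stab ξ x₀)).h2 ((shPair L ξ hG.act x₀).h2 y) = 0 := by
    intro q g hq
    rw [hy, map_nsmul, hloc q g hq, smul_zero]
  have hfull : ∀ (g : G) (γ : Gq v), γ ∈ (stab ξ x₀).comap (ABHN.cj (S.r v) g) := by
    intro g γ
    rw [hD_aux S ξ x₀ v g γ]
    exact hv γ _
  have hcore := abo_core S ξ hξ hsmooth c hrec x₀ hcx hct v hv (ξ g₀ x₀) y h2y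
    (fun q hq => mapPair_eq_zero S ξ hξ x₀ ht q y (fun g => hlocy q g (fun h => hq h.1)))
    (fun x hx => by
      obtain ⟨g, rfl⟩ := ht x
      have h3 := hlocy v g (fun h => hx h.2)
      rw [locU_sh S ξ x₀ v g y (fun d hd => (hD_aux S ξ x₀ v g d).1 hd),
        evPair_eq _ _ _ _ (fun γ => hv γ _)] at h3
      exact res_full _ (hfull g) _ h3)
  apply hj0
  rw [← map_nsmul (S.locU v g₀ _).h2, ← hy,
    locU_sh S ξ x₀ v g₀ y (fun d hd => (hD_aux S ξ x₀ v g₀ d).1 hd),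
    evPair_eq _ _ _ _ (fun γ => hv γ _), hcore, map_zero]

end sys

end Fermat.Agent.ZCFT
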