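import Fermat.Agent.ZCFT.Abo2

/-!
# All-but-one reciprocity for quadratic imaginary fields
-/

set_option autoImplicit false

namespace Fermat.Agent.ZCFT

open Fermat.Agent.PT Fermat.Agent.PTLocal Fermat.Agent.CFT Fermat.Agent.CFT6
open scoped ComplexConjugate

section sys

variable {Ω : Type} [Field Ω] [Algebra ℚ Ω] {G : Type} [Group G] {L : Levels G}
  {hG : LGal ℚ Ω L} (S : ABHN.LocSys hG)

theorem abo_gen' {X : Type} [Fintype X] [DecidableEq X] (ξ : G →* Equiv.Perm X) (x₀ : X)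
    (U : Subgroup G) (hst : stab ξ x₀ = U)
    (hξ : LevelTrivial L ξ) (hsmooth : Smooth L hG.act) (c : G)
    (hrec : ∀ (z : H2 L hG.act), 2 • z = 0 → ∀ v : Nat.Primes,
      (∀ q : Nat.Primes, q ≠ v → (S.loc q).h2 z = 0) →
      (resPair L hG.act (Subgroup.zpowers c)).h2 z = 0 → (S.loc v).h2 z = 0)
    (hcx : ∀ s ∈ Subgroup.zpowers c, ξ s x₀ = x₀ → s = 1)
    (hct : ∀ x, ∃ s ∈ Subgroup.zpowers c, ξ s x₀ = x)
    (n : ℕ)
    (habhn : ∀ β : H2 (L.sub U) (resAct hG.act U), 2 ^ n • β = 0 →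
      (∀ (q : Nat.Primes) (g : G), (S.locU q g U).h2 β = 0) → β = 0)
    (v : Nat.Primes) (hv : ∀ (γ : Gq v) (x : X), ξ (S.r v γ) x = x)
    (x : H2 (L.sub U) (resAct hG.act U))
    (hx : 2 ^ n • x = 0) (g₀ : G)
    (hloc : ∀ (q : Nat.Primes) (g : G), ¬ (q = v ∧ ξ g x₀ = ξ g₀ x₀) →
      (S.locU q g U).h2 x = 0) :
    (S.locU v g₀ U).h2 x = 0 := by
  subst hst
  exact abo_gen S ξ hξ hsmooth c hrec x₀ hcx hct n habhn v hv x hx g₀ hloc

theorem abo_index (U : Subgroup G) (hU : IsOpenSub L U) (h2 : U.index = 2)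
    (hsmooth : Smooth L hG.act) (c : G) (hcc : c * c = 1) (hcU : c ∉ U)
    (hrec : ∀ (z : H2 L hG.act), 2 • z = 0 → ∀ v : Nat.Primes,
      (∀ q : Nat.Primes, q ≠ v → (S.loc q).h2 z = 0) →
      (resPair L hG.act (Subgroup.zpowers c)).h2 z = 0 → (S.loc v).h2 z = 0)
    (n : ℕ)
    (habhn : ∀ β : H2 (L.sub U) (resAct hG.act U), 2 ^ n • β = 0 →
      (∀ (q : Nat.Primes) (g : G), (S.locU q g U).h2 β = 0) → β = 0)
    (v : Nat.Primes) (hv : ∀ γ : Gq v, S.r v γ ∈ U)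
    (x : H2 (L.sub U) (resAct hG.act U))
    (hx : 2 ^ n • x = 0) (g₀ : G)
    (hloc : ∀ (q : Nat.Primes) (g : G), ¬ (q = v ∧ g₀⁻¹ * g ∈ U) →
      (S.locU q g U).h2 x = 0) :
    (S.locU v g₀ U).h2 x = 0 := by
  classical
  have hfi := hU.finiteIndex
  have : Fintype (G ⧸ U) := Fintype.ofFinite _
  have hn : U.Normal := Subgroup.normal_of_index_eq_two h2
  have hcs : ∀ s ∈ Subgroup.zpowers c, s = 1 ∨ s = c := by
    intro s hs
    obtain ⟨k, rfl⟩ := Subgroup.mem_zpowers_iff.1 hs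
    have hc2 : c ^ (2 : ℤ) = 1 := by rw [zpow_ofNat, pow_two]; exact hcc
    rcases Int.even_or_odd' k with ⟨m, hm | hm⟩
    · left
      rw [hm, zpow_mul, hc2, one_zpow]
    · right
      rw [hm, zpow_add, zpow_mul, hc2, one_zpow, one_mul, zpow_one]
  refine abo_gen' S (cosetAct U) ((1 : G) : G ⧸ U) U (stab_cosetAct U) (levelTrivial_cosetAct hU)
    hsmooth c hrec ?_ ?_ n habhn v ?_ x hx g₀ ?_
  · intro s hs hsx
    rcases hcs s hs with rfl | rfl
    · rfl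
    · exfalso
      apply hcU
      rw [cosetAct_mk, mul_one, eq_comm, QuotientGroup.eq, inv_one, one_mul] at hsx
      exact hsx
  · intro x
    obtain ⟨g, rfl⟩ := QuotientGroup.mk_surjective x
    by_cases hg : g ∈ U
    · refine ⟨1, Subgroup.one_mem _, ?_⟩
      rw [cosetAct_mk, mul_one, QuotientGroup.eq, inv_one, one_mul]
      exact hg
    · refine ⟨c, Subgroup.mem_zpowers c, ?_⟩
      rw [cosetAct_mk, mul_one, QuotientGroup.eq, Subgroup.mul_mem_iff_of_index_two h2]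
      rw [U.inv_mem_iff]
      exact iff_of_false hcU hg
  · intro γ x
    obtain ⟨g, rfl⟩ := QuotientGroup.mk_surjective x
    rw [cosetAct_mk, QuotientGroup.eq]
    have h3 := hn.conj_mem _ (U.inv_mem (hv γ)) g⁻¹
    simpa [mul_assoc] using h3
  · intro q g hq
    refine hloc q g (fun h => hq ⟨h.1, ?_⟩)
    rw [cosetAct_mk, cosetAct_mk, mul_one, mul_one, QuotientGroup.eq]
    have h3 := U.inv_mem h.2
    simpa using h3

end sys

end Fermat.Agent.ZCFT
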