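import Fermat.Agent.ZCFT.Abo3

/-!
# All-but-one reciprocity for quadratic imaginary fields
-/

set_option autoImplicit false

open scoped ComplexConjugate

namespace Fermat.Agent.ZCFT

open Fermat.Agent.PT Fermat.Agent.CFT Fermat.Agent.CFT6 Fermat.Agent.PTLocal Fermat.Agent.PTC
  Fermat.Agent.ABHN

attribute [local instance] isGalois_qbar

local notation "Qb" => AlgebraicClosure ℚ

lemma conj_sq {c : PTC.GQ} {ιc : Qb →+* ℂ} (hc : ∀ z, ιc (c z) = conj (ιc z)) : c * c = 1 := by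
  apply AlgEquiv.ext
  intro z
  apply ιc.injective
  rw [AlgEquiv.mul_apply, hc, hc, Complex.conj_conj]
  rfl

/-- **all-but-one reciprocity** over an imaginary quadratic field, at a split prime -/
theorem abo (U : Subgroup PTC.GQ) (hU : IsOpenSub allL U) (h2 : U.index = 2) (c : PTC.GQ)
    (ιc : Qb →+* ℂ) (hc : ∀ z, ιc (c z) = conj (ιc z)) (hcU : c ∉ U) (n : ℕ)
    (x : H2 (allL.sub U) (resAct (galAct ℚ Qb) U)) (hx : 2 ^ n • x = 0) (v : Nat.Primes)
    (hv : ∀ γ : Gq v, ExtCitation.primeLocalToGlobal v γ ∈ U) (g₀ : PTC.GQ)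
    (hloc : ∀ (q : Nat.Primes) (g : PTC.GQ), ¬ (q = v ∧ g₀⁻¹ * g ∈ U) →
      (sysAll.locU q g U).h2 x = 0) :
    (sysAll.locU v g₀ U).h2 x = 0 := by
  have hn : U.Normal := Subgroup.normal_of_index_eq_two h2
  have htc : NumberField.IsTotallyComplex (IntermediateField.fixedField U) :=
    CFR.isTotallyComplex_fixedField U hU c ιc hc (fun g hg => hcU (by
      have h3 := hn.conj_mem _ hg g
      have h4 : g * (g⁻¹ * c * g) * g⁻¹ = c := by group
      rwa [h4] at h3))
  exact abo_index sysAll U hU h2 lgAll.smooth c (conj_sq hc) hcU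
    (fun z hz v hq hr => CFR.recip_br (p := 2) z hz v hq (fun _ => ⟨c, ιc, hc, hr⟩)) n
    (fun β hβ hl => abhn_all_tc (p := 2) U hU htc n β hβ hl) v hv x hx g₀ hloc

end Fermat.Agent.ZCFT
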