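import Fermat.Agent.CFT6.Orbit

/-!
# Relations between classes of primes, and norms
-/

set_option autoImplicit false

set_option maxHeartbeats 400000

open NumberField IsDedekindDomain Fermat.Agent.CFT6

namespace Fermat.Agent.ZCFT

variable {K : Type*} [Field K] [NumberField K]

/-- the ideal class of a place -/
noncomputable def pcl (P : HeightOneSpectrum (𝓞 K)) : ClassGroup (𝓞 K) :=
  ClassGroup.mk0 ⟨P.asIdeal, mem_nonZeroDivisors_of_ne_zero P.ne_bot⟩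

theorem exists_rel {P P' : HeightOneSpectrum (𝓞 K)} {m m' : ℕ} (h : pcl P ^ m = pcl P' ^ m') :
    ∃ x y : 𝓞 K, x ≠ 0 ∧ y ≠ 0 ∧
      Ideal.span {x} * P.asIdeal ^ m = Ideal.span {y} * P'.asIdeal ^ m' := by
  unfold pcl at h
  rw [← map_pow, ← map_pow, ClassGroup.mk0_eq_mk0_iff] at h
  obtain ⟨x, y, hx, hy, h⟩ := h
  exact ⟨x, y, hx, hy, h⟩

lemma exists_mem_not_mem {P P' : HeightOneSpectrum (𝓞 K)} (h : P ≠ P') :
    ∃ a ∈ P.asIdeal, a ∉ P'.asIdeal := by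
  by_contra hcon
  push Not at hcon
  apply h
  apply HeightOneSpectrum.ext
  exact P.isMaximal.eq_of_le P'.isPrime.ne_top hcon

omit [NumberField K] in
lemma norm_le_of_rel {P P' : HeightOneSpectrum (𝓞 K)} {x y : 𝓞 K} {m m' : ℕ}
    (h : Ideal.span {x} * P.asIdeal ^ m = Ideal.span {y} * P'.asIdeal ^ m') {q : ℕ}
    [Fact q.Prime] (ψ : K →+* PadicAlgCl q) {a : 𝓞 K} (ha : a ∈ P.asIdeal) :
    ‖ψ (x : K)‖ * ‖ψ (a : K)‖ ^ m ≤ ‖ψ (y : K)‖ := by
  have h1 : x * a ^ m ∈ Ideal.span {y} := by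
    have h2 : x * a ^ m ∈ Ideal.span {x} * P.asIdeal ^ m :=
      Ideal.mul_mem_mul (Ideal.mem_span_singleton_self x) (Ideal.pow_mem_pow ha m)
    rw [h] at h2
    have h5 : Ideal.span {y} * P'.asIdeal ^ m' ≤ Ideal.span {y} := Ideal.mul_le_left
    exact h5 h2
  obtain ⟨z, hz⟩ := Ideal.mem_span_singleton.1 h1
  have h2 : (x : K) * (a : K) ^ m = (y : K) * (z : K) := by
    have := congrArg (algebraMap (𝓞 K) K) hz
    rwa [map_mul, map_mul, map_pow] at this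
  have h3 : ‖ψ (x : K)‖ * ‖ψ (a : K)‖ ^ m = ‖ψ (y : K)‖ * ‖ψ (z : K)‖ := by
    have h5 : ‖ψ ((x : K) * (a : K) ^ m)‖ = ‖ψ ((y : K) * (z : K))‖ := by rw [h2]
    rwa [map_mul ψ, map_mul ψ, map_pow ψ, norm_mul, norm_mul, norm_pow] at h5
  rw [h3]
  have h4 : ‖ψ (z : K)‖ ≤ 1 := norm_embedding_le_one ψ z
  exact mul_le_of_le_one_right (norm_nonneg _) h4

/-- norms outside the relation -/
theorem norm_eq_of_rel {P P' : HeightOneSpectrum (𝓞 K)} {x y : 𝓞 K} {m m' : ℕ}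
    (h : Ideal.span {x} * P.asIdeal ^ m = Ideal.span {y} * P'.asIdeal ^ m') {q : ℕ}
    [Fact q.Prime] (ψ : K →+* PadicAlgCl q) (h1 : CFT6.place ψ ≠ P) (h2 : CFT6.place ψ ≠ P') :
    ‖ψ (x : K)‖ = ‖ψ (y : K)‖ := by
  obtain ⟨a, ha, ha'⟩ := exists_mem_not_mem h1.symm
  obtain ⟨b, hb, hb'⟩ := exists_mem_not_mem h2.symm
  have e1 : ‖ψ (a : K)‖ = 1 := notMem_primeIdeal.1 ha'
  have e2 : ‖ψ (b : K)‖ = 1 := notMem_primeIdeal.1 hb'
  apply le_antisymm
  · have := norm_le_of_rel h ψ ha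
    rwa [e1, one_pow, mul_one] at this
  · have := norm_le_of_rel h.symm ψ hb
    rwa [e2, one_pow, mul_one] at this

/-- norms at a prime of degree one -/
theorem norm_eq_of_rel' {q : ℕ} [Fact q.Prime] (φ : K →+* PadicAlgCl q)
    (hφ : ∀ z : 𝓞 K, ‖φ (z : K)‖ < 1 → ‖φ (z : K)‖ ≤ (q : ℝ)⁻¹)
    {P' : HeightOneSpectrum (𝓞 K)} (hP : CFT6.place φ ≠ P') {x y : 𝓞 K} {m m' : ℕ}
    (h : Ideal.span {x} * (CFT6.place φ).asIdeal ^ m = Ideal.span {y} * P'.asIdeal ^ m') :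
    ‖φ (y : K)‖ = ‖φ (x : K)‖ * ((q : ℝ)⁻¹) ^ m := by
  have hq0 : (0 : ℝ) ≤ (q : ℝ)⁻¹ := inv_nonneg.2 (Nat.cast_nonneg _)
  apply le_antisymm
  · -- elements of `P ^ m` are small
    have hI : ∀ m : ℕ, ∀ z ∈ (CFT6.place φ).asIdeal ^ m, ‖φ (z : K)‖ ≤ ((q : ℝ)⁻¹) ^ m := by
      intro m
      induction m with
      | zero =>
        intro z _
        rw [pow_zero]
        exact norm_embedding_le_one φ z
      | succ m ih =>
        intro z hz
        rw [pow_succ] at hz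
        refine Submodule.mul_induction_on hz (fun a ha b hb => ?_) (fun a b ha hb => ?_)
        · have e : φ ((a * b : 𝓞 K) : K) = φ (a : K) * φ (b : K) := by
            rw [← map_mul]; rfl
          rw [e, norm_mul, pow_succ]
          exact mul_le_mul (ih a ha) (hφ b hb) (norm_nonneg _) (pow_nonneg hq0 _)
        · have e : φ ((a + b : 𝓞 K) : K) = φ (a : K) + φ (b : K) := by
            rw [← map_add]; rfl
          rw [e]
          exact (PadicAlgCl.isNonarchimedean q _ _).trans (max_le ha hb)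
    obtain ⟨b, hb, hb'⟩ := exists_mem_not_mem hP.symm
    have e2 : ‖φ (b : K)‖ = 1 := notMem_primeIdeal.1 hb'
    have h1 : y * b ^ m' ∈ Ideal.span {x} * (CFT6.place φ).asIdeal ^ m := by
      rw [h]
      exact Ideal.mul_mem_mul (Ideal.mem_span_singleton_self y) (Ideal.pow_mem_pow hb m')
    obtain ⟨z, hz, hz'⟩ := Ideal.mem_span_singleton_mul.1 h1
    have h2 : (x : K) * (z : K) = (y : K) * (b : K) ^ m' := by
      have := congrArg (algebraMap (𝓞 K) K) hz'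
      rwa [map_mul, map_mul, map_pow] at this
    have h3 : ‖φ (x : K)‖ * ‖φ (z : K)‖ = ‖φ (y : K)‖ * ‖φ (b : K)‖ ^ m' := by
      have h5 : ‖φ ((x : K) * (z : K))‖ = ‖φ ((y : K) * (b : K) ^ m')‖ := by rw [h2]
      rwa [map_mul φ, map_mul φ, map_pow φ, norm_mul, norm_mul, norm_pow] at h5
    rw [e2, one_pow, mul_one] at h3
    rw [← h3]
    exact mul_le_mul_of_nonneg_left (hI m z hz) (norm_nonneg _)
  · have h1 := norm_le_of_rel h φ (q_mem_place φ)
    have h2 : ‖φ ((q : 𝓞 K) : K)‖ = (q : ℝ)⁻¹ := by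
      have e : ((q : 𝓞 K) : K) = (q : K) := map_natCast (algebraMap (𝓞 K) K) q
      rw [e, map_natCast]
      exact norm_natCast_q
    rwa [h2] at h1

/-- residue characteristics -/
lemma q_eq_of_place_eq {q q' : Nat.Primes} [Fact (q : ℕ).Prime] [Fact (q' : ℕ).Prime]
    (φ : K →+* PadicAlgCl (q : ℕ)) (φ' : K →+* PadicAlgCl (q' : ℕ)) (h : CFT6.place φ = CFT6.place φ') :
    q = q' := by
  have h1 : (((q' : ℕ) : ℤ) : 𝓞 K) ∈ (CFT6.place φ).asIdeal := by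
    rw [h, Int.cast_natCast]
    exact q_mem_place φ'
  rw [intCast_mem_place, Int.natCast_dvd_natCast, Nat.prime_dvd_prime_iff_eq q.2 q'.2] at h1
  exact Subtype.ext h1

end Fermat.Agent.ZCFT
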