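import Fermat.Agent.ZCFT.GL
import Fermat.Agent.ZCFT.Rel
import Fermat.Agent.PTGlob.Conj

/-!
# Alignment of Frobenius elements and ideal classes
-/

set_option autoImplicit false

set_option maxHeartbeats 1000000

open NumberField IsDedekindDomain

namespace Fermat.Agent.ZCFT

open Fermat.Agent.PT Fermat.Agent.CFT Fermat.Agent.CFT6 Fermat.Agent.PTLocal
open Fermat.Agent.PTGlob (conjPair conj_h2)

section sys

variable {Ω : Type} [Field Ω] [CharZero Ω] {G : Type} [Group G] {L : Levels G}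
  {hG : LGal ℚ Ω L} (S : ABHN.LocSys hG) {U : Subgroup G}

/-- local components only depend on the coset -/
lemma locU_mul (q : Nat.Primes) (g : G) {u : G} (hu : u ∈ U)
    (x : H2 (L.sub U) (resAct hG.act U)) (h : (S.locU q g U).h2 x = 0) :
    (S.locU q (g * u) U).h2 x = 0 := by
  have hle : U.comap (ABHN.cj (S.r q) (g * u)) ≤ U.comap (ABHN.cj (S.r q) g) := by
    intro d hd
    have h1 : (g * u)⁻¹ * S.r q d * (g * u) ∈ U := hd
    have h2 := U.mul_mem (U.mul_mem hu h1) (U.inv_mem hu)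
    have h3 : u * ((g * u)⁻¹ * S.r q d * (g * u)) * u⁻¹ = g⁻¹ * S.r q d * g := by group
    rw [h3] at h2
    exact h2
  let J : PairHom ((S.Lq q).sub (U.comap (ABHN.cj (S.r q) g)))
      (resAct (galAct ℚ_[(q : ℕ)] (Cq q)) (U.comap (ABHN.cj (S.r q) g)))
      ((S.Lq q).sub (U.comap (ABHN.cj (S.r q) (g * u))))
      (resAct (galAct ℚ_[(q : ℕ)] (Cq q)) (U.comap (ABHN.cj (S.r q) (g * u)))) :=
    { r := Subgroup.inclusion hle
      f := AddMonoidHom.id _
      lev := by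
        rintro _ ⟨N, hN, rfl⟩
        exact ⟨_, ⟨N, hN, rfl⟩, fun γ hγ => hγ⟩
      comm := fun _ _ => rfl }
  have key : (S.locU q (g * u) U).h2 x =
      J.h2 ((S.locU q g U).h2 ((conjPair (L.sub U) (resAct hG.act U) ⟨u, hu⟩).h2 x)) := by
    refine Eq.trans ?_ (PairHom.h2_comp J (S.locU q g U)
      ((conjPair (L.sub U) (resAct hG.act U) ⟨u, hu⟩).h2 x))
    refine Eq.trans ?_ (PairHom.h2_comp (J.comp (S.locU q g U))
      (conjPair (L.sub U) (resAct hG.act U) ⟨u, hu⟩) x)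
    refine PairHom.h2_congr (φ := S.locU q (g * u) U)
      (ψ := (J.comp (S.locU q g U)).comp (conjPair (L.sub U) (resAct hG.act U) ⟨u, hu⟩))
      (fun γ => ?_) (fun a => ?_) x
    · apply Subtype.ext
      show (g * u)⁻¹ * S.r q γ * (g * u) = u⁻¹ * (g⁻¹ * S.r q γ * g) * u
      group
    · show ABHN.embU (S.e q) (hG.act (g * u) a) = ABHN.embU (S.e q) (hG.act g (hG.act u a))
      rw [act_mul]
  rw [key, conj_h2, h, map_zero]

variable [IsGalois ℚ Ω] (hinj : Function.Injective hG.j) {N : ℕ} (θ : Chi N (L.sub U))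

include hinj in
/-- **(A3)** -/
theorem loc_zero (hU : IsOpenSub L U) [NeZero N] (F : IntermediateField ℚ Ω)
    [FiniteDimensional ℚ F] (hF : F.fixingSubgroup ≤ imKer hG θ) (v : Nat.Primes) (g : G)
    (hv : ∀ γ, ABHN.cj (S.r v) g γ ∈ U)
    (hI : ∀ s ∈ U, hG.j s ∈ (plc (eg S v g)).inertiaSubgroupIn ℚ → hG.j s ∈ imKer hG θ)
    (b : H0 (resAct hG.act U))
    {τ : G} (hτ : τ ∈ U) (hτF : (plc (eg S v g)).IsFrobeniusAt (hG.j τ) (v : ℕ))
    (h0 : (θ : U → ZMod N) ⟨τ, hτ⟩ = 0) : (S.locU v g U).h2 (cls θ b) = 0 := by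
  rw [cls_pull]
  set D := U.comap (ABHN.cj (S.r v) g) with hD
  have hDo := S.isOpen_D v g hU
  obtain ⟨f, hf0, hf⟩ := exists_root_near (eg S v g) F
  set M := f * N with hMdef
  have hM : 0 < M := Nat.mul_pos hf0 (Nat.pos_of_ne_zero (NeZero.ne N))
  obtain ⟨R, hR⟩ := exists_RD_top (S.hq v) (S.hqj v) D hDo hv hM
  have hroot : ∀ (γ : Gq v) (n : ℕ), n ≠ 0 → (∀ ξ : Cq v, ξ ^ ((v : ℕ) ^ M - 1) = 1 → γ ξ = ξ ^ n) →
      ∀ x : integralClosure ℤ Ω, (x : Ω) ∈ F →
      ‖eg S v g (hG.j (ABHN.cj (S.r v) g γ) x) - eg S v g (x : Ω) ^ n‖ < 1 :=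
    fun γ n hn h => near_of_root (eg S v g) (F := F) (M := M)
      (hf M hM (Dvd.intro _ rfl)) (hG.j (ABHN.cj (S.r v) g γ)) γ
      (fun x => eg_cj S v g γ x) hn h
  have hker : ∀ γ, (R.θur hM dvd_rfl : D → ZMod M) γ = 0 →
      (pullN (S.locU v g U) θ : D → ZMod N) γ = 0 := by
    intro γ hγ
    show (θ : U → ZMod N) ⟨ABHN.cj (S.r v) g γ, γ.2⟩ = 0
    have h1 := chi_eq_of_near S hinj θ F hF v g hI (τ := 1) U.one_mem γ γ.2 (fun x hx => by
      have h2 := hroot γ 1 one_ne_zero (fun ξ hξ => by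
        have h3 := R.root_fix hM hγ (ξ := ξ) (by rw [hR]; exact hξ)
        rw [pow_one]
        refine Eq.trans ?_ h3
        exact (DFunLike.congr_fun (S.hqj v γ) ξ).symm) x hx
      rw [pow_one] at h2
      rw [map_one, AlgEquiv.one_apply, norm_sub_rev]
      exact h2)
    rw [← h1]
    exact chiN_one θ
  have hθ : (pullN (S.locU v g U) θ : D → ZMod N) R.F = 0 := by
    rw [← h0]
    show (θ : U → ZMod N) ⟨ABHN.cj (S.r v) g R.F, R.F.2⟩ = _
    symm
    refine chi_eq_of_near S hinj θ F hF v g hI hτ R.F R.F.2 (fun x hx => ?_)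
    refine norm_sub_lt_trans (near_frob (eg S v g) hτF x) ?_
    rw [norm_sub_rev]
    refine hroot R.F v v.2.ne_zero (fun ξ hξ => ?_) x hx
    have h3 := R.hF ξ (by rw [hR]; exact hξ)
    rw [hR] at h3
    refine Eq.trans ?_ h3
    exact (DFunLike.congr_fun (S.hqj v R.F) ξ).symm
  have hz : pullN (S.locU v g U) θ = 0 := by
    apply Subtype.ext
    funext γ
    rw [R.chi_spec hM (Dvd.intro_left _ rfl) _ hker γ, hθ, zero_mul]
    rfl
  rw [hz, cls_zero_left]

end sys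

end Fermat.Agent.ZCFT
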