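import Fermat.Agent.ZCFT.Align

/-!
# Alignment of Frobenius elements and ideal classes
-/

set_option autoImplicit false

set_option maxHeartbeats 1000000

open NumberField IsDedekindDomain

namespace Fermat.Agent.ZCFT

open Fermat.Agent.PT Fermat.Agent.CFT Fermat.Agent.CFT6 Fermat.Agent.PTLocal

section sys

variable {Ω : Type} [Field Ω] [CharZero Ω] [IsGalois ℚ Ω] {G : Type} [Group G] {L : Levels G}
  {hG : LGal ℚ Ω L} (S : ABHN.LocSys hG) {U : Subgroup G}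

omit [IsGalois ℚ Ω] in
/-- split places: elements of `K` are mapped to `ℚ_v`. -/
lemma fixed_of_split {K : IntermediateField ℚ Ω} (hUK : ∀ g, g ∈ U ↔ hG.j g ∈ K.fixingSubgroup)
    {v : Nat.Primes} {g : G} (hv : ∀ γ, ABHN.cj (S.r v) g γ ∈ U) (x : K) (γ : Gq v) :
    γ (eg S v g (x : Ω)) = eg S v g (x : Ω) := by
  rw [← eg_cj]
  have h1 := (IntermediateField.mem_fixingSubgroup_iff _ _).1 ((hUK _).1 (hv γ)) x x.2
  rw [h1]

/-- places of `K` over a split prime -/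
lemma coset_of_place {K : IntermediateField ℚ Ω} [NumberField K]
    (hUK : ∀ g, g ∈ U ↔ hG.j g ∈ K.fixingSubgroup)
    {v q : Nat.Primes} {g g' : G} (hv : ∀ γ, ABHN.cj (S.r v) g γ ∈ U)
    (h : CFT6.place (embF (eg S q g') K) = CFT6.place (embF (eg S v g) K)) :
    q = v ∧ g⁻¹ * g' ∈ U := by
  have hq : q = v := q_eq_of_place_eq _ _ h
  subst hq
  refine ⟨rfl, ?_⟩
  obtain ⟨τ, hτ⟩ := place_eq_iff.1 h
  rw [hUK, IntermediateField.mem_fixingSubgroup_iff]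
  intro x hx
  have h1 : τ (eg S q g' x) = eg S q g x := hτ ⟨x, hx⟩
  have h2 : eg S q g' x = eg S q g x := by
    have h3 := fixed_of_split S hUK hv ⟨x, hx⟩ (τ⁻¹)
    rw [← h3]
    show _ = τ⁻¹ (eg S q g x)
    rw [← h1, ← AlgEquiv.mul_apply, inv_mul_cancel, AlgEquiv.one_apply]
  rw [eg_apply, eg_apply] at h2
  have h3 := (S.e q).injective h2
  rw [map_mul, AlgEquiv.mul_apply, h3, ← AlgEquiv.mul_apply, ← map_mul, inv_mul_cancel, map_one,
    AlgEquiv.one_apply]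

variable (hinj : Function.Injective hG.j)

include hinj in
/-- **alignment** -/
theorem align {K : IntermediateField ℚ Ω} [NumberField K]
    (hUK : ∀ g, g ∈ U ↔ hG.j g ∈ K.fixingSubgroup) (hU : IsOpenSub L U)
    (hU2 : ∀ a b, a ∉ U → b ∉ U → a * b ∈ U) {n : ℕ} (hn : 0 < n)
    (habo : ∀ (x : H2 (L.sub U) (resAct hG.act U)), 2 ^ n • x = 0 → ∀ v : Nat.Primes, ∀ g₀ : G,
      (∀ γ : Gq v, ABHN.cj (S.r v) g₀ γ ∈ U) →
      (∀ (q : Nat.Primes) (g : G), ¬ (q = v ∧ g₀⁻¹ * g ∈ U) → (S.locU q g U).h2 x = 0) →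
      (S.locU v g₀ U).h2 x = 0)
    (θ : Chi (2 ^ n) (L.sub U)) (F : IntermediateField ℚ Ω) [FiniteDimensional ℚ F]
    (hF : F.fixingSubgroup ≤ imKer hG θ)
    (hI : ∀ (q : Nat.Primes) (g : G), ∀ s ∈ U,
      hG.j s ∈ (plc (eg S q g)).inertiaSubgroupIn ℚ → hG.j s ∈ imKer hG θ)
    {v : Nat.Primes} {g : G} (hv : ∀ γ, ABHN.cj (S.r v) g γ ∈ U) {τ : G} (hτ : τ ∈ U)
    (hτF : (plc (eg S v g)).IsFrobeniusAt (hG.j τ) (v : ℕ))
    {v' : Nat.Primes} {g' : G} (hv' : ∀ γ, ABHN.cj (S.r v') g' γ ∈ U) {τ' : G} (hτ' : τ' ∈ U)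
    (hτF' : (plc (eg S v' g')).IsFrobeniusAt (hG.j τ') (v' : ℕ))
    (hPP : CFT6.place (embF (eg S v g) K) ≠ CFT6.place (embF (eg S v' g') K)) {m m' : ℕ}
    (hrel : pcl (CFT6.place (embF (eg S v g) K)) ^ m =
      pcl (CFT6.place (embF (eg S v' g') K)) ^ m')
    (h0 : (θ : U → ZMod (2 ^ n)) ⟨τ', hτ'⟩ = 0) :
    (m : ZMod (2 ^ n)) * (θ : U → ZMod (2 ^ n)) ⟨τ, hτ⟩ = 0 := by
  obtain ⟨x, y, hx0, hy0, hxy⟩ := exists_rel hrel
  have hxK : (x : K) ≠ 0 := fun h => hx0 (RingOfIntegers.ext h)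
  have hyK : (y : K) ≠ 0 := fun h => hy0 (RingOfIntegers.ext h)
  set b : K := (y : K) / (x : K) with hb
  have hb0 : (b : Ω) ≠ 0 := by
    intro h
    exact div_ne_zero hyK hxK (Subtype.ext h)
  have hnb : ∀ (q : Nat.Primes) (g : G), ‖eg S q g (b : Ω)‖ =
      ‖embF (eg S q g) K (y : K)‖ / ‖embF (eg S q g) K (x : K)‖ := by
    intro q g
    rw [← norm_div, ← map_div₀, embF_apply]
  let bU : H0 (resAct hG.act U) := ⟨Additive.ofMul (Units.mk0 (b : Ω) hb0), by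
    rw [mem_H0]
    intro u
    apply Additive.toMul.injective
    apply Units.ext
    exact (IntermediateField.mem_fixingSubgroup_iff _ _).1 ((hUK u).1 u.2) b b.2⟩
  have hbU : ((Additive.toMul (bU : Additive Ωˣ) : Ωˣ) : Ω) = (b : Ω) := rfl
  have hx1 : ∀ (q : Nat.Primes) (g : G), ‖embF (eg S q g) K (x : K)‖ ≠ 0 := fun q g => by
    rw [norm_ne_zero_iff]
    exact (map_ne_zero _).2 hxK
  -- local triviality
  have hloc : ∀ (q : Nat.Primes) (g₁ : G), ¬ (q = v ∧ g⁻¹ * g₁ ∈ U) →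
      (S.locU q g₁ U).h2 (cls θ bU) = 0 := by
    intro q g₁ hq
    by_cases h1 : CFT6.place (embF (eg S q g₁) K) = CFT6.place (embF (eg S v g) K)
    · exact absurd (coset_of_place S hUK hv h1) hq
    by_cases h2 : CFT6.place (embF (eg S q g₁) K) = CFT6.place (embF (eg S v' g') K)
    · obtain ⟨rfl, hg⟩ := coset_of_place S hUK hv' h2
      have h3 := loc_zero S hinj θ hU F hF q g' hv' (hI q g') bU hτ' hτF' h0
      have h4 := locU_mul S q g' hg _ h3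
      rwa [mul_inv_cancel_left] at h4
    · refine loc_unit S hinj hU hU2 θ F hF q g₁ (hI q g₁) bU ?_
      rw [hbU, hnb, norm_eq_of_rel hxy (embF (eg S q g₁) K) h1 h2]
      exact div_self (by
        rw [norm_ne_zero_iff]
        exact (map_ne_zero _).2 hyK)
  have h1 := habo (cls θ bU) (card_smul_cls θ bU) v g hv hloc
  obtain ⟨k, hk⟩ := loc_split S hinj θ hU (Nat.one_lt_pow hn.ne' one_lt_two) F hF v g hv (hI v g)
    bU h1 hτ hτF
  -- the norm at `v`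
  have hφ : ∀ z : 𝓞 K, ‖embF (eg S v g) K (z : K)‖ < 1 →
      ‖embF (eg S v g) K (z : K)‖ ≤ ((v : ℕ) : ℝ)⁻¹ := by
    intro z hz
    rcases eq_or_ne (embF (eg S v g) K (z : K)) 0 with h2 | h2
    · rw [h2, norm_zero]
      exact inv_nonneg.2 (Nat.cast_nonneg _)
    · obtain ⟨i, hi⟩ := exists_zpow_of_fixed _ h2 (fun γ => fixed_of_split S hUK hv (z : K) γ)
      rw [hi] at hz ⊢
      have hv1 : (1 : ℝ) < ((v : ℕ) : ℝ) := by exact_mod_cast v.2.one_lt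
      have h3 : i < 0 := by
        by_contra hcon
        push Not at hcon
        exact absurd (one_le_zpow₀ hv1.le hcon) (not_le.2 hz)
      rw [← zpow_neg_one]
      exact zpow_le_zpow_right₀ hv1.le (by omega)
  have hnorm := norm_eq_of_rel' (embF (eg S v g) K) hφ hPP hxy
  have hbv : ‖eg S v g (b : Ω)‖ = (((v : ℕ) : ℝ)⁻¹) ^ m := by
    rw [hnb, hnorm, mul_comm, mul_div_assoc, div_self (hx1 v g), mul_one]
  rw [hbU, hbv] at hk
  have hv1 : (1 : ℝ) < ((v : ℕ) : ℝ) := by exact_mod_cast v.2.one_lt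
  set t := ((θ : U → ZMod (2 ^ n)) ⟨τ, hτ⟩).val with ht
  have h2 : ((v : ℕ) : ℝ) ^ (-((m * t : ℕ) : ℤ)) = ((v : ℕ) : ℝ) ^ (k * ((2 ^ n : ℕ) : ℤ)) := by
    rw [zpow_neg, zpow_natCast, zpow_mul, zpow_natCast, ← hk, ← pow_mul, inv_pow]
  have h3 := zpow_right_injective₀ (by linarith) hv1.ne' h2
  have h4 : ((2 ^ n : ℕ) : ℤ) ∣ ((m * t : ℕ) : ℤ) := ⟨-k, by linear_combination -h3⟩
  have h5 : ((m * t : ℕ) : ZMod (2 ^ n)) = 0 :=
    (ZMod.natCast_eq_zero_iff _ _).2 (by exact_mod_cast h4)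
  rw [Nat.cast_mul, ht, ZMod.natCast_val, ZMod.cast_id', id] at h5
  exact h5

end sys

end Fermat.Agent.ZCFT
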