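import Fermat.Agent.ZCFT.Split

/-!
# The class field theory inequality for unramified `2`-extensions of imaginary quadratic fields
-/

set_option autoImplicit false

set_option maxHeartbeats 1000000

open NumberField IsDedekindDomain
open scoped Pointwise ComplexConjugate

namespace Fermat.Agent.ZCFT

open Fermat.Agent.PT Fermat.Agent.CFT Fermat.Agent.CFT6 Fermat.Agent.PTLocal Fermat.Agent.PTC
  Fermat.Agent.ABHN

attribute [local instance] isGalois_qbar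

local notation "Qb" => AlgebraicClosure ℚ

/-- characters of quotients -/
noncomputable def chiOf {U : Subgroup PTC.GQ} {B : Type} [CommGroup B] (π : U →* B) {N : ℕ}
    (χ : B →* Multiplicative (ZMod N)) (F : IntermediateField ℚ Qb) (hF : FiniteDimensional ℚ F)
    (hFπ : ∀ g (hg : g ∈ U), g ∈ F.fixingSubgroup → π ⟨g, hg⟩ = 1) : Chi N (allL.sub U) :=
  ⟨fun u => Multiplicative.toAdd (χ (π u)), by
    rw [mem_Z1']
    refine ⟨?_, fun g h => ?_⟩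
    · obtain ⟨N₀, hN₀, hle⟩ := exists_allL_le F hF
      refine ⟨_, ⟨N₀, hN₀, rfl⟩, fun g s hs => ?_⟩
      show Multiplicative.toAdd (χ (π (g * s))) = Multiplicative.toAdd (χ (π g))
      have h1 : π s = 1 := hFπ s s.2 (hle hs)
      rw [map_mul, h1, mul_one]
    · show Multiplicative.toAdd (χ (π (g * h))) = _
      rw [map_mul, map_mul, toAdd_mul, trivAct_apply]⟩

/-- Frobenius data -/
theorem exists_FD (U : Subgroup PTC.GQ) (F : IntermediateField ℚ Qb) (hF : FiniteDimensional ℚ F)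
    (hFU : F.fixingSubgroup ≤ U) {σ : PTC.GQ} (hσ : σ ∈ U) (T : Finset ℕ) :
    ∃ (v : Nat.Primes) (g τ : PTC.GQ) (_ : τ ∈ U), (v : ℕ) ∉ T ∧
      (plc (eg sysAll v g)).IsFrobeniusAt τ (v : ℕ) ∧
      (∀ γ : Gq v, cj (sysAll.r v) g γ ∈ U) ∧ (∃ j : ℕ, σ⁻¹ * τ ^ j ∈ F.fixingSubgroup) ∧
      ∃ k : ℕ, τ⁻¹ * σ ^ k ∈ F.fixingSubgroup := by
  obtain ⟨ℓ, hℓ, hℓT, A, hA, hAI, τ, hτF, ⟨j, hj⟩, ⟨k, hk⟩⟩ :=
    FrobDensity.exists_frobenius_pow_eq F hF σ T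
  obtain ⟨g, rfl⟩ := exists_plc sysAll Function.surjective_id ⟨ℓ, hℓ⟩ hA
  have h1 : τ⁻¹ * σ ^ k ∈ F.fixingSubgroup := by
    rw [IntermediateField.mem_fixingSubgroup_iff]
    intro x hx
    rw [AlgEquiv.mul_apply, hk x hx, ← AlgEquiv.mul_apply, inv_mul_cancel, AlgEquiv.one_apply]
  have h2 : σ⁻¹ * τ ^ j ∈ F.fixingSubgroup := by
    rw [IntermediateField.mem_fixingSubgroup_iff]
    intro x hx
    rw [AlgEquiv.mul_apply, hj x hx, ← AlgEquiv.mul_apply, inv_mul_cancel, AlgEquiv.one_apply]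
  have hτ : τ ∈ U := by
    have h3 := U.mul_mem (U.pow_mem hσ k) (U.inv_mem (hFU h1))
    have h4 : σ ^ k * (τ⁻¹ * σ ^ k)⁻¹ = τ := by group
    rwa [h4] at h3
  exact ⟨⟨ℓ, hℓ⟩, g, τ, hτ, hℓT, hτF,
    fun γ => split_of_frob sysAll F (fun g hg => hFU hg) ⟨ℓ, hℓ⟩ g hAI hτ hτF γ, ⟨j, h2⟩, k, h1⟩

/-- **the inequality**, in terms of surjections -/
theorem cf1_hom (K : IntermediateField ℚ Qb) (hKfd : FiniteDimensional ℚ K) [NumberField K]
    (U : Subgroup PTC.GQ) (hU : U = K.fixingSubgroup)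
    (h2 : U.index = 2) (c : PTC.GQ) (ιc : Qb →+* ℂ)
    (hc : ∀ z, ιc (c z) = conj (ιc z)) (hcU : c ∉ U)
    {B : Type} [CommGroup B] [Finite B] (π : U →* B)
    (hπ : Function.Surjective π) {n : ℕ} (hn : 0 < n) (hB : ∀ b : B, b ^ (2 ^ n) = 1)
    (F : IntermediateField ℚ Qb) (hF : FiniteDimensional ℚ F) (hKF : K ≤ F)
    (hFπ : ∀ g (hg : g ∈ U), g ∈ F.fixingSubgroup → π ⟨g, hg⟩ = 1)
    (hI : ∀ q : ℕ, q.Prime → ∀ A : ValuationSubring Qb, A.LiesOverPrime q →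
      ∀ s ∈ A.inertiaSubgroupIn ℚ, ∀ hs : s ∈ U, π ⟨s, hs⟩ = 1) :
    Nat.card B ≤ Nat.card {x : ClassGroup (𝓞 K) // ∃ k : ℕ, x ^ (2 ^ k) = 1} := by
  classical
  have hUo : IsOpenSub allL U := isOpenSub_allL_iff.2 ⟨K, hKfd, hU.ge⟩
  have hUn : U.Normal := Subgroup.normal_of_index_eq_two h2
  have hFU : F.fixingSubgroup ≤ U := (IntermediateField.fixingSubgroup_antitone hKF).trans hU.ge
  -- Frobenius data for cyclic subgroups
  have hP : ∀ (C : {C : Subgroup B // IsCyclic C}) (T : Finset ℕ), ∃ m ∉ T,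
      ∃ (v : Nat.Primes) (g τ : PTC.GQ) (hτ : τ ∈ U), (v : ℕ) = m ∧
      (plc (eg sysAll v g)).IsFrobeniusAt τ (v : ℕ) ∧
      (∀ γ : Gq v, cj (sysAll.r v) g γ ∈ U) ∧ Subgroup.zpowers (π ⟨τ, hτ⟩) = C.1 := by
    intro C T
    obtain ⟨b, hb⟩ : ∃ b : B, Subgroup.zpowers b = C.1 := by
      obtain ⟨⟨b, hbC⟩, hb⟩ := C.2.exists_generator
      refine ⟨b, le_antisymm (by rw [Subgroup.zpowers_le]; exact hbC) (fun x hx => ?_)⟩
      obtain ⟨k, hk⟩ := Subgroup.mem_zpowers_iff.1 (hb ⟨x, hx⟩)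
      exact Subgroup.mem_zpowers_iff.2 ⟨k, congrArg Subtype.val hk⟩
    obtain ⟨⟨σ, hσ⟩, rfl⟩ := hπ b
    obtain ⟨v, g, τ, hτ, hvT, hτF, hγ, ⟨j, hj⟩, ⟨k, hk⟩⟩ := exists_FD U F hF hFU hσ T
    refine ⟨v, hvT, v, g, τ, hτ, rfl, hτF, hγ, ?_⟩
    rw [← hb]
    have h3 : π ⟨σ, hσ⟩ = π ⟨τ, hτ⟩ ^ j := by
      have h4 := hFπ _ (hFU hj) hj
      have h5 : (⟨σ⁻¹ * τ ^ j, hFU hj⟩ : U) = (⟨σ, hσ⟩ : U)⁻¹ * (⟨τ, hτ⟩ : U) ^ j := rfl
      rw [h5, map_mul, map_inv, map_pow, inv_mul_eq_one] at h4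
      exact h4
    have h4 : π ⟨τ, hτ⟩ = π ⟨σ, hσ⟩ ^ k := by
      have h4 := hFπ _ (hFU hk) hk
      have h5 : (⟨τ⁻¹ * σ ^ k, hFU hk⟩ : U) = (⟨τ, hτ⟩ : U)⁻¹ * (⟨σ, hσ⟩ : U) ^ k := rfl
      rw [h5, map_mul, map_inv, map_pow, inv_mul_eq_one] at h4
      exact h4
    apply le_antisymm
    · rw [Subgroup.zpowers_le, h4]
      exact Subgroup.pow_mem _ (Subgroup.mem_zpowers _) k
    · rw [Subgroup.zpowers_le, h3]
      exact Subgroup.pow_mem _ (Subgroup.mem_zpowers _) j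
  obtain ⟨f, hfinj, hf⟩ := exists_injective_choice _ hP
  choose v g τ hτ hvf hτF hγ hz using hf
  refine card_le_of_align hB (fun C => π ⟨τ C, hτ C⟩) hz
    (fun C => pcl (CFT6.place (embF (eg sysAll (v C) (g C)) K))) ?_
  intro C C' hCC m m' hrel
  by_contra hcon
  obtain ⟨χ, hχC, hχ⟩ := exists_char hB C'.1 hcon
  apply hχ
  have hPP : CFT6.place (embF (eg sysAll (v C) (g C)) K) ≠
      CFT6.place (embF (eg sysAll (v C') (g C')) K) := by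
    intro h
    have h3 := q_eq_of_place_eq _ _ h
    apply hCC
    apply hfinj
    rw [← hvf C, ← hvf C', h3]
  have hker : ∀ s (hs : s ∈ U), π ⟨s, hs⟩ = 1 → s ∈ imKer lgAll (chiOf π χ F hF hFπ) := by
    intro s hs h
    refine ⟨⟨s, hs⟩, ?_, rfl⟩
    show Multiplicative.toAdd (χ (π ⟨s, hs⟩)) = 0
    rw [h, map_one]; rfl
  have h3 := align (hG := lgAll) sysAll (U := U) Function.injective_id (K := K) (fun g => by rw [hU]; exact Iff.rfl)
    hUo (fun a b ha hb => by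
      rw [Subgroup.mul_mem_iff_of_index_two h2]
      exact iff_of_false ha hb) hn
    (fun x hx v g₀ hv hloc => abo U hUo h2 c ιc hc hcU n x hx v (fun γ => by
      have h4 := hUn.conj_mem _ (hv γ) g₀
      have h5 : g₀ * (cj (sysAll.r v) g₀ γ) * g₀⁻¹ = sysAll.r v γ := by
        rw [cj_apply]; group
      rw [h5] at h4
      exact h4) g₀ hloc)
    (chiOf π χ F hF hFπ) F (fun s hs => hker s (hFU hs) (hFπ s (hFU hs) hs))
    (fun q g s hs hsI => hker s hs (hI q q.2 _ (liesOver_plc _) s hsI hs))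
    (hγ C) (hτ C) (hτF C) (hγ C') (hτ C') (hτF C') hPP hrel (by
      show Multiplicative.toAdd (χ (π ⟨τ C', hτ C'⟩)) = 0
      rw [hχC _ (by rw [← hz C']; exact Subgroup.mem_zpowers _)]; rfl)
  have h4 : (m : ZMod (2 ^ n)) * Multiplicative.toAdd (χ (π ⟨τ C, hτ C⟩)) = 0 := h3
  rw [map_pow]
  apply Multiplicative.toAdd.injective
  rw [toAdd_pow, nsmul_eq_mul, h4]
  rfl

end Fermat.Agent.ZCFT
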