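import Mathlib

/-!
# Group theory for the class field theory inequality
-/

set_option autoImplicit false

namespace Fermat.Agent.ZCFT

/-- distinct choices -/
lemma exists_injective_choice {I : Type*} [Finite I] (P : I → ℕ → Prop)
    (h : ∀ i (S : Finset ℕ), ∃ n ∉ S, P i n) :
    ∃ f : I → ℕ, Function.Injective f ∧ ∀ i, P i (f i) := by
  classical
  have key : ∀ (s : Finset I), ∃ f : I → ℕ, Set.InjOn f s ∧ ∀ i ∈ s, P i (f i) := by
    intro s
    induction s using Finset.induction_on with
    | empty => exact ⟨fun _ => 0, by simp, by simp⟩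
    | insert a s ha ih =>
      obtain ⟨f, hf, hP⟩ := ih
      obtain ⟨n, hn, hPn⟩ := h a (s.image f)
      refine ⟨fun i => if i = a then n else f i, ?_, ?_⟩
      · intro i hi j hj hij
        have hi' : i = a ∨ i ∈ s := by simpa using hi
        have hj' : j = a ∨ j ∈ s := by simpa using hj
        simp only at hij
        rcases hi' with rfl | hi' <;> rcases hj' with rfl | hj'
        · rfl
        · rw [if_pos rfl] at hij
          by_cases hja : j = i
          · exact hja.symm
          · rw [if_neg hja] at hij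
            exact absurd (Finset.mem_image_of_mem f hj') (hij ▸ hn)
        · rw [if_pos rfl] at hij
          by_cases hia : i = j
          · exact hia
          · rw [if_neg hia] at hij
            exact absurd (Finset.mem_image_of_mem f hi') (hij.symm ▸ hn)
        · have hia : i ≠ a := fun h' => ha (h' ▸ hi')
          have hja : j ≠ a := fun h' => ha (h' ▸ hj')
          rw [if_neg hia, if_neg hja] at hij
          exact hf hi' hj' hij
      · intro i hi
        rw [Finset.mem_insert] at hi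
        by_cases hia : i = a
        · subst hia
          simpa using hPn
        · simp only [if_neg hia]
          exact hP i (hi.resolve_left hia)
  have hft : Fintype I := Fintype.ofFinite I
  obtain ⟨f, hf, hP⟩ := key Finset.univ
  exact ⟨f, fun i j hij => hf (by simp) (by simp) hij, fun i => hP i (Finset.mem_univ i)⟩

/-- odd powers generate -/
lemma mem_of_odd_pow {B : Type*} [Group B] (H : Subgroup B) {n : ℕ} {x : B}
    (hx : x ^ (2 ^ n) = 1) {a : ℕ} (ha : Odd a) (h : x ^ a ∈ H) : x ∈ H := by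
  have hcop : Nat.Coprime a (2 ^ n) := Nat.Coprime.pow_right n (Nat.coprime_two_right.2 ha)
  have h1 := Nat.gcd_eq_gcd_ab a (2 ^ n)
  rw [hcop.gcd_eq_one] at h1
  have h2 : x = (x ^ a) ^ (a.gcdA (2 ^ n)) * (x ^ (2 ^ n)) ^ (a.gcdB (2 ^ n)) := by
    rw [← zpow_natCast x a, ← zpow_natCast x (2 ^ n), ← zpow_mul, ← zpow_mul, ← zpow_add, ← h1]
    simp
  rw [h2, hx, one_zpow, mul_one]
  exact H.zpow_mem h _

/-- characters with values in `ℤ/2ⁿ` separate points from subgroups -/
theorem exists_char {B : Type} [CommGroup B] [Finite B] {n : ℕ} (hB : ∀ b : B, b ^ (2 ^ n) = 1)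
    (C : Subgroup B) {b : B} (hb : b ∉ C) :
    ∃ χ : B →* Multiplicative (ZMod (2 ^ n)), (∀ c ∈ C, χ c = 1) ∧ χ b ≠ 1 := by
  have hb' : (QuotientGroup.mk b : B ⧸ C) ≠ 1 := fun h => hb ((QuotientGroup.eq_one_iff b).1 h)
  obtain ⟨φ, hφ⟩ := CommGroup.exists_apply_ne_one_of_hasEnoughRootsOfUnity (B ⧸ C) ℂ hb'
  have h0 : NeZero (2 ^ n) := ⟨pow_ne_zero _ two_ne_zero⟩
  have hval : ∀ x : B, φ (QuotientGroup.mk x) ∈ rootsOfUnity (2 ^ n) ℂ := by
    intro x
    rw [mem_rootsOfUnity, ← map_pow, ← QuotientGroup.mk_pow, hB]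
    exact map_one φ
  let ψ : B →* rootsOfUnity (2 ^ n) ℂ :=
    (φ.comp (QuotientGroup.mk' C)).codRestrict _ hval
  have hcard : Nat.card (rootsOfUnity (2 ^ n) ℂ) = Nat.card (Multiplicative (ZMod (2 ^ n))) := by
    rw [Nat.card_congr Multiplicative.toAdd, Nat.card_zmod, Complex.card_rootsOfUnity]
  let e : rootsOfUnity (2 ^ n) ℂ ≃* Multiplicative (ZMod (2 ^ n)) := mulEquivOfCyclicCardEq hcard
  refine ⟨e.toMonoidHom.comp ψ, fun c hc => ?_, fun h => hφ ?_⟩
  · show e (ψ c) = 1
    have h1 : ψ c = 1 := by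
      apply Subtype.ext
      show φ (QuotientGroup.mk c) = 1
      rw [(QuotientGroup.eq_one_iff c).2 hc, map_one]
    rw [h1, map_one]
  · have h1 : e (ψ b) = 1 := h
    have h2 : ψ b = 1 := e.injective (h1.trans (map_one e).symm)
    exact congrArg Subtype.val h2

/-- **counting** -/
theorem card_le_of_align {B : Type} [CommGroup B] [Finite B] {n : ℕ}
    (hB : ∀ b : B, b ^ (2 ^ n) = 1) {H : Type*} [CommGroup H] [Finite H]
    (t : {C : Subgroup B // IsCyclic C} → B) (ht : ∀ C, Subgroup.zpowers (t C) = C.1)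
    (c : {C : Subgroup B // IsCyclic C} → H)
    (hal : ∀ C C', C ≠ C' → ∀ m m' : ℕ, c C ^ m = c C' ^ m' → t C ^ m ∈ C'.1) :
    Nat.card B ≤ Nat.card {x : H // ∃ k : ℕ, x ^ (2 ^ k) = 1} := by
  classical
  let Cy : B → {C : Subgroup B // IsCyclic C} := fun b => ⟨Subgroup.zpowers b, inferInstance⟩
  -- odd exponents
  have hex : ∀ b : B, ∃ i : ℕ, Odd i ∧ b = t (Cy b) ^ i := by
    intro b
    have h1 : b ∈ Subgroup.zpowers (t (Cy b)) := by
      rw [ht]; exact Subgroup.mem_zpowers b
    obtain ⟨i, hi⟩ := (isOfFinOrder_of_finite (t (Cy b))).mem_zpowers_iff_mem_range_orderOf.1 h1 |>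
      Finset.mem_image.1
    obtain ⟨-, hi⟩ := hi
    rcases Nat.even_or_odd i with he | ho
    · refine ⟨1, odd_one, ?_⟩
      have h2 : t (Cy b) ∈ Subgroup.zpowers b := by
        have : Subgroup.zpowers b = (Cy b).1 := rfl
        rw [this, ← ht]; exact Subgroup.mem_zpowers _
      -- `t = 1`
      have h3 : t (Cy b) = 1 := by
        obtain ⟨k, hk⟩ := Subgroup.mem_zpowers_iff.1 h2
        obtain ⟨j, hj⟩ := he
        have h4 : ∀ s : ℕ, t (Cy b) ∈ Subgroup.zpowers ((t (Cy b)) ^ (2 ^ s)) := by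
          intro s
          induction s with
          | zero => simp
          | succ s ih =>
            obtain ⟨u, hu⟩ := Subgroup.mem_zpowers_iff.1 ih
            have h5 : t (Cy b) = (t (Cy b) ^ 2) ^ ((j : ℤ) * k) := by
              conv_lhs => rw [← hk, ← hi, hj, ← two_mul, pow_mul]
              rw [zpow_mul, zpow_natCast]
            have h6 : t (Cy b) ^ (2 ^ s) = (t (Cy b) ^ (2 ^ (s + 1))) ^ ((j : ℤ) * k) := by
              conv_lhs => rw [h5]
              rw [← zpow_natCast, ← zpow_natCast, ← zpow_natCast, ← zpow_mul, ← zpow_mul,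
                ← zpow_mul]
              congr 1
              push_cast
              ring
            have h8 : (t (Cy b) ^ (2 ^ (s + 1))) ^ ((j : ℤ) * k * u) = t (Cy b) := by
              rw [zpow_mul, ← h6]
              exact hu
            exact Subgroup.mem_zpowers_iff.2 ⟨_, h8⟩
        have h7 := h4 n
        rw [hB, (Subgroup.zpowers_one_eq_bot : Subgroup.zpowers (1 : B) = ⊥),
          Subgroup.mem_bot] at h7
        exact h7
      rw [h3, one_pow] at hi
      rw [h3, one_pow]
      exact hi.symm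
    · exact ⟨i, ho, hi.symm⟩
  choose e he heb using hex
  -- odd part
  obtain ⟨s, m₀, hm₀, hcard⟩ : ∃ s m₀ : ℕ, Odd m₀ ∧ Nat.card H = 2 ^ s * m₀ := by
    obtain ⟨s, m₀, h1, h2⟩ := Nat.exists_eq_two_pow_mul_odd (n := Nat.card H) Nat.card_pos.ne'
    exact ⟨s, m₀, h1, h2⟩
  let f : B → {x : H // ∃ k : ℕ, x ^ (2 ^ k) = 1} := fun b =>
    ⟨c (Cy b) ^ (m₀ * e b), s, by
      rw [← pow_mul, mul_right_comm, mul_comm m₀, ← hcard, mul_comm, pow_mul, ← pow_mul,
        mul_comm, pow_mul, pow_card_eq_one', one_pow]⟩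
  refine Nat.card_le_card_of_injective f (fun b b' hbb => ?_)
  have h1 : c (Cy b) ^ (m₀ * e b) = c (Cy b') ^ (m₀ * e b') := congrArg Subtype.val hbb
  have hCC : Cy b = Cy b' := by
    by_contra hne
    apply hne
    have h2 := mem_of_odd_pow _ (hB _) (hm₀.mul (he b)) (hal _ _ hne _ _ h1)
    have h3 := mem_of_odd_pow _ (hB _) (hm₀.mul (he b')) (hal _ _ (Ne.symm hne) _ _ h1.symm)
    apply Subtype.ext
    apply le_antisymm
    · rw [← ht, Subgroup.zpowers_le]; exact h2
    · rw [← ht (Cy b'), Subgroup.zpowers_le]; exact h3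
  rw [heb b, heb b', ← hCC]
  rw [← hCC] at h1
  set C := Cy b with hC
  -- compare with the trivial subgroup
  let C₀ : {C : Subgroup B // IsCyclic C} := ⟨⊥, inferInstance⟩
  have key : ∀ i j : ℕ, i ≤ j → c C ^ (m₀ * i) = c C ^ (m₀ * j) → t C ^ i = t C ^ j := by
    intro i j hij h
    have h2 : c C ^ (m₀ * (j - i)) = 1 := by
      have h3 : m₀ * j = m₀ * i + m₀ * (j - i) := by
        rw [← mul_add, Nat.add_sub_cancel' hij]
      rw [h3, pow_add] at h
      exact left_eq_mul.1 h
    by_cases hC0 : C = C₀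
    · have h3 : t C = 1 := by
        have h4 : t C ∈ C.1 := by rw [← ht]; exact Subgroup.mem_zpowers _
        rw [hC0] at h4 ⊢
        exact Subgroup.mem_bot.1 h4
      rw [h3, one_pow, one_pow]
    · have h3 := hal C C₀ hC0 (m₀ * (j - i)) 0 (by rw [h2, pow_zero])
      rw [mul_comm, pow_mul] at h3
      have h4 := mem_of_odd_pow C₀.1 (x := t C ^ (j - i)) (n := n) (hB _) hm₀ h3
      have h5 : t C ^ (j - i) = 1 := Subgroup.mem_bot.1 h4
      have h6 : t C ^ j = t C ^ i * t C ^ (j - i) := by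
        rw [← pow_add, Nat.add_sub_cancel' hij]
      rw [h6, h5, mul_one]
  rcases le_total (e b) (e b') with h | h
  · exact key _ _ h h1
  · exact (key _ _ h h1.symm).symm

end Fermat.Agent.ZCFT
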