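import Fermat.Agent.PTLocal.Cyclic

/-!
# Cyclic classes of arbitrary order
-/

set_option autoImplicit false

namespace Fermat.Agent.ZCFT

open Fermat.Agent.PT Fermat.Agent.PTLocal

variable {N : ℕ} [NeZero N] {G : Type*} [Group G] {L : Levels G} {A : Type*} [AddCommGroup A]
  {ρ : Act G A}

omit [NeZero N] in
lemma chiN_mul (χ : Chi N L) (g h : G) :
    (χ : G → ZMod N) (g * h) = (χ : G → ZMod N) g + (χ : G → ZMod N) h :=
  (mem_Z1'.1 χ.2).2 g h

omit [NeZero N] in
lemma chiN_one (χ : Chi N L) : (χ : G → ZMod N) 1 = 0 := by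
  have := chiN_mul χ 1 1
  rw [mul_one] at this
  exact left_eq_add.mp this

omit [NeZero N] in
lemma chiN_inv (χ : Chi N L) (g : G) : (χ : G → ZMod N) g⁻¹ = - (χ : G → ZMod N) g := by
  have := chiN_mul χ g⁻¹ g
  rw [inv_mul_cancel, chiN_one] at this
  exact (neg_eq_of_add_eq_zero_left this.symm).symm

omit [NeZero N] in
lemma chiN_pow (χ : Chi N L) (g : G) (n : ℕ) :
    (χ : G → ZMod N) (g ^ n) = n * (χ : G → ZMod N) g := by
  induction n with
  | zero => simp [chiN_one]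
  | succ n ih => rw [pow_succ, chiN_mul, ih]; push_cast; ring

lemma carry_zero_left (x : ZMod N) : carry 0 x = 0 := by
  unfold carry
  rw [if_neg]
  have := ZMod.val_lt x
  rw [ZMod.val_zero]
  omega

lemma carry_zero_right (x : ZMod N) : carry x 0 = 0 := by
  unfold carry
  rw [if_neg]
  have := ZMod.val_lt x
  rw [ZMod.val_zero]
  omega

lemma carry_cocycle (a c e : ZMod N) :
    carry (a + c) e + carry a c = carry c e + carry a (c + e) := by
  have h1 := val_add_cases a c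
  have h2 := val_add_cases (a + c) e
  have h3 := val_add_cases c e
  have h4 := val_add_cases a (c + e)
  rw [add_assoc] at h2
  have hp' : (N : ℤ) ≠ 0 := by exact_mod_cast NeZero.ne N
  apply mul_left_cancel₀ hp'
  linear_combination h1 + h2 - h3 - h4

/-- explicit 2-cocycle -/
lemma carryN_mem (χ : Chi N L) (b : H0 ρ) :
    (fun g h => -(carry ((χ : G → ZMod N) g) ((χ : G → ZMod N) h) • (b : A))) ∈ Z2 L ρ := by
  rw [mem_Z2']
  refine ⟨(IsLC₁.fst χ.2.1).comp₂ (IsLC₁.snd χ.2.1) (fun x y => -(carry x y • (b : A))), ?_⟩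
  intro g h j
  simp only [map_neg, map_zsmul, mem_H0.1 b.2, chiN_mul]
  rw [← neg_add, ← neg_add, ← add_smul, ← add_smul, carry_cocycle]

/-- the cyclic class `χ ∪ b` -/
noncomputable def cls (χ : Chi N L) : H0 ρ →+ H2 L ρ where
  toFun b := H2.mk L ρ ⟨_, carryN_mem χ b⟩
  map_zero' := by
    rw [← map_zero (H2.mk L ρ)]
    congr 1
    apply Subtype.ext
    funext g h
    show -(carry ((χ : G → ZMod N) g) ((χ : G → ZMod N) h) • ((0 : H0 ρ) : A)) = 0
    rw [ZeroMemClass.coe_zero, smul_zero, neg_zero]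
  map_add' b b' := by
    rw [← map_add]
    congr 1
    apply Subtype.ext
    funext g h
    show -(carry ((χ : G → ZMod N) g) ((χ : G → ZMod N) h) • ((b + b' : H0 ρ) : A)) =
      -(carry ((χ : G → ZMod N) g) ((χ : G → ZMod N) h) • (b : A)) +
      -(carry ((χ : G → ZMod N) g) ((χ : G → ZMod N) h) • (b' : A))
    rw [AddSubgroup.coe_add, smul_add, neg_add]

lemma cls_apply (χ : Chi N L) (b : H0 ρ) : cls χ b = H2.mk L ρ ⟨_, carryN_mem χ b⟩ := rfl

/-- comparison with the prime case -/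
lemma cls_eq_cycδ {p : ℕ} [hp : Fact p.Prime] (hρ : Smooth L ρ) (χ : Chi p L) (b : H0 ρ) :
    cls χ b = cycδ hρ χ b := by
  rw [cycδ_apply]
  rfl

/-- two classes whose carries differ by a coboundary -/
lemma cls_eq_of_cobound {N' : ℕ} [NeZero N'] (χ : Chi N L) (χ' : Chi N' L) (b b' : H0 ρ)
    (k : G → A) (hk : IsLC₁ L k) (hkf : ∀ g h, ρ g (k h) = k h)
    (h : ∀ g h, (carry ((χ : G → ZMod N) g) ((χ : G → ZMod N) h) • (b : A)) -
      (carry ((χ' : G → ZMod N') g) ((χ' : G → ZMod N') h) • (b' : A)) =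
      k g + k h - k (g * h)) : cls χ b = cls χ' b' := by
  rw [← sub_eq_zero, cls_apply, cls_apply, ← map_sub, H2.mk_eq_zero]
  refine ⟨fun g => -k g, IsLC₁.comp hk _, ?_⟩
  funext g h'
  rw [d1_apply, map_neg, hkf]
  show _ = -(carry ((χ : G → ZMod N) g) ((χ : G → ZMod N) h') • (b : A)) -
    -(carry ((χ' : G → ZMod N') g) ((χ' : G → ZMod N') h') • (b' : A))
  have h1 := h g h'
  have h2 : -(carry ((χ : G → ZMod N) g) ((χ : G → ZMod N) h') • (b : A)) -
    -(carry ((χ' : G → ZMod N') g) ((χ' : G → ZMod N') h') • (b' : A)) =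
    -(k g + k h' - k (g * h')) := by
    rw [← h1]; abel
  rw [h2]
  abel

/-- bilinearity on the left -/
lemma cls_nsmul_left (χ : Chi N L) (m : ℕ) (b : H0 ρ) : cls (m • χ) b = cls χ (m • b) := by
  have hN : (N : ℤ) ≠ 0 := by exact_mod_cast NeZero.ne N
  -- `m x̃ = (m x)~ + N k(x)`
  have hk : ∀ x : ZMod N, ∃ k : ℤ, (m : ℤ) * x.val = ((m : ZMod N) * x).val + N * k := by
    intro x
    have h1 : (((m : ℤ) * x.val - ((m : ZMod N) * x).val : ℤ) : ZMod N) = 0 := by
      push_cast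
      rw [ZMod.natCast_val, ZMod.natCast_val, ZMod.cast_id', id, id, sub_self]
    rw [ZMod.intCast_zmod_eq_zero_iff_dvd] at h1
    obtain ⟨k, hk⟩ := h1
    exact ⟨k, by linear_combination hk⟩
  choose k hk using hk
  refine cls_eq_of_cobound _ _ _ _ (fun g => -(k ((χ : G → ZMod N) g) • (b : A)))
    (IsLC₁.comp χ.2.1 (fun x => -(k x • (b : A)))) ?_ ?_
  · intro g h
    rw [map_neg, map_zsmul, mem_H0.1 b.2]
  · intro g h
    have e1 : ((m • χ : Chi N L) : G → ZMod N) g = (m : ZMod N) * (χ : G → ZMod N) g := by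
      show m • (χ : G → ZMod N) g = _
      rw [nsmul_eq_mul]
    have e2 : ((m • χ : Chi N L) : G → ZMod N) h = (m : ZMod N) * (χ : G → ZMod N) h := by
      show m • (χ : G → ZMod N) h = _
      rw [nsmul_eq_mul]
    rw [e1, e2, chiN_mul]
    set x := (χ : G → ZMod N) g
    set y := (χ : G → ZMod N) h
    have h1 := val_add_cases ((m : ZMod N) * x) ((m : ZMod N) * y)
    have h2 := val_add_cases x y
    rw [← mul_add] at h1
    have h3 := hk x
    have h4 := hk y
    have h5 := hk (x + y)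
    have key : carry ((m : ZMod N) * x) ((m : ZMod N) * y) - m * carry x y =
        -k x + -k y - -k (x + y) := by
      apply mul_left_cancel₀ hN
      linear_combination h1 - m * h2 - h3 - h4 + h5
    have e3 : ((m • b : H0 ρ) : A) = (m : ℤ) • (b : A) := by
      rw [natCast_zsmul]; rfl
    rw [e3, smul_smul, ← sub_smul, mul_comm (carry x y) (m : ℤ), key, sub_smul, add_smul,
      neg_smul, neg_smul, neg_smul]

lemma cls_zero_left (b : H0 ρ) : cls (0 : Chi N L) b = 0 := by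
  rw [cls_apply, H2.mk_eq_zero]
  refine ⟨0, isLC₁_const L 0, ?_⟩
  funext g h
  rw [d1_apply]
  show _ = -(carry (0 : ZMod N) 0 • (b : A))
  rw [carry_zero_left, zero_smul]
  simp

lemma nsmul_cls (χ : Chi N L) (m : ℕ) (b : H0 ρ) : m • cls χ b = cls (m • χ) b := by
  rw [cls_nsmul_left, map_nsmul]

lemma card_smul_cls (χ : Chi N L) (b : H0 ρ) : N • cls χ b = 0 := by
  rw [nsmul_cls]
  have : N • χ = 0 := by
    apply Subtype.ext
    funext g
    show N • (χ : G → ZMod N) g = 0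
    rw [nsmul_eq_mul, CharP.cast_eq_zero, zero_mul]
  rw [this, cls_zero_left]

/-- change of modulus -/
lemma cls_of_dvd {K M : ℕ} [NeZero K] (hNM : N = M * K) (hM : 0 < M) (χ : Chi N L)
    (χ' : Chi K L) (h : ∀ g, ((χ : G → ZMod N) g).val = M * ((χ' : G → ZMod K) g).val)
    (b : H0 ρ) : cls χ b = cls χ' b := by
  refine cls_eq_of_cobound χ χ' b b (fun _ => 0) (isLC₁_const L 0) (fun g h => map_zero _) ?_
  intro g g'
  have h1 : carry ((χ : G → ZMod N) g) ((χ : G → ZMod N) g') =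
      carry ((χ' : G → ZMod K) g) ((χ' : G → ZMod K) g') := by
    unfold carry
    rw [h, h, ← mul_add, hNM]
    congr 1
    exact propext (Nat.mul_le_mul_left_iff hM)
  rw [h1, sub_self]
  simp

/-- naturality -/
lemma cls_nat {Γ : Type*} [Group Γ] {L' : Levels Γ} {B : Type*} [AddCommGroup B] {σ : Act Γ B}
    (φ : PairHom L ρ L' σ) (χ : Chi N L) (χ' : Chi N L')
    (h : ∀ γ, (χ' : Γ → ZMod N) γ = (χ : G → ZMod N) (φ.r γ)) (b : H0 ρ) :
    φ.h2 (cls χ b) = cls χ' (φ.h0 b) := by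
  rw [cls_apply, cls_apply, PairHom.h2_mk]
  congr 1
  apply Subtype.ext
  funext γ γ'
  show φ.f (-(carry ((χ : G → ZMod N) (φ.r γ)) ((χ : G → ZMod N) (φ.r γ')) • (b : A))) =
    -(carry ((χ' : Γ → ZMod N) γ) ((χ' : Γ → ZMod N) γ') • (φ.f b))
  rw [map_neg, map_zsmul, h, h]

/-- **trivial cyclic classes come from norms** -/
theorem exists_norm_of_cls_eq_zero (hN : 1 < N) (θ : Chi N L) {F : G}
    (hF : (θ : G → ZMod N) F = 1) (U : Subgroup G) (hU : ∀ g, g ∈ U ↔ (θ : G → ZMod N) g = 0)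
    (h90 : ∀ x : H1 (L.sub U) (resAct ρ U), x = 0) (b : H0 ρ) (h : cls θ b = 0) :
    ∃ y : A, (∀ g ∈ U, ρ g y = y) ∧ (b : A) = ∑ k ∈ Finset.range N, ρ (F ^ k) y := by
  rw [cls_apply, H2.mk_eq_zero] at h
  obtain ⟨h0, hlc, hd⟩ := h
  have hd' : ∀ g g', ρ g (h0 g') - h0 (g * g') + h0 g =
      -(carry ((θ : G → ZMod N) g) ((θ : G → ZMod N) g') • (b : A)) := by
    intro g g'
    have := congrFun (congrFun hd g) g'
    rwa [d1_apply] at this
  -- restriction to `U`
  have hUU : ∀ u : U, ∀ g', h0 (u * g') = h0 u + ρ u (h0 g') := by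
    intro u g'
    have h1 := hd' u g'
    rw [(hU u).1 u.2, carry_zero_left, zero_smul, neg_zero] at h1
    have h2 : h0 (u * g') = ρ u (h0 g') + h0 u - (ρ u (h0 g') - h0 (u * g') + h0 u) := by abel
    rw [h2, h1]; abel
  have hZ : (fun u : U => h0 u) ∈ Z1 (L.sub U) (resAct ρ U) := by
    rw [mem_Z1']
    constructor
    · obtain ⟨M, hM, hc⟩ := hlc
      exact ⟨_, ⟨M, hM, rfl⟩, fun g s hs => hc g s hs⟩
    · intro g g'
      exact hUU g g'
  obtain ⟨β, hβ⟩ := H1.mk_eq_zero.1 (h90 (H1.mk _ _ ⟨_, hZ⟩))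
  have hβ' : ∀ u ∈ U, h0 u = ρ u β - β := by
    intro u hu
    have := congrFun hβ ⟨u, hu⟩
    rw [d0_apply] at this
    exact this.symm
  let h1 : G → A := fun g => h0 g - (ρ g β - β)
  have h1d : ∀ g g', ρ g (h1 g') - h1 (g * g') + h1 g =
      -(carry ((θ : G → ZMod N) g) ((θ : G → ZMod N) g') • (b : A)) := by
    intro g g'
    rw [← hd' g g']
    show ρ g (h0 g' - (ρ g' β - β)) - (h0 (g * g') - (ρ (g * g') β - β)) +
      (h0 g - (ρ g β - β)) = _
    rw [map_sub, map_sub, act_mul]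
    abel
  have h1U : ∀ u ∈ U, h1 u = 0 := fun u hu => by
    show h0 u - (ρ u β - β) = 0
    rw [hβ' u hu, sub_self]
  have h1r : ∀ g, ∀ u ∈ U, h1 (g * u) = h1 g := by
    intro g u hu
    have h2 := h1d g u
    rw [(hU u).1 hu, carry_zero_right, zero_smul, neg_zero, h1U u hu, map_zero, zero_sub,
      neg_add_eq_zero] at h2
    exact h2
  have h1l : ∀ u ∈ U, ∀ g, ρ u (h1 g) = h1 g := by
    intro u hu g
    have h2 := h1d u g
    rw [(hU u).1 hu, carry_zero_left, zero_smul, neg_zero, h1U u hu, add_zero,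
      sub_eq_zero] at h2
    rw [h2]
    have h3 : g⁻¹ * u * g ∈ U := by
      rw [hU, chiN_mul, chiN_mul, chiN_inv, (hU u).1 hu]
      ring
    have h4 : u * g = g * (g⁻¹ * u * g) := by group
    rw [h4, h1r g _ h3]
  have hFpow : ∀ i : ℕ, i < N → h1 (F ^ i) = ∑ k ∈ Finset.range i, ρ (F ^ k) (h1 F) := by
    intro i
    induction i with
    | zero =>
      intro _
      rw [pow_zero, Finset.sum_range_zero]
      exact h1U 1 U.one_mem
    | succ i ih =>
      intro hi
      have h2 := h1d (F ^ i) F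
      have h3 : carry ((θ : G → ZMod N) (F ^ i)) ((θ : G → ZMod N) F) = 0 := by
        rw [chiN_pow, hF, mul_one]
        unfold carry
        have : Fact (1 < N) := ⟨hN⟩
        rw [ZMod.val_natCast_of_lt (by omega), ZMod.val_one, if_neg (by omega)]
      rw [h3, zero_smul, neg_zero, ← pow_succ] at h2
      rw [Finset.sum_range_succ, ← ih (by omega)]
      have h4 : h1 (F ^ (i + 1)) = h1 (F ^ i) + ρ (F ^ i) (h1 F) -
        (ρ (F ^ i) (h1 F) - h1 (F ^ (i + 1)) + h1 (F ^ i)) := by abel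
      rw [h4, h2, sub_zero]
  obtain ⟨n, rfl⟩ : ∃ n, N = n + 1 := ⟨N - 1, by omega⟩
  refine ⟨-h1 F, fun g hg => by rw [map_neg, h1l g hg], ?_⟩
  have h2 := h1d (F ^ n) F
  have h3 : carry ((θ : G → ZMod (n + 1)) (F ^ n)) ((θ : G → ZMod (n + 1)) F) = 1 := by
    rw [chiN_pow, hF, mul_one]
    unfold carry
    have : Fact (1 < n + 1) := ⟨hN⟩
    rw [ZMod.val_natCast_of_lt (by omega), ZMod.val_one, if_pos le_rfl]
  have h4 : h1 (F ^ n * F) = 0 := by
    apply h1U
    rw [← pow_succ, hU, chiN_pow, hF, mul_one, CharP.cast_eq_zero]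
  rw [h3, one_smul, h4, sub_zero, hFpow n (by omega)] at h2
  simp only [map_neg, Finset.sum_neg_distrib]
  rw [Finset.sum_range_succ, add_comm, h2, neg_neg]

end Fermat.Agent.ZCFT
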