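import Fermat.Agent.ZCFT.CF1

/-!
# CF1: final statement
-/

set_option autoImplicit false

set_option maxHeartbeats 1000000

open NumberField IsDedekindDomain
open scoped Pointwise ComplexConjugate

namespace Fermat.Agent.ZCFT

open Fermat.Agent.PT Fermat.Agent.PTC

attribute [local instance] Fermat.Agent.PTLocal.isGalois_qbar

local notation "Qb" => AlgebraicClosure ℚ

/-- complex conjugations exist -/
theorem exists_conj : ∃ (c : PTC.GQ) (ιc : Qb →+* ℂ), ∀ z, ιc (c z) = conj (ιc z) := by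
  let ι : Qb →+* ℂ := (IsAlgClosed.lift : Qb →ₐ[ℚ] ℂ).toRingHom
  obtain ⟨g, hg⟩ := CFR.exists_comp_eq' (K := ℚ) (L := Qb) ι ((starRingEnd ℂ).comp ι)
    (Subsingleton.elim _ _)
  exact ⟨g, ι, fun z => (hg z).symm⟩

/-- complex conjugation does not fix `√-d` -/
theorem conj_ne {c : PTC.GQ} {ιc : Qb →+* ℂ} (hc : ∀ z, ιc (c z) = conj (ιc z)) {x : Qb} {d : ℕ}
    (hd : 0 < d) (hx : x ^ 2 = -(d : Qb)) : c x ≠ x := by
  intro h
  have h1 : conj (ιc x) = ιc x := by rw [← hc, h]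
  rw [Complex.conj_eq_iff_real] at h1
  obtain ⟨r, hr⟩ := h1
  have h2 : (ιc x) ^ 2 = -(d : ℂ) := by
    rw [← map_pow, hx, map_neg, map_natCast]
  rw [hr] at h2
  have h3 : r ^ 2 = -(d : ℝ) := by exact_mod_cast h2
  have h4 : (0 : ℝ) < d := by exact_mod_cast hd
  nlinarith [sq_nonneg r]

/-- **CF1** -/
theorem cf1 (K : IntermediateField ℚ Qb) (hKfd : FiniteDimensional ℚ K) [NumberField K]
    (h2 : K.fixingSubgroup.index = 2) (hK : ∃ x ∈ K, ∃ d : ℕ, 0 < d ∧ x ^ 2 = -(d : Qb))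
    (V : Subgroup PTC.GQ) (hVK : V ≤ K.fixingSubgroup)
    (hVo : ∃ F : IntermediateField ℚ Qb, FiniteDimensional ℚ F ∧ F.fixingSubgroup ≤ V)
    (hVn : ∀ g ∈ K.fixingSubgroup, ∀ v ∈ V, g * v * g⁻¹ ∈ V)
    (hab : ∀ a ∈ K.fixingSubgroup, ∀ b ∈ K.fixingSubgroup, a⁻¹ * b⁻¹ * a * b ∈ V)
    (h2p : ∀ a ∈ K.fixingSubgroup, ∃ k : ℕ, a ^ (2 ^ k) ∈ V)
    (hI : ∀ q : ℕ, q.Prime → ∀ A : ValuationSubring Qb, A.LiesOverPrime q →
      ∀ s ∈ A.inertiaSubgroupIn ℚ, s ∈ K.fixingSubgroup → s ∈ V) :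
    V.relIndex K.fixingSubgroup ≤
      Nat.card {x : ClassGroup (𝓞 K) // ∃ k : ℕ, x ^ (2 ^ k) = 1} := by
  obtain ⟨U, hU⟩ : ∃ U : Subgroup PTC.GQ, U = K.fixingSubgroup := ⟨_, rfl⟩
  rw [← hU] at h2 hVK hVn hab h2p hI ⊢
  obtain ⟨F, hF, hFV⟩ := hVo
  have hN : (V.subgroupOf U).Normal := ⟨fun v hv g => hVn g g.2 v hv⟩
  have hfin : (V.subgroupOf U).FiniteIndex := by
    have h3 : IsOpenSub allL V := isOpenSub_allL_iff.2 ⟨F, hF, hFV⟩
    have h4 := h3.finiteIndex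
    infer_instance
  have hcomm : ∀ a b : U ⧸ V.subgroupOf U, a * b = b * a := by
    intro a b
    obtain ⟨a, rfl⟩ := QuotientGroup.mk_surjective a
    obtain ⟨b, rfl⟩ := QuotientGroup.mk_surjective b
    rw [← QuotientGroup.mk_mul, ← QuotientGroup.mk_mul, QuotientGroup.eq]
    show ((a * b)⁻¹ * (b * a) : U).1 ∈ V
    have h3 := hab b⁻¹ (U.inv_mem b.2) a⁻¹ (U.inv_mem a.2)
    have h4 : ((a * b)⁻¹ * (b * a) : U).1 = (b : PTC.GQ)⁻¹ * (a : PTC.GQ)⁻¹ * b * a := by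
      push_cast
      group
    rw [h4]
    exact hab b b.2 a a.2
  let inst : CommGroup (U ⧸ V.subgroupOf U) := { (inferInstance : Group (U ⧸ V.subgroupOf U)) with
    mul_comm := hcomm }
  have hexp : ∃ n : ℕ, 0 < n ∧ ∀ b : U ⧸ V.subgroupOf U, b ^ (2 ^ n) = 1 := by
    have hft : Fintype (U ⧸ V.subgroupOf U) := Fintype.ofFinite _
    have h3 : ∀ b : U ⧸ V.subgroupOf U, ∃ k : ℕ, b ^ (2 ^ k) = 1 := by
      intro b
      obtain ⟨b, rfl⟩ := QuotientGroup.mk_surjective b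
      obtain ⟨k, hk⟩ := h2p b b.2
      refine ⟨k, ?_⟩
      rw [← QuotientGroup.mk_pow, QuotientGroup.eq_one_iff]
      exact hk
    choose k hk using h3
    refine ⟨∑ b, k b + 1, Nat.succ_pos _, fun b => ?_⟩
    have h4 : k b ≤ ∑ b, k b + 1 :=
      (Finset.single_le_sum (fun _ _ => Nat.zero_le _) (Finset.mem_univ b)).trans (Nat.le_succ _)
    obtain ⟨j, hj⟩ := Nat.exists_eq_add_of_le h4
    rw [hj, pow_add, pow_mul, hk, one_pow]
  obtain ⟨n, hn, hB⟩ := hexp
  obtain ⟨c, ιc, hc⟩ := exists_conj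
  have hcU : c ∉ U := by
    obtain ⟨x, hx, d, hd, hxd⟩ := hK
    intro h
    rw [hU, IntermediateField.mem_fixingSubgroup_iff] at h
    exact conj_ne hc hd hxd (h x hx)
  have hKF : FiniteDimensional ℚ (K ⊔ F : IntermediateField ℚ Qb) :=
    IntermediateField.finiteDimensional_sup K F
  exact cf1_hom K hKfd U hU h2 c ιc hc hcU (QuotientGroup.mk' (V.subgroupOf U))
    (QuotientGroup.mk'_surjective _) hn hB (K ⊔ F) hKF le_sup_left
    (fun g hg hgF => (QuotientGroup.eq_one_iff _).2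
      (hFV (IntermediateField.fixingSubgroup_antitone le_sup_right hgF)))
    (fun q hq A hA s hs hsU => (QuotientGroup.eq_one_iff _).2 (hI q hq A hA s hs hsU))

/-- quadratic fields -/
theorem index_two {x : Qb} {d : ℕ} (hd : 0 < d) (hx : x ^ 2 = -(d : Qb)) :
    (IntermediateField.adjoin ℚ {x}).fixingSubgroup.index = 2 := by
  have hmem : ∀ g : PTC.GQ, g ∈ (IntermediateField.adjoin ℚ {x}).fixingSubgroup ↔ g x = x := by
    intro g
    rw [IntermediateField.mem_fixingSubgroup_iff]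
    constructor
    · intro h
      exact h x (IntermediateField.mem_adjoin_simple_self ℚ x)
    · intro h y hy
      have h1 : IntermediateField.adjoin ℚ {x} ≤
          IntermediateField.fixedField (Subgroup.zpowers g) := by
        rw [IntermediateField.adjoin_simple_le_iff, IntermediateField.mem_fixedField_iff]
        intro τ hτ
        have h8 : g ∈ MulAction.stabilizer (AlgebraicClosure ℚ ≃ₐ[ℚ] AlgebraicClosure ℚ) x := h
        have h9 : Subgroup.zpowers g ≤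
            MulAction.stabilizer (AlgebraicClosure ℚ ≃ₐ[ℚ] AlgebraicClosure ℚ) x := by
          rw [Subgroup.zpowers_le]; exact h8
        exact h9 hτ
      exact (IntermediateField.mem_fixedField_iff _ _).1 (h1 hy) _ (Subgroup.mem_zpowers _)
  have hsgn : ∀ g : PTC.GQ, g x = x ∨ g x = -x := by
    intro g
    have h1 : (g x) ^ 2 = x ^ 2 := by
      rw [← map_pow, hx, map_neg, map_natCast]
    exact sq_eq_sq_iff_eq_or_eq_neg.1 h1
  have hx0 : x ≠ -x := by
    intro h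
    have h1 : x = 0 := by
      have : (2 : Qb) * x = 0 := by linear_combination h
      simpa using this
    rw [h1] at hx
    have h2 : (d : Qb) = 0 := by
      have : (0 : Qb) ^ 2 = 0 := by ring
      rw [this] at hx
      exact neg_eq_zero.1 hx.symm
    exact hd.ne' (by exact_mod_cast h2)
  obtain ⟨c, ιc, hc⟩ := exists_conj
  have hcx : c x = -x := (hsgn c).resolve_left (conj_ne hc hd hx)
  rw [Subgroup.index_eq_two_iff]
  refine ⟨c, fun b => ?_⟩
  rw [hmem, hmem, AlgEquiv.mul_apply, hcx, map_neg]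
  rcases hsgn b with h | h
  · rw [h]
    exact Or.inr ⟨rfl, fun h' => hx0 h'.symm⟩
  · rw [h, neg_neg]
    exact Or.inl ⟨rfl, fun h' => hx0 h'.symm⟩

end Fermat.Agent.ZCFT
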