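import Fermat.Agent.CFT6.UnrProc
import Fermat.Agent.PTGlob.Omega

/-!
# Roots of unity near algebraic integers, and inertia
-/

set_option autoImplicit false

open NumberField IsDedekindDomain Module Fermat.Agent.CFT Fermat.Agent.Frob Fermat.Agent.CFT6
open scoped Pointwise

namespace Fermat.Agent.ZCFT

section plc

variable {q : Nat.Primes} {Ω : Type*} [Field Ω] (ι : Ω →+* Cq q)

/-- the valuation subring attached to an embedding -/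
noncomputable def plc : ValuationSubring Ω := (padicIntegers (q : ℕ)).comap ι

lemma mem_plc {x : Ω} : x ∈ plc ι ↔ ‖ι x‖ ≤ 1 := Iff.rfl

lemma mem_nonunits_plc (x : Ω) : x ∈ (plc ι).nonunits ↔ ‖ι x‖ < 1 := by
  rw [ValuationSubring.mem_nonunits_iff_or, mem_plc, map_inv₀, norm_inv]
  constructor
  · rintro (rfl | h)
    · simp
    · push Not at h
      by_contra hcon
      push Not at hcon
      exact absurd (inv_le_one_of_one_le₀ hcon) (not_le.2 h)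
  · intro h
    rcases eq_or_ne x 0 with rfl | hx
    · exact Or.inl rfl
    · right
      push Not
      have h1 : 0 < ‖ι x‖ := norm_pos_iff.2 ((map_ne_zero _).2 hx)
      exact (one_lt_inv₀ h1).2 h

lemma liesOver_plc : (plc ι).LiesOverPrime (q : ℕ) := by
  show ((q : ℕ) : Ω) ∈ (plc ι).nonunits
  rw [mem_nonunits_plc, map_natCast]
  exact norm_natCast_q_lt

end plc

section near

variable {q : Nat.Primes} {Ω : Type*} [Field Ω] [CharZero Ω] [IsGalois ℚ Ω] (ι : Ω →+* Cq q)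

omit [CharZero Ω] [IsGalois ℚ Ω] in
lemma norm_iota_le (x : integralClosure ℤ Ω) : ‖ι (x : Ω)‖ ≤ 1 :=
  Fermat.Agent.CFT.norm_le_one_of_isIntegral (x.2.map ι.toIntAlgHom)

omit [IsGalois ℚ Ω] in
/-- integers of a number field are close to roots of unity -/
theorem exists_root_near (F : IntermediateField ℚ Ω) [FiniteDimensional ℚ F] :
    ∃ f : ℕ, 0 < f ∧ ∀ M, 0 < M → f ∣ M → ∀ x : integralClosure ℤ Ω, (x : Ω) ∈ F →
      ‖ι (x : Ω)‖ < 1 ∨ ∃ ξ : Cq q, ξ ^ ((q : ℕ) ^ M - 1) = 1 ∧ ‖ι (x : Ω) - ξ‖ < 1 := by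
  have hnf : NumberField F := ⟨⟩
  let φ := embF ι F
  let P := (CFT6.place φ).asIdeal
  have hPmax : P.IsMaximal := (CFT6.place φ).isMaximal
  let _ : Field (𝓞 F ⧸ P) := Ideal.Quotient.field P
  have hfin : Finite (𝓞 F ⧸ P) := Ideal.finiteQuotientOfFreeOfNeBot P (CFT6.place φ).ne_bot
  have hft : Fintype (𝓞 F ⧸ P) := Fintype.ofFinite _
  have hchar : CharP (𝓞 F ⧸ P) (q : ℕ) := by
    have h1 : ((q : ℕ) : 𝓞 F ⧸ P) = 0 := by
      rw [← map_natCast (Ideal.Quotient.mk P), Ideal.Quotient.eq_zero_iff_mem]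
      exact q_mem_place φ
    exact (CharP.charP_iff_prime_eq_zero q.2).2 h1
  obtain ⟨f, -, hf⟩ := FiniteField.card (𝓞 F ⧸ P) (q : ℕ)
  refine ⟨f, f.pos, fun M hM hfM x hx => ?_⟩
  obtain ⟨c, rfl⟩ := hfM
  have hxi : IsIntegral ℤ (⟨(x : Ω), hx⟩ : F) := by
    have h := x.2
    exact (isIntegral_algHom_iff (algebraMap F Ω).toIntAlgHom (algebraMap F Ω).injective).1 h
  let X : 𝓞 F := ⟨⟨(x : Ω), hx⟩, hxi⟩
  have h1 : (Ideal.Quotient.mk P X) ^ ((q : ℕ) ^ ((f : ℕ) * c)) = Ideal.Quotient.mk P X := by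
    have h2 := FiniteField.pow_card_pow (K := 𝓞 F ⧸ P) c (Ideal.Quotient.mk P X)
    rw [hf, ← pow_mul] at h2
    exact h2
  rw [← map_pow, Ideal.Quotient.eq] at h1
  have h2 : ‖ι (x : Ω) ^ ((q : ℕ) ^ ((f : ℕ) * c)) - ι (x : Ω)‖ < 1 := by
    have h3 := (norm_sub_lt_one_iff φ).2 h1
    have h4 : φ ((X ^ ((q : ℕ) ^ ((f : ℕ) * c)) : 𝓞 F) : F) =
        ι (x : Ω) ^ ((q : ℕ) ^ ((f : ℕ) * c)) := by
      rw [← map_pow]; rfl
    rwa [h4] at h3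
  rcases (norm_iota_le ι x).lt_or_eq with h3 | h3
  · exact Or.inl h3
  right
  set m := (q : ℕ) ^ ((f : ℕ) * c) - 1 with hm
  have hq1 : 1 < (q : ℕ) ^ ((f : ℕ) * c) := Nat.one_lt_pow hM.ne' q.2.one_lt
  have hm0 : 0 < m := by omega
  have h4 : ‖ι (x : Ω) ^ m - 1‖ < 1 := by
    have e : ι (x : Ω) ^ ((q : ℕ) ^ ((f : ℕ) * c)) - ι (x : Ω) =
        ι (x : Ω) * (ι (x : Ω) ^ m - 1) := by
      rw [mul_sub, mul_one, ← pow_succ', hm, Nat.sub_add_cancel hq1.le]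
    rwa [e, norm_mul, h3, one_mul] at h2
  have : NeZero ((m : ℕ) : Cq q) := ⟨Nat.cast_ne_zero.2 hm0.ne'⟩
  obtain ⟨ζ, hζ⟩ := HasEnoughRootsOfUnity.exists_primitiveRoot (Cq q) m
  have h5 := Polynomial.X_pow_sub_one_eq_prod hm0 hζ
  have h6 : ι (x : Ω) ^ m - 1 =
      ∏ ξ ∈ Polynomial.nthRootsFinset m (1 : Cq q), (ι (x : Ω) - ξ) := by
    have h7 := congrArg (Polynomial.eval (ι (x : Ω))) h5
    rw [Polynomial.eval_prod] at h7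
    simpa using h7
  by_contra hcon
  push Not at hcon
  have h7 : 1 ≤ ‖ι (x : Ω) ^ m - 1‖ := by
    rw [h6, norm_prod]
    have h8 : ∏ ξ ∈ Polynomial.nthRootsFinset m (1 : Cq q), (1 : ℝ) ≤
        ∏ ξ ∈ Polynomial.nthRootsFinset m (1 : Cq q), ‖ι (x : Ω) - ξ‖ := by
      refine Finset.prod_le_prod (fun _ _ => zero_le_one) (fun ξ hξ => hcon ξ ?_)
      exact (Polynomial.mem_nthRootsFinset hm0 _).1 hξ
    rwa [Finset.prod_const_one] at h8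
  exact absurd h4 (not_lt.2 h7)

omit [IsGalois ℚ Ω] in
/-- comparison with a power map -/
lemma near_of_root {F : IntermediateField ℚ Ω} {M : ℕ}
    (hM : ∀ x : integralClosure ℤ Ω, (x : Ω) ∈ F →
      ‖ι (x : Ω)‖ < 1 ∨ ∃ ξ : Cq q, ξ ^ ((q : ℕ) ^ M - 1) = 1 ∧ ‖ι (x : Ω) - ξ‖ < 1)
    (σ : Ω ≃ₐ[ℚ] Ω) (γ : Gq q) (hσ : ∀ x, ι (σ x) = γ (ι x)) {n : ℕ} (hn : n ≠ 0)
    (h : ∀ ξ : Cq q, ξ ^ ((q : ℕ) ^ M - 1) = 1 → γ ξ = ξ ^ n)
    (x : integralClosure ℤ Ω) (hx : (x : Ω) ∈ F) : ‖ι (σ x) - ι (x : Ω) ^ n‖ < 1 := by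
  rw [hσ]
  rcases hM x hx with h1 | ⟨ξ, hξ, h1⟩
  · rw [sub_eq_add_neg]
    refine lt_of_le_of_lt (IsUltrametricDist.norm_add_le_max _ _) (max_lt ?_ ?_)
    · rw [norm_gq]; exact h1
    · rw [norm_neg, norm_pow]
      exact pow_lt_one₀ (norm_nonneg _) h1 hn
  · have h2 : ‖γ (ι (x : Ω)) - γ ξ‖ < 1 := by
      rw [← map_sub, norm_gq]; exact h1
    rw [h ξ hξ] at h2
    refine norm_sub_lt_trans h2 ?_
    have hξn : ‖ξ‖ ≤ 1 := by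
      have e : ξ = ι (x : Ω) - (ι (x : Ω) - ξ) := by ring
      rw [e, sub_eq_add_neg]
      refine (IsUltrametricDist.norm_add_le_max _ _).trans (max_le (norm_iota_le ι x) ?_)
      rw [norm_neg]; exact h1.le
    rw [← norm_neg, neg_sub]
    exact norm_pow_sub_pow_lt' (norm_iota_le ι x) hξn h1 n

omit [IsGalois ℚ Ω] in
/-- Frobenius elements -/
lemma near_frob {σ : Ω ≃ₐ[ℚ] Ω} (hσ : (plc ι).IsFrobeniusAt σ (q : ℕ))
    (x : integralClosure ℤ Ω) : ‖ι (σ x) - ι (x : Ω) ^ (q : ℕ)‖ < 1 := by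
  have h1 := frob_sub_mem hσ x
  rw [mem_center_iota ι (mem_nonunits_plc ι)] at h1
  have h2 : ι ((σ • x - x ^ (q : ℕ) : integralClosure ℤ Ω) : Ω) =
      ι (σ x) - ι (x : Ω) ^ (q : ℕ) := by
    have h3 : ((σ • x - x ^ (q : ℕ) : integralClosure ℤ Ω) : Ω) = σ (x : Ω) - (x : Ω) ^ (q : ℕ) :=
      rfl
    rw [h3, map_sub, map_pow]
  rwa [h2] at h1

/-- **comparison modulo inertia** -/
theorem inv_mul_mem (F : IntermediateField ℚ Ω) {U V : Subgroup (Ω ≃ₐ[ℚ] Ω)} (hVU : V ≤ U)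
    (hFV : F.fixingSubgroup ≤ V) (hI : ∀ g ∈ (plc ι).inertiaSubgroupIn ℚ, g ∈ U → g ∈ V)
    {σ₁ σ₂ : Ω ≃ₐ[ℚ] Ω} (h1 : σ₁ ∈ U) (h2 : σ₂ ∈ U) (hn : ∀ y, ‖ι (σ₂ y)‖ = ‖ι y‖)
    (h : ∀ x : integralClosure ℤ Ω, (x : Ω) ∈ F → ‖ι (σ₁ x) - ι (σ₂ x)‖ < 1) :
    σ₂⁻¹ * σ₁ ∈ V := by
  obtain ⟨τ, hτ, hτF⟩ := Fermat.Agent.ExtVan.exists_lift_inertia F q.2 (liesOver_plc ι)
    (σ₂⁻¹ * σ₁) (by
    intro x hx
    rw [mem_center_iota ι (mem_nonunits_plc ι)]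
    have h3 : (((σ₂⁻¹ * σ₁) • x - x : integralClosure ℤ Ω) : Ω) = (σ₂⁻¹ * σ₁) (x : Ω) - (x : Ω) :=
      rfl
    rw [h3, ← hn, map_sub]
    have h4 : σ₂ ((σ₂⁻¹ * σ₁) (x : Ω)) = σ₁ (x : Ω) := by
      rw [← AlgEquiv.mul_apply, mul_inv_cancel_left]
    rw [h4, map_sub]
    exact h x hx)
  have h5 : τ⁻¹ * (σ₂⁻¹ * σ₁) ∈ V := by
    apply hFV
    rw [IntermediateField.mem_fixingSubgroup_iff]
    intro x hx
    rw [AlgEquiv.mul_apply, ← hτF x hx, ← AlgEquiv.mul_apply, inv_mul_cancel, AlgEquiv.one_apply]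
  have h6 : τ ∈ U := by
    have h7 : τ = (σ₂⁻¹ * σ₁) * (τ⁻¹ * (σ₂⁻¹ * σ₁))⁻¹ := by group
    rw [h7]
    exact U.mul_mem (U.mul_mem (U.inv_mem h2) h1) (U.inv_mem (hVU h5))
  have h7 := V.mul_mem (hI τ hτ h6) h5
  rwa [mul_inv_cancel_left] at h7

end near

end Fermat.Agent.ZCFT
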