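import Fermat.Agent.ZCFT.RDc
import Fermat.Agent.ZCFT.Near
import Fermat.Agent.ABHN.Final

/-!
# Local components of the classes of unramified characters
-/

set_option autoImplicit false

namespace Fermat.Agent.ZCFT

open Fermat.Agent.PT Fermat.Agent.CFT Fermat.Agent.CFT6 Fermat.Agent.PTLocal

section gen

variable {N : ℕ} {G Γ : Type*} [Group G] [Group Γ] {A B : Type*} [AddCommGroup A]
  [AddCommGroup B] {L : Levels G} {L' : Levels Γ} {ρ : Act G A} {σ : Act Γ B}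

/-- pull back of a character -/
def pullN (φ : PairHom L ρ L' σ) (χ : Chi N L) : Chi N L' :=
  ⟨fun γ => (χ : G → ZMod N) (φ.r γ), by
    rw [mem_Z1']
    refine ⟨φ.lc₁ χ.2.1, fun g h => ?_⟩
    rw [map_mul, chiN_mul, trivAct_apply]⟩

lemma pullN_apply (φ : PairHom L ρ L' σ) (χ : Chi N L) (γ : Γ) :
    (pullN φ χ : Γ → ZMod N) γ = (χ : G → ZMod N) (φ.r γ) := rfl

lemma cls_pull [NeZero N] (φ : PairHom L ρ L' σ) (χ : Chi N L) (b : H0 ρ) :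
    φ.h2 (cls χ b) = cls (pullN φ χ) (φ.h0 b) := cls_nat φ χ _ (fun _ => rfl) b

end gen

section loc

variable {q : Nat.Primes} {L : Levels (Gq q)} (hG : LGal ℚ_[(q : ℕ)] (Cq q) L)
  {σ : Act (Gq q) (Additive (Cq q)ˣ)}

lemma cls_unit' (hσ : hG.act = σ) {D : Subgroup (Gq q)} (hD : IsOpenSub L D) {M n : ℕ}
    (R : RD (hG.sub D hD) M) (hM : 0 < M) (hNM : 2 ^ n ∣ M) (θ : Chi (2 ^ n) (L.sub D))
    (h : ∀ g, (R.θur hM dvd_rfl : D → ZMod M) g = 0 → (θ : D → ZMod (2 ^ n)) g = 0)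
    (u : H0 (resAct σ D)) (hu : nm (u : Additive (Cq q)ˣ) = 1) : cls θ u = 0 := by
  subst hσ
  exact R.cls_unit hM hNM θ h u hu

lemma nm_of_cls' (hσ : hG.act = σ) {D : Subgroup (Gq q)} (hD : IsOpenSub L D) {M N : ℕ}
    [NeZero N] (R : RD (hG.sub D hD) M) (hM : 0 < M) (hN : 1 < N) (hNM : N ∣ M)
    (θ : Chi N (L.sub D))
    (h : ∀ g, (R.θur hM dvd_rfl : D → ZMod M) g = 0 → (θ : D → ZMod N) g = 0)
    (b : H0 (resAct σ D)) (hb : cls θ b = 0) :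
    ∃ T : H0 (resAct σ D), nm (b : Additive (Cq q)ˣ) ^ ((θ : D → ZMod N) R.F).val =
      nm (T : Additive (Cq q)ˣ) ^ N := by
  subst hσ
  exact R.nm_of_cls hM hN hNM θ h b hb

lemma RD.root_fix {G : Type} [Group G] {L : Levels G} {hG : LGal ℚ_[(q : ℕ)] (Cq q) L} {M : ℕ}
    (R : RD hG M) (hM : 0 < M) {g : G} (h : (R.θur hM dvd_rfl : G → ZMod M) g = 0) {ξ : Cq q}
    (hξ : ξ ^ (R.Q ^ M - 1) = 1) : hG.j g ξ = ξ := by
  have h1 := R.j_root hM hM dvd_rfl g (i := 0) (by rw [h, Nat.cast_zero]) hξ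
  rwa [pow_zero, pow_one] at h1

end loc

section sys

variable {Ω : Type} [Field Ω] [CharZero Ω] [IsGalois ℚ Ω] {G : Type} [Group G] {L : Levels G}
  {hG : LGal ℚ Ω L} (S : ABHN.LocSys hG)

/-- the image of the kernel of a character -/
def imKer (hG : LGal ℚ Ω L) {U : Subgroup G} {N : ℕ} (θ : Chi N (L.sub U)) :
    Subgroup (Ω ≃ₐ[ℚ] Ω) :=
  (kerChi θ).map (hG.j.comp U.subtype)

variable {U : Subgroup G}

omit [IsGalois ℚ Ω] in
lemma S_act (q : Nat.Primes) : (S.hq q).act = galAct ℚ_[(q : ℕ)] (Cq q) := by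
  ext g : 1
  apply AddMonoidHom.ext
  intro a
  apply Additive.toMul.injective
  apply Units.ext
  show (S.hq q).j g ((Additive.toMul a : (Cq q)ˣ) : Cq q) = _
  rw [S.hqj]
  rfl

/-- the embedding attached to `(q, g)` -/
noncomputable def eg (q : Nat.Primes) (g : G) : Ω →+* Cq q :=
  (S.e q).comp (hG.j g : Ω →+* Ω)

omit [IsGalois ℚ Ω] in
lemma eg_apply (q : Nat.Primes) (g : G) (x : Ω) : eg S q g x = S.e q (hG.j g x) := rfl

omit [IsGalois ℚ Ω] in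
lemma eg_cj (q : Nat.Primes) (g : G) (γ : Gq q) (x : Ω) :
    eg S q g (hG.j (ABHN.cj (S.r q) g γ) x) = γ (eg S q g x) := by
  rw [eg_apply, eg_apply, ← S.comm]
  congr 1
  rw [← AlgEquiv.mul_apply, ← AlgEquiv.mul_apply, ← map_mul, ← map_mul]
  congr 2
  rw [ABHN.cj_apply]
  group

variable (hinj : Function.Injective hG.j) {N : ℕ} (θ : Chi N (L.sub U))

omit [IsGalois ℚ Ω] in
include hinj in
lemma mem_imKer {g : G} (hg : g ∈ U) : hG.j g ∈ imKer hG θ ↔ (θ : U → ZMod N) ⟨g, hg⟩ = 0 := by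
  constructor
  · rintro ⟨u, hu, h⟩
    have h1 : (u : G) = g := hinj h
    have h2 : u = ⟨g, hg⟩ := Subtype.ext h1
    rw [← h2]
    exact hu
  · intro h
    exact ⟨⟨g, hg⟩, h, rfl⟩

include hinj in
/-- elements acting in the same way modulo the place have the same value -/
theorem chi_eq_of_near (F : IntermediateField ℚ Ω) (hF : F.fixingSubgroup ≤ imKer hG θ)
    (q : Nat.Primes) (g : G)
    (hI : ∀ s ∈ U, hG.j s ∈ (plc (eg S q g)).inertiaSubgroupIn ℚ → hG.j s ∈ imKer hG θ)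
    {τ : G} (hτ : τ ∈ U) (γ : Gq q) (hγ : ABHN.cj (S.r q) g γ ∈ U)
    (h : ∀ x : integralClosure ℤ Ω, (x : Ω) ∈ F →
      ‖eg S q g (hG.j τ x) - eg S q g (hG.j (ABHN.cj (S.r q) g γ) x)‖ < 1) :
    (θ : U → ZMod N) ⟨τ, hτ⟩ = (θ : U → ZMod N) ⟨ABHN.cj (S.r q) g γ, hγ⟩ := by
  have h1 : (hG.j (ABHN.cj (S.r q) g γ))⁻¹ * hG.j τ ∈ imKer hG θ := by
    refine inv_mul_mem (eg S q g) F (U := U.map hG.j) (V := imKer hG θ) ?_ hF ?_ ⟨τ, hτ, rfl⟩
      ⟨_, hγ, rfl⟩ (fun y => ?_) h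
    · rintro _ ⟨u, -, rfl⟩
      exact ⟨u, u.2, rfl⟩
    · rintro s hs ⟨u, hu, rfl⟩
      exact hI u hu hs
    · rw [eg_cj, norm_gq]
  rw [← map_inv, ← map_mul, mem_imKer hinj θ (U.mul_mem (U.inv_mem hγ) hτ)] at h1
  have h2 : (⟨(ABHN.cj (S.r q) g γ)⁻¹ * τ, U.mul_mem (U.inv_mem hγ) hτ⟩ : U) =
      (⟨ABHN.cj (S.r q) g γ, hγ⟩ : U)⁻¹ * ⟨τ, hτ⟩ := rfl
  rw [h2, chiN_mul, chiN_inv, neg_add_eq_zero] at h1
  exact h1.symm

include hinj in
/-- **(A1)** -/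
theorem loc_unit (hU : IsOpenSub L U) (hU2 : ∀ a b, a ∉ U → b ∉ U → a * b ∈ U) {n : ℕ}
    (θ : Chi (2 ^ n) (L.sub U)) (F : IntermediateField ℚ Ω) [FiniteDimensional ℚ F]
    (hF : F.fixingSubgroup ≤ imKer hG θ) (q : Nat.Primes) (g : G)
    (hI : ∀ s ∈ U, hG.j s ∈ (plc (eg S q g)).inertiaSubgroupIn ℚ → hG.j s ∈ imKer hG θ)
    (b : H0 (resAct hG.act U))
    (hb : ‖eg S q g ((Additive.toMul (b : Additive Ωˣ) : Ωˣ) : Ω)‖ = 1) :
    (S.locU q g U).h2 (cls θ b) = 0 := by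
  rw [cls_pull]
  set D := U.comap (ABHN.cj (S.r q) g) with hD
  have hDo := S.isOpen_D q g hU
  obtain ⟨f, hf0, hf⟩ := exists_root_near (eg S q g) F
  set M := f * 2 ^ n with hMdef
  have hM : 0 < M := Nat.mul_pos hf0 (pow_pos two_pos n)
  obtain ⟨R⟩ := exists_RD (S.hq q) (S.hqj q) D hDo (fun a b ha hb => by
    show ABHN.cj (S.r q) g (a * b) ∈ U
    rw [map_mul]
    exact hU2 _ _ ha hb) hM
  refine cls_unit' (S.hq q) (S_act S q) hDo R hM (Dvd.intro_left _ rfl) _ ?_ _ hb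
  intro γ hγ
  show (θ : U → ZMod (2 ^ n)) ⟨ABHN.cj (S.r q) g γ, γ.2⟩ = 0
  obtain ⟨e, he⟩ := R.hQq
  have he0 : e ≠ 0 := by
    rintro rfl
    have := R.hQ
    rw [he, pow_zero] at this
    exact lt_irrefl _ this
  have hroot : ∀ ξ : Cq q, ξ ^ ((q : ℕ) ^ (e * M) - 1) = 1 → (γ : Gq q) ξ = ξ ^ 1 := by
    intro ξ hξ
    have h1 := R.root_fix hM hγ (ξ := ξ) (by rw [he, ← pow_mul]; exact hξ)
    rw [pow_one]
    refine Eq.trans ?_ h1
    exact (DFunLike.congr_fun (S.hqj q γ) ξ).symm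
  have h1 := chi_eq_of_near S hinj θ F hF q g hI (τ := 1) U.one_mem γ γ.2 (fun x hx => by
    have h2 := near_of_root (eg S q g) (F := F) (M := e * M)
      (hf (e * M) (Nat.mul_pos (Nat.pos_of_ne_zero he0) hM)
        (Dvd.dvd.mul_left (Dvd.intro _ rfl) e)) (hG.j (ABHN.cj (S.r q) g γ)) γ
      (fun x => eg_cj S q g γ x) one_ne_zero hroot x hx
    rw [pow_one] at h2
    rw [map_one, AlgEquiv.one_apply, norm_sub_rev]
    exact h2)
  rw [← h1]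
  exact chiN_one θ

lemma exists_zpow_of_fixed {q : Nat.Primes} (x : Cq q) (hx : x ≠ 0) (h : ∀ γ : Gq q, γ x = x) :
    ∃ k : ℤ, ‖x‖ = ((q : ℕ) : ℝ) ^ k := by
  have h1 : x ∈ (⊥ : IntermediateField ℚ_[(q : ℕ)] (Cq q)) :=
    (InfiniteGalois.mem_bot_iff_fixed x).2 h
  rw [IntermediateField.mem_bot] at h1
  obtain ⟨y, rfl⟩ := h1
  have hy : y ≠ 0 := by
    rintro rfl
    exact hx (map_zero _)
  refine ⟨-y.valuation, ?_⟩
  rw [← Padic.norm_eq_zpow_neg_valuation hy]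
  exact PadicAlgCl.norm_extends (q : ℕ) y

include hinj in
/-- **(A2)** -/
theorem loc_split (hU : IsOpenSub L U) [NeZero N] (hN : 1 < N) (F : IntermediateField ℚ Ω)
    [FiniteDimensional ℚ F] (hF : F.fixingSubgroup ≤ imKer hG θ) (v : Nat.Primes) (g : G)
    (hv : ∀ γ, ABHN.cj (S.r v) g γ ∈ U)
    (hI : ∀ s ∈ U, hG.j s ∈ (plc (eg S v g)).inertiaSubgroupIn ℚ → hG.j s ∈ imKer hG θ)
    (b : H0 (resAct hG.act U)) (hb : (S.locU v g U).h2 (cls θ b) = 0)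
    {τ : G} (hτ : τ ∈ U) (hτF : (plc (eg S v g)).IsFrobeniusAt (hG.j τ) (v : ℕ)) :
    ∃ k : ℤ, ‖eg S v g ((Additive.toMul (b : Additive Ωˣ) : Ωˣ) : Ω)‖ ^
      ((θ : U → ZMod N) ⟨τ, hτ⟩).val = (((v : ℕ) : ℝ) ^ k) ^ N := by
  rw [cls_pull] at hb
  set D := U.comap (ABHN.cj (S.r v) g) with hD
  have hDo := S.isOpen_D v g hU
  obtain ⟨f, hf0, hf⟩ := exists_root_near (eg S v g) F
  set M := f * N with hMdef
  have hM : 0 < M := Nat.mul_pos hf0 (by omega)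
  obtain ⟨R, hR⟩ := exists_RD_top (S.hq v) (S.hqj v) D hDo hv hM
  have hroot : ∀ (γ : Gq v) (n : ℕ), n ≠ 0 → (∀ ξ : Cq v, ξ ^ ((v : ℕ) ^ M - 1) = 1 → γ ξ = ξ ^ n) →
      ∀ x : integralClosure ℤ Ω, (x : Ω) ∈ F →
      ‖eg S v g (hG.j (ABHN.cj (S.r v) g γ) x) - eg S v g (x : Ω) ^ n‖ < 1 :=
    fun γ n hn h => near_of_root (eg S v g) (F := F) (M := M)
      (hf M hM (Dvd.intro _ rfl)) (hG.j (ABHN.cj (S.r v) g γ)) γ
      (fun x => eg_cj S v g γ x) hn h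
  have hker : ∀ γ, (R.θur hM dvd_rfl : D → ZMod M) γ = 0 →
      (pullN (S.locU v g U) θ : D → ZMod N) γ = 0 := by
    intro γ hγ
    show (θ : U → ZMod N) ⟨ABHN.cj (S.r v) g γ, γ.2⟩ = 0
    have h1 := chi_eq_of_near S hinj θ F hF v g hI (τ := 1) U.one_mem γ γ.2 (fun x hx => by
      have h2 := hroot γ 1 one_ne_zero (fun ξ hξ => by
        have h3 := R.root_fix hM hγ (ξ := ξ) (by rw [hR]; exact hξ)
        rw [pow_one]
        refine Eq.trans ?_ h3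
        exact (DFunLike.congr_fun (S.hqj v γ) ξ).symm) x hx
      rw [pow_one] at h2
      rw [map_one, AlgEquiv.one_apply, norm_sub_rev]
      exact h2)
    rw [← h1]
    exact chiN_one θ
  obtain ⟨T, hT⟩ := nm_of_cls' (S.hq v) (S_act S v) hDo R hM hN (Dvd.intro_left _ rfl) _ hker _ hb
  obtain ⟨k, hk⟩ := exists_zpow_of_fixed
    ((Additive.toMul (T : Additive (Cq v)ˣ) : (Cq v)ˣ) : Cq v) (Units.ne_zero _) (fun γ => by
      have h3 := mem_H0.1 T.2 ⟨γ, hv γ⟩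
      exact congrArg (fun a => ((Additive.toMul a : (Cq v)ˣ) : Cq v)) h3)
  refine ⟨k, ?_⟩
  have hθ : (θ : U → ZMod N) ⟨τ, hτ⟩ = (pullN (S.locU v g U) θ : D → ZMod N) R.F := by
    show _ = (θ : U → ZMod N) ⟨ABHN.cj (S.r v) g R.F, R.F.2⟩
    refine chi_eq_of_near S hinj θ F hF v g hI hτ R.F R.F.2 (fun x hx => ?_)
    refine norm_sub_lt_trans (near_frob (eg S v g) hτF x) ?_
    rw [norm_sub_rev]
    refine hroot R.F v v.2.ne_zero (fun ξ hξ => ?_) x hx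
    have h3 := R.hF ξ (by rw [hR]; exact hξ)
    rw [hR] at h3
    refine Eq.trans ?_ h3
    exact (DFunLike.congr_fun (S.hqj v R.F) ξ).symm
  rw [hθ]
  refine Eq.trans hT ?_
  rw [← hk]
  rfl

end sys

end Fermat.Agent.ZCFT
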