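import Fermat.Agent.ZCFT.Roots
import Fermat.Agent.CFT6.IntApprox

/-!
# Unramified characters and units
-/

set_option autoImplicit false

namespace Fermat.Agent.ZCFT

open Fermat.Agent.PT Fermat.Agent.PTLocal Fermat.Agent.CFT Fermat.Agent.CFT6

section nm

variable {q : Nat.Primes}

/-- the norm of a unit -/
noncomputable def nm (b : Additive (Cq q)ˣ) : ℝ := ‖((Additive.toMul b : (Cq q)ˣ) : Cq q)‖

lemma nm_pos (b : Additive (Cq q)ˣ) : 0 < nm b := norm_pos_iff.2 (Additive.toMul b).ne_zero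

lemma nm_zero : nm (0 : Additive (Cq q)ˣ) = 1 := by
  show ‖((1 : (Cq q)ˣ) : Cq q)‖ = 1
  rw [Units.val_one, norm_one]

lemma nm_add (a b : Additive (Cq q)ˣ) : nm (a + b) = nm a * nm b := by
  show ‖((Additive.toMul a * Additive.toMul b : (Cq q)ˣ) : Cq q)‖ = _
  rw [Units.val_mul, norm_mul]; rfl

lemma nm_nsmul (n : ℕ) (a : Additive (Cq q)ˣ) : nm (n • a) = nm a ^ n := by
  induction n with
  | zero => rw [zero_smul, nm_zero, pow_zero]
  | succ n ih => rw [succ_nsmul, nm_add, ih, pow_succ]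

lemma nm_neg (a : Additive (Cq q)ˣ) : nm (-a) = (nm a)⁻¹ := by
  have h := nm_add (-a) a
  rw [neg_add_cancel, nm_zero] at h
  exact eq_inv_of_mul_eq_one_left h.symm

lemma nm_sub (a b : Additive (Cq q)ˣ) : nm (a - b) = nm a / nm b := by
  rw [sub_eq_add_neg, nm_add, nm_neg, div_eq_mul_inv]

lemma nm_sum {ι : Type*} (s : Finset ι) (f : ι → Additive (Cq q)ˣ) :
    nm (∑ i ∈ s, f i) = ∏ i ∈ s, nm (f i) := by
  classical
  induction s using Finset.induction_on with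
  | empty => rw [Finset.sum_empty, Finset.prod_empty, nm_zero]
  | insert a s ha ih => rw [Finset.sum_insert ha, Finset.prod_insert ha, nm_add, ih]

variable {G : Type} [Group G] {L : Levels G}

lemma nm_act (hG : LGal ℚ_[(q : ℕ)] (Cq q) L) (g : G) (a : Additive (Cq q)ˣ) :
    nm (hG.act g a) = nm a := norm_gq (hG.j g) _

end nm

section vander

variable {q : Nat.Primes}

/-- `‖1 - ξ‖ = 1` for `ξ ≠ 1` a root of unity of order prime to `q`. -/
lemma norm_one_sub_root {m : ℕ} (hm : m.Coprime q) {ξ : Cq q} (hξ : ξ ^ m = 1) (h1 : ξ ≠ 1) :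
    ‖1 - ξ‖ = 1 := by
  have hξn : ‖ξ‖ = 1 := by
    rcases eq_or_ne m 0 with rfl | hm0
    · exfalso
      rw [Nat.coprime_zero_left] at hm
      exact q.2.one_lt.ne' hm
    · have h2 : ‖ξ‖ ^ m = 1 := by rw [← norm_pow, hξ, norm_one]
      exact (pow_eq_one_iff_of_nonneg (norm_nonneg _) hm0).1 h2
  have hle : ‖1 - ξ‖ ≤ 1 := by
    rw [sub_eq_add_neg]
    refine (IsUltrametricDist.norm_add_le_max _ _).trans ?_
    rw [norm_one, norm_neg, hξn, max_self]
  refine le_antisymm hle (not_lt.1 fun hlt => ?_)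
  have h2 : ∀ k : ℕ, ‖1 - ξ ^ k‖ < 1 := by
    intro k
    induction k with
    | zero => simp
    | succ k ih =>
      have e : 1 - ξ ^ (k + 1) = (1 - ξ ^ k) + ξ ^ k * (1 - ξ) := by ring
      rw [e]
      refine lt_of_le_of_lt (IsUltrametricDist.norm_add_le_max _ _) (max_lt ih ?_)
      rw [norm_mul, norm_pow, hξn, one_pow, one_mul]
      exact hlt
  have h3 : ∑ k ∈ Finset.range m, ξ ^ k = 0 := by
    have h4 := geom_sum_mul ξ m
    rw [hξ, sub_self] at h4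
    rcases mul_eq_zero.1 h4 with h5 | h5
    · exact h5
    · exact absurd (sub_eq_zero.1 h5) h1
  have h4 : (m : Cq q) = ∑ k ∈ Finset.range m, (1 - ξ ^ k) := by
    rw [Finset.sum_sub_distrib, h3, sub_zero]
    simp
  have h5 : ‖(m : Cq q)‖ = 1 := norm_natCast_eq_one
    (fun hd => q.2.one_lt.ne' (Nat.eq_one_of_dvd_coprimes hm hd dvd_rfl))
  have h6 : ‖(m : Cq q)‖ < 1 := by
    rw [h4]
    rcases eq_or_ne m 0 with rfl | hm0
    · simp
    obtain ⟨i, hi, hle⟩ := IsUltrametricDist.exists_norm_finsetSum_le_of_nonempty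
      (Finset.nonempty_range_iff.2 hm0) (fun k => 1 - ξ ^ k)
    exact lt_of_le_of_lt hle (h2 i)
  exact h6.ne h5

/-- a Vandermonde argument -/
lemma norm_lt_of_sums {ι : Type*} [DecidableEq ι] (a : ι → Cq q) (i₀ : ι) (r : ℝ) (s : Finset ι) :
    ∀ c : ι → Cq q, i₀ ∉ s → (∀ i ∈ s, ‖a i‖ ≤ 1) → (∀ i ∈ s, ‖a i₀ - a i‖ = 1) →
    (∀ k : ℕ, ‖a i₀ ^ k * c i₀ + ∑ i ∈ s, a i ^ k * c i‖ < r) → ‖c i₀‖ < r := by
  induction s using Finset.induction_on with
  | empty =>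
    intro c _ _ _ h
    simpa using h 0
  | insert j s hj ih =>
    intro c hi₀ ha hab h
    have hi₀s : i₀ ∉ s := fun h' => hi₀ (Finset.mem_insert_of_mem h')
    have haj : ‖a j‖ ≤ 1 := ha j (Finset.mem_insert_self _ _)
    have h1 := ih (fun i => (a i - a j) * c i) hi₀s
      (fun i hi => ha i (Finset.mem_insert_of_mem hi))
      (fun i hi => hab i (Finset.mem_insert_of_mem hi)) (fun k => ?_)
    · rw [norm_mul, hab j (Finset.mem_insert_self _ _), one_mul] at h1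
      exact h1
    · have e : a i₀ ^ k * ((a i₀ - a j) * c i₀) + ∑ i ∈ s, a i ^ k * ((a i - a j) * c i) =
        (a i₀ ^ (k + 1) * c i₀ + ∑ i ∈ insert j s, a i ^ (k + 1) * c i) -
        a j * (a i₀ ^ k * c i₀ + ∑ i ∈ insert j s, a i ^ k * c i) := by
        rw [Finset.sum_insert hj, Finset.sum_insert hj, mul_add, mul_add, Finset.mul_sum]
        have e2 : ∑ i ∈ s, a i ^ k * ((a i - a j) * c i) =
            ∑ i ∈ s, a i ^ (k + 1) * c i - ∑ i ∈ s, a j * (a i ^ k * c i) := by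
          rw [← Finset.sum_sub_distrib]
          exact Finset.sum_congr rfl fun i _ => by ring
        rw [e2]
        ring
      rw [e, sub_eq_add_neg]
      refine lt_of_le_of_lt (IsUltrametricDist.norm_add_le_max _ _) (max_lt (h (k + 1)) ?_)
      rw [norm_neg, norm_mul]
      calc ‖a j‖ * ‖a i₀ ^ k * c i₀ + ∑ i ∈ insert j s, a i ^ k * c i‖
          ≤ 1 * ‖a i₀ ^ k * c i₀ + ∑ i ∈ insert j s, a i ^ k * c i‖ :=
            mul_le_mul_of_nonneg_right haj (norm_nonneg _)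
        _ < r := by rw [one_mul]; exact h k

end vander

namespace RD

variable {q : Nat.Primes} {G : Type} [Group G] {L : Levels G}
  {hG : LGal ℚ_[(q : ℕ)] (Cq q) L} {M : ℕ} (R : RD hG M)

omit [Group G] in
lemma j_j [Group G] {L : Levels G} (hG : LGal ℚ_[(q : ℕ)] (Cq q) L) (g h : G) (x : Cq q) :
    hG.j g (hG.j h x) = hG.j (g * h) x := by
  rw [map_mul, AlgEquiv.mul_apply]

lemma chi_spec (hM : 0 < M) {N : ℕ} [NeZero N] (hNM : N ∣ M) (θ : Chi N L)
    (h : ∀ g, (R.θur hM dvd_rfl : G → ZMod M) g = 0 → (θ : G → ZMod N) g = 0) (g : G) :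
    (θ : G → ZMod N) g = (θ : G → ZMod N) R.F * (R.θur hM hNM : G → ZMod N) g := by
  have h1 : (θ : G → ZMod N) ((R.F ^ (R.ex g))⁻¹ * g) = 0 := by
    apply h
    have : NeZero M := ⟨hM.ne'⟩
    rw [chiN_mul, chiN_inv, chiN_pow, R.θur_F, mul_one, R.θur_apply]
    exact neg_add_cancel _
  rw [chiN_mul, chiN_inv, chiN_pow] at h1
  rw [R.θur_apply]
  linear_combination h1

/-- **traces**: invariant elements of the unramified extension have the norm of a rational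
element. -/
theorem exists_fixed_norm (hM : 0 < M) {N : ℕ} (hN : 0 < N) (hNM : N ∣ M)
    (y : Additive (Cq q)ˣ) (hy : ∀ g, (R.θur hM hNM : G → ZMod N) g = 0 → hG.act g y = y) :
    ∃ T : H0 hG.act, nm (T : Additive (Cq q)ˣ) = nm y := by
  classical
  have : NeZero N := ⟨hN.ne'⟩
  set θ := R.θur hM hNM with hθ
  set Y : Cq q := ((Additive.toMul y : (Cq q)ˣ) : Cq q) with hY
  have hy' : ∀ g, (θ : G → ZMod N) g = 0 → hG.j g Y = Y := fun g hg =>
    congrArg (fun a => ((Additive.toMul a : (Cq q)ˣ) : Cq q)) (hy g hg)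
  -- a root of unity
  have hQN : 1 < R.Q ^ N := Nat.one_lt_pow hN.ne' R.hQ
  have h0 : 0 < R.Q ^ N - 1 := by omega
  have : NeZero ((R.Q ^ N - 1 : ℕ) : Cq q) := ⟨Nat.cast_ne_zero.2 h0.ne'⟩
  obtain ⟨ζ, hζ⟩ := HasEnoughRootsOfUnity.exists_primitiveRoot (Cq q) (R.Q ^ N - 1)
  have hζg : ∀ (g : G) (i : ℕ), (θ : G → ZMod N) g = i → hG.j g ζ = ζ ^ (R.Q ^ i) :=
    fun g i hi => R.j_root hM hN hNM g hi hζ.pow_eq_one
  have hζn : ‖ζ‖ = 1 := by
    have h2 : ‖ζ‖ ^ (R.Q ^ N - 1) = 1 := by rw [← norm_pow, hζ.pow_eq_one, norm_one]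
    exact (pow_eq_one_iff_of_nonneg (norm_nonneg _) h0.ne').1 h2
  have hcop : (R.Q ^ N - 1).Coprime q := by
    obtain ⟨e, he⟩ := R.hQq
    have he0 : e ≠ 0 := by
      rintro rfl
      have := R.hQ
      rw [he, pow_zero] at this
      exact lt_irrefl _ this
    have h1 : (q : ℕ) ∣ R.Q ^ N := by
      rw [he]; exact dvd_pow (dvd_pow_self _ he0) hN.ne'
    rw [Nat.coprime_comm, Nat.Prime.coprime_iff_not_dvd q.2]
    intro h2
    have h3 := Nat.dvd_sub h1 h2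
    have h4 : R.Q ^ N - (R.Q ^ N - 1) = 1 := by omega
    rw [h4] at h3
    exact q.2.one_lt.ne' (Nat.dvd_one.1 h3)
  -- the sums
  let T : ℕ → Cq q := fun k => ∑ i ∈ Finset.range N, hG.j (R.F ^ i) (ζ ^ k * Y)
  have hfix : ∀ (k : ℕ) (g : G), (θ : G → ZMod N) g = 0 → hG.j g (ζ ^ k * Y) = ζ ^ k * Y := by
    intro k g hg
    rw [map_mul, map_pow, hζg g 0 (by rw [hg, Nat.cast_zero]), hy' g hg, pow_zero, pow_one]
  have hFpow : ∀ i : ℕ, (θ : G → ZMod N) (R.F ^ i) = i := fun i => by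
    rw [chiN_pow, hθ, R.θur_F, mul_one]
  have heq : ∀ (k : ℕ) (g h : G), (θ : G → ZMod N) g = (θ : G → ZMod N) h →
      hG.j g (ζ ^ k * Y) = hG.j h (ζ ^ k * Y) := by
    intro k g h hgh
    have h1 := hfix k (h⁻¹ * g) (by rw [chiN_mul, chiN_inv, hgh, neg_add_cancel])
    have h2 := congrArg (hG.j h) h1
    rw [j_j, mul_inv_cancel_left] at h2
    exact h2
  let f : ℕ → ZMod N → Cq q := fun k a => hG.j (R.F ^ a.val) (ζ ^ k * Y)
  have hTf : ∀ k, T k = ∑ a : ZMod N, f k a := by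
    intro k
    obtain ⟨n, rfl⟩ : ∃ n, N = n + 1 := ⟨N - 1, by omega⟩
    exact (Fin.sum_univ_eq_sum_range (fun i => hG.j (R.F ^ i) (ζ ^ k * Y)) (n + 1)).symm
  have hTfix : ∀ k g, hG.j g (T k) = T k := by
    intro k g
    rw [hTf, map_sum]
    refine Fintype.sum_equiv (Equiv.addLeft ((θ : G → ZMod N) g)) _ _ (fun a => ?_)
    show hG.j g (hG.j (R.F ^ a.val) (ζ ^ k * Y)) =
      hG.j (R.F ^ ((θ : G → ZMod N) g + a).val) (ζ ^ k * Y)
    rw [j_j]
    apply heq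
    rw [chiN_mul, hFpow, hFpow, ZMod.natCast_val, ZMod.cast_id', id, ZMod.natCast_val,
      ZMod.cast_id', id]
  -- some sum is large
  obtain ⟨k, hk⟩ : ∃ k, ‖Y‖ ≤ ‖T k‖ := by
    by_contra hcon
    push Not at hcon
    have key := norm_lt_of_sums (fun i : ℕ => ζ ^ (R.Q ^ i)) 0 ‖Y‖ (Finset.Ico 1 N)
      (fun i => hG.j (R.F ^ i) Y) (by simp) (fun i _ => by rw [norm_pow, hζn, one_pow]) ?_ ?_
    · rw [pow_zero, map_one, AlgEquiv.one_apply] at key
      exact lt_irrefl _ key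
    · intro i hi
      rw [Finset.mem_Ico] at hi
      show ‖ζ ^ R.Q ^ 0 - ζ ^ R.Q ^ i‖ = 1
      have hQi : 1 ≤ R.Q ^ i := Nat.one_le_pow _ _ (by have := R.hQ; omega)
      have e : ζ ^ R.Q ^ 0 - ζ ^ R.Q ^ i = ζ * (1 - ζ ^ (R.Q ^ i - 1)) := by
        rw [pow_zero, pow_one, mul_sub, mul_one, ← pow_succ', Nat.sub_add_cancel hQi]
      rw [e, norm_mul, hζn, one_mul]
      refine norm_one_sub_root hcop (by rw [← pow_mul, mul_comm, pow_mul, hζ.pow_eq_one,
        one_pow]) ?_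
      intro h1
      rw [hζ.pow_eq_one_iff_dvd] at h1
      have h2 := PTC.dvd_of_pow_sub_one_dvd R.hQ h1
      have h3 := Nat.le_of_dvd (by omega) h2
      omega
    · intro k
      have e : (ζ ^ R.Q ^ 0) ^ k * hG.j (R.F ^ 0) Y +
          ∑ i ∈ Finset.Ico 1 N, (ζ ^ R.Q ^ i) ^ k * hG.j (R.F ^ i) Y = T k := by
        have e1 : ∀ i : ℕ, (ζ ^ R.Q ^ i) ^ k * hG.j (R.F ^ i) Y =
            hG.j (R.F ^ i) (ζ ^ k * Y) := by
          intro i
          rw [map_mul (hG.j (R.F ^ i)), map_pow (hG.j (R.F ^ i)), hζg _ i (hFpow i)]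
        show _ = ∑ i ∈ Finset.range N, hG.j (R.F ^ i) (ζ ^ k * Y)
        rw [← Finset.sum_range_add_sum_Ico _ (show 1 ≤ N from hN), Finset.sum_range_one, e1]
        congr 1
        exact Finset.sum_congr rfl fun i _ => e1 i
      have h1 := hcon k
      rw [← e] at h1
      exact h1
  have hkn : ‖T k‖ = ‖Y‖ := by
    refine le_antisymm ?_ hk
    obtain ⟨i, hi, hle⟩ := IsUltrametricDist.exists_norm_finsetSum_le_of_nonempty
      (Finset.nonempty_range_iff.2 hN.ne') (fun i => hG.j (R.F ^ i) (ζ ^ k * Y))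
    refine hle.trans ?_
    rw [norm_gq, norm_mul, norm_pow, hζn, one_pow, one_mul]
  have hT0 : T k ≠ 0 := by
    intro h1
    rw [h1, norm_zero] at hkn
    exact (Additive.toMul y : (Cq q)ˣ).ne_zero (norm_eq_zero.1 hkn.symm)
  refine ⟨⟨Additive.ofMul (Units.mk0 _ hT0), ?_⟩, hkn⟩
  rw [mem_H0]
  intro g
  apply Additive.toMul.injective
  apply Units.ext
  exact hTfix k g

end RD

end Fermat.Agent.ZCFT
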