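import Fermat.Agent.ZCFT.Loc
import Fermat.Agent.PTC.RecLoc

/-!
# Local classes of unramified characters
-/

set_option autoImplicit false

namespace Fermat.Agent.ZCFT

open Fermat.Agent.PT Fermat.Agent.PTLocal Fermat.Agent.CFT Fermat.Agent.CFT6

section ker

variable {N : ℕ} {G : Type*} [Group G] {L : Levels G}

/-- the kernel of a character -/
def kerChi (χ : Chi N L) : Subgroup G where
  carrier := {g | (χ : G → ZMod N) g = 0}
  one_mem' := chiN_one χ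
  mul_mem' {a b} ha hb := by
    show (χ : G → ZMod N) (a * b) = 0
    rw [chiN_mul, show (χ : G → ZMod N) a = 0 from ha, show (χ : G → ZMod N) b = 0 from hb,
      add_zero]
  inv_mem' {a} ha := by
    show (χ : G → ZMod N) a⁻¹ = 0
    rw [chiN_inv, show (χ : G → ZMod N) a = 0 from ha, neg_zero]

lemma mem_kerChi {χ : Chi N L} {g : G} : g ∈ kerChi χ ↔ (χ : G → ZMod N) g = 0 := Iff.rfl

lemma isOpen_kerChi (χ : Chi N L) : IsOpenSub L (kerChi χ) := by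
  obtain ⟨N₀, hN₀, hc⟩ := χ.2.1
  refine ⟨N₀, hN₀, fun s hs => ?_⟩
  have := hc 1 s hs
  rw [one_mul] at this
  exact this.trans (chiN_one χ)

end ker

section loc

variable {q : Nat.Primes} {G : Type} [Group G] {L : Levels G}
  (hG : LGal ℚ_[(q : ℕ)] (Cq q) L)

/-- uniqueness of the class of order two -/
theorem eq_of_two_torsion {z z' : H2 L hG.act} (h : 2 • z = 0) (h' : 2 • z' = 0) (h0 : z ≠ 0)
    (h0' : z' ≠ 0) : z = z' := by
  have hζ : IsPrimitiveRoot (-1 : Cq q) 2 := IsPrimitiveRoot.neg_one 0 (by norm_num)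
  have hi : Function.Injective (zetaHom hζ) := zetaHom_injective hζ
  have hc : ∀ g a, zetaHom hζ (trivAct G (ZMod 2) g a) = hG.act g (zetaHom hζ a) := by
    intro g a
    rw [trivAct_apply]
    apply Additive.toMul.injective
    apply Units.ext
    show _ = hG.j g (Additive.toMul (zetaHom hζ a) : (Cq q)ˣ)
    rw [zetaHom_apply, map_pow, map_neg, map_one]
  set T : H2 L (trivAct G (ZMod 2)) →+ H2 L hG.act := (kumMu hG hi hc).i.h2 L with hT
  have hTi : Function.Injective T := kumMu_h2_injective hG hi hc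
  have hcT : Nat.card T.range = 2 := by
    rw [← Nat.card_congr (AddMonoidHom.ofInjective hTi).toEquiv]
    exact hG.card_H2_mu hi hc
  have hmem : ∀ w : H2 L hG.act, 2 • w = 0 → w ∈ T.range := by
    intro w hw
    have h1 : (kumMu hG hi hc).p.h2 L w = 0 := by
      rw [← hw]
      exact EHom.h2_nsmul L (fun a => rfl) _
    obtain ⟨y, hy⟩ := ((kumMu hG hi hc).exact_H2_mid hG.smooth _).1 h1
    exact ⟨y, hy⟩
  have h1 := hmem z' h'
  rw [← eq_zmultiples_of_card hcT (hmem z h) h0] at h1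
  obtain ⟨n, hn⟩ := AddSubgroup.mem_zmultiples_iff.1 h1
  have h2z : (2 : ℤ) • z = 0 := by
    rw [← h]; exact_mod_cast rfl
  rcases Int.even_or_odd' n with ⟨k, hk | hk⟩
  · exfalso
    apply h0'
    rw [← hn, hk, mul_comm, mul_zsmul, h2z, zsmul_zero]
  · rw [← hn, hk, add_zsmul, mul_comm, mul_zsmul, h2z, zsmul_zero, one_zsmul, zero_add]

/-- values of rational elements -/
lemma exists_norm_pow_eq (x : H0 hG.act) : ∃ (d : ℕ) (m : ℤ), 0 < d ∧
    d ≤ Module.finrank ℚ_[(q : ℕ)] hG.E ∧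
    nm (x : Additive (Cq q)ˣ) ^ d = ((q : ℕ) : ℝ) ^ m := by
  obtain ⟨y, rfl⟩ := hG.eH0_bijective.2 x
  have hfd := hG.finiteDimensional_E
  set Y : hG.E := ((Additive.toMul y : hG.Eˣ) : hG.E) with hY
  have hY0 : (Y : Cq q) ≠ 0 := by
    have h1 : Y ≠ 0 := (Additive.toMul y : hG.Eˣ).ne_zero
    exact fun h => h1 (Subtype.ext h)
  have hint : IsIntegral ℚ_[(q : ℕ)] (Y : Cq q) :=
    (Algebra.IsAlgebraic.isAlgebraic (R := ℚ_[(q : ℕ)]) (Y : Cq q)).isIntegral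
  set P := minpoly ℚ_[(q : ℕ)] (Y : Cq q) with hP
  have hdeg : 0 < P.natDegree := minpoly.natDegree_pos hint
  have hnorm : ‖(Y : Cq q)‖ = ‖P.coeff 0‖ ^ (1 / P.natDegree : ℝ) := by
    exact spectralNorm.spectralNorm_eq_norm_coeff_zero_rpow (K := ℚ_[(q : ℕ)]) (L := Cq q)
      (Y : Cq q)
  have hc0 : P.coeff 0 ≠ 0 := minpoly.coeff_zero_ne_zero hint hY0
  refine ⟨P.natDegree, -(P.coeff 0).valuation, hdeg, ?_, ?_⟩
  · rw [hP]
    have h1 : minpoly ℚ_[(q : ℕ)] (Y : Cq q) = minpoly ℚ_[(q : ℕ)] Y :=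
      minpoly.algebraMap_eq (algebraMap hG.E (Cq q)).injective Y
    rw [h1]
    exact minpoly.natDegree_le Y
  · show ‖(Y : Cq q)‖ ^ P.natDegree = _
    rw [hnorm, ← Real.rpow_natCast, ← Real.rpow_mul (norm_nonneg _), one_div,
      inv_mul_cancel₀ (by exact_mod_cast hdeg.ne'), Real.rpow_one,
      Padic.norm_eq_zpow_neg_valuation hc0]

/-- not every norm is a square -/
theorem exists_not_square : ∃ π : H0 hG.act, ∀ x : H0 hG.act,
    nm (π : Additive (Cq q)ˣ) ≠ nm (x : Additive (Cq q)ˣ) ^ 2 := by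
  by_contra hcon
  push Not at hcon
  -- the element `q`
  have hq0 : ((q : ℕ) : Cq q) ≠ 0 := by exact_mod_cast q.2.ne_zero
  let ϖ : H0 hG.act := ⟨Additive.ofMul (Units.mk0 _ hq0), by
    rw [mem_H0]
    intro g
    apply Additive.toMul.injective
    apply Units.ext
    show hG.j g ((q : ℕ) : Cq q) = ((q : ℕ) : Cq q)
    rw [map_natCast]⟩
  have hϖ : nm (ϖ : Additive (Cq q)ˣ) = ((q : ℕ) : ℝ)⁻¹ := norm_natCast_q
  have hseq : ∀ k : ℕ, ∃ x : H0 hG.act, ((q : ℕ) : ℝ)⁻¹ = nm (x : Additive (Cq q)ˣ) ^ (2 ^ k) := by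
    intro k
    induction k with
    | zero => exact ⟨ϖ, by rw [pow_zero, pow_one, hϖ]⟩
    | succ k ih =>
      obtain ⟨x, hx⟩ := ih
      obtain ⟨y, hy⟩ := hcon x
      exact ⟨y, by rw [hx, hy, ← pow_mul, pow_succ, mul_comm]⟩
  set D := Module.finrank ℚ_[(q : ℕ)] hG.E with hD
  obtain ⟨x, hx⟩ := hseq D
  obtain ⟨d, m, hd0, hdD, hdm⟩ := exists_norm_pow_eq hG x
  have h1 : (((q : ℕ) : ℝ)⁻¹) ^ d = (((q : ℕ) : ℝ) ^ m) ^ (2 ^ D) := by
    rw [hx, ← pow_mul, mul_comm, pow_mul, hdm]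
  have hq1 : (1 : ℝ) < ((q : ℕ) : ℝ) := by exact_mod_cast q.2.one_lt
  have h2 : ((q : ℕ) : ℝ) ^ (-(d : ℤ)) = ((q : ℕ) : ℝ) ^ (m * ((2 ^ D : ℕ) : ℤ)) := by
    rw [zpow_neg, zpow_natCast, ← inv_pow, h1, zpow_mul, zpow_natCast]
  have h3 := zpow_right_injective₀ (by linarith) hq1.ne' h2
  have h4 : ((2 ^ D : ℕ) : ℤ) ∣ (d : ℤ) := ⟨-m, by linear_combination -h3⟩
  have h5 : 2 ^ D ∣ d := by exact_mod_cast h4
  have h6 := Nat.le_of_dvd hd0 h5
  have h7 : D < 2 ^ D := Nat.lt_two_pow_self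
  omega

end loc

namespace RD

variable {q : Nat.Primes} {G : Type} [Group G] {L : Levels G}
  {hG : LGal ℚ_[(q : ℕ)] (Cq q) L} {M : ℕ} (R : RD hG M)

/-- the norm criterion for unramified classes -/
theorem nm_of_cls_eq_zero (hM : 0 < M) {N : ℕ} [NeZero N] (hN : 1 < N) (hNM : N ∣ M)
    (b : H0 hG.act) (h : cls (R.θur hM hNM) b = 0) :
    ∃ T : H0 hG.act, nm (b : Additive (Cq q)ˣ) = nm (T : Additive (Cq q)ˣ) ^ N := by
  set U := kerChi (R.θur hM hNM) with hU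
  have hUo : IsOpenSub L U := isOpen_kerChi _
  have h90 : ∀ x : H1 (L.sub U) (resAct hG.act U), x = 0 := fun x => (hG.sub U hUo).h90 x
  obtain ⟨y, hy, hb⟩ := exists_norm_of_cls_eq_zero hN (R.θur hM hNM) (F := R.F)
    (R.θur_F hM hNM) U (fun g => Iff.rfl) h90 b h
  obtain ⟨T, hT⟩ := R.exists_fixed_norm hM (by omega) hNM y (fun g hg => hy g hg)
  refine ⟨T, ?_⟩
  rw [hb, nm_sum, hT]
  rw [Finset.prod_congr rfl (fun i _ => nm_act hG (R.F ^ i) y), Finset.prod_const,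
    Finset.card_range]

/-- **units are norms from unramified extensions** -/
theorem cls_θur_unit (hM : 0 < M) {n : ℕ} (hNM : 2 ^ n ∣ M) (u : H0 hG.act)
    (hu : nm (u : Additive (Cq q)ˣ) = 1) : cls (R.θur hM hNM) u = 0 := by
  rcases Nat.eq_zero_or_pos n with rfl | hn
  · have h1 := card_smul_cls (R.θur hM hNM) u
    simpa using h1
  obtain ⟨n, rfl⟩ : ∃ k, n = k + 1 := ⟨n - 1, by omega⟩
  have h1N : 1 < 2 ^ (n + 1) := Nat.one_lt_pow (by omega) (by norm_num)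
  by_contra hne
  -- reduce to order two
  have key : ∀ k : ℕ, 2 ^ k • cls (R.θur hM hNM) u ≠ 0 →
      2 ^ (k + 1) • cls (R.θur hM hNM) u ≠ 0 := by
    intro k hk hk1
    obtain ⟨π, hπ⟩ := exists_not_square hG
    set x := 2 ^ k • cls (R.θur hM hNM) u with hx
    set z := cls (R.θur hM hNM) (2 ^ n • π) with hz
    have h2x : 2 • x = 0 := by
      rw [hx, smul_smul, mul_comm, ← pow_succ]; exact hk1
    have h2z : 2 • z = 0 := by
      rw [hz, map_nsmul, smul_smul, mul_comm, ← pow_succ]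
      exact card_smul_cls _ _
    have hz0 : z ≠ 0 := by
      intro h0
      obtain ⟨T, hT⟩ := R.nm_of_cls_eq_zero hM h1N hNM _ h0
      have h3 : nm (π : Additive (Cq q)ˣ) ^ 2 ^ n = (nm (T : Additive (Cq q)ˣ) ^ 2) ^ 2 ^ n := by
        have h4 : nm ((2 ^ n • π : H0 hG.act) : Additive (Cq q)ˣ) =
            nm (π : Additive (Cq q)ˣ) ^ 2 ^ n := nm_nsmul _ _
        rw [← h4, hT, ← pow_mul, pow_succ, mul_comm]
      exact hπ T ((pow_left_inj₀ (nm_pos _).le (pow_nonneg (nm_pos _).le _)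
        (pow_ne_zero _ two_ne_zero)).1 h3)
    have hxz := eq_of_two_torsion hG h2x h2z hk hz0
    have h0 : cls (R.θur hM hNM) (2 ^ k • u - 2 ^ n • π) = 0 := by
      rw [map_sub, map_nsmul]
      exact sub_eq_zero.2 hxz
    obtain ⟨T, hT⟩ := R.nm_of_cls_eq_zero hM h1N hNM _ h0
    have h5 : nm ((2 ^ k • u - 2 ^ n • π : H0 hG.act) : Additive (Cq q)ˣ) =
        (nm (π : Additive (Cq q)ˣ))⁻¹ ^ 2 ^ n := by
      show nm (2 ^ k • (u : Additive (Cq q)ˣ) - 2 ^ n • (π : Additive (Cq q)ˣ)) = _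
      rw [nm_sub, nm_nsmul, nm_nsmul, hu, one_pow, one_div, inv_pow]
    have h6 : (nm (π : Additive (Cq q)ˣ))⁻¹ ^ 2 ^ n =
        (nm (T : Additive (Cq q)ˣ) ^ 2) ^ 2 ^ n := by
      rw [← h5, hT, ← pow_mul, pow_succ, mul_comm]
    have h7 := (pow_left_inj₀ (inv_nonneg.2 (nm_pos _).le) (pow_nonneg (nm_pos _).le _)
      (pow_ne_zero _ two_ne_zero)).1 h6
    apply hπ (-T)
    show _ = nm (-(T : Additive (Cq q)ˣ)) ^ 2
    rw [nm_neg, inv_pow, ← h7, inv_inv]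
  have h8 : ∀ k : ℕ, 2 ^ k • cls (R.θur hM hNM) u ≠ 0 := by
    intro k
    induction k with
    | zero => rwa [pow_zero, one_smul]
    | succ k ih => exact key k ih
  exact h8 (n + 1) (card_smul_cls _ _)

/-- the class of an unramified character -/
lemma cls_eq (hM : 0 < M) {N : ℕ} [NeZero N] (hNM : N ∣ M) (θ : Chi N L)
    (h : ∀ g, (R.θur hM dvd_rfl : G → ZMod M) g = 0 → (θ : G → ZMod N) g = 0) (b : H0 hG.act) :
    cls θ b = cls (R.θur hM hNM) (((θ : G → ZMod N) R.F).val • b) := by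
  rw [← cls_nsmul_left]
  congr 1
  congr 1
  apply Subtype.ext
  funext g
  show (θ : G → ZMod N) g = ((θ : G → ZMod N) R.F).val • (R.θur hM hNM : G → ZMod N) g
  rw [R.chi_spec hM hNM θ h g, nsmul_eq_mul, ZMod.natCast_val, ZMod.cast_id', id]

/-- **(L1)** -/
theorem cls_unit (hM : 0 < M) {n : ℕ} (hNM : 2 ^ n ∣ M) (θ : Chi (2 ^ n) L)
    (h : ∀ g, (R.θur hM dvd_rfl : G → ZMod M) g = 0 → (θ : G → ZMod (2 ^ n)) g = 0)
    (u : H0 hG.act) (hu : nm (u : Additive (Cq q)ˣ) = 1) : cls θ u = 0 := by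
  rw [R.cls_eq hM hNM θ h]
  apply R.cls_θur_unit hM hNM
  show nm (_ • (u : Additive (Cq q)ˣ)) = 1
  rw [nm_nsmul, hu, one_pow]

/-- **(L2)** -/
theorem nm_of_cls (hM : 0 < M) {N : ℕ} [NeZero N] (hN : 1 < N) (hNM : N ∣ M) (θ : Chi N L)
    (h : ∀ g, (R.θur hM dvd_rfl : G → ZMod M) g = 0 → (θ : G → ZMod N) g = 0)
    (b : H0 hG.act) (hb : cls θ b = 0) :
    ∃ T : H0 hG.act, nm (b : Additive (Cq q)ˣ) ^ ((θ : G → ZMod N) R.F).val =
      nm (T : Additive (Cq q)ˣ) ^ N := by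
  rw [R.cls_eq hM hNM θ h] at hb
  obtain ⟨T, hT⟩ := R.nm_of_cls_eq_zero hM hN hNM _ hb
  refine ⟨T, ?_⟩
  rw [← hT]
  exact (nm_nsmul _ _).symm

end RD

end Fermat.Agent.ZCFT
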