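import Fermat.Agent.ZCFT.Loc2

/-!
# Construction of the data on roots of unity
-/

set_option autoImplicit false

namespace Fermat.Agent.ZCFT

open Fermat.Agent.PT Fermat.Agent.PTLocal Fermat.Agent.CFT Fermat.Agent.CFT6

section

variable {q : Nat.Primes} {L : Levels (Gq q)} (hG : LGal ℚ_[(q : ℕ)] (Cq q) L)
  (hj : ∀ τ, hG.j τ = τ)

lemma pow_sub_coprime {Q M : ℕ} (hM : 0 < M) (hQ : ∃ e : ℕ, e ≠ 0 ∧ Q = (q : ℕ) ^ e) :
    (Q ^ M - 1).Coprime q := by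
  obtain ⟨e, he0, he⟩ := hQ
  have h1 : (q : ℕ) ∣ Q ^ M := by
    rw [he]; exact dvd_pow (dvd_pow_self _ he0) hM.ne'
  have h0 : 1 ≤ Q ^ M := by
    rw [he]; exact Nat.one_le_pow _ _ (Nat.pow_pos q.2.pos)
  rw [Nat.coprime_comm, Nat.Prime.coprime_iff_not_dvd q.2]
  intro h2
  have h3 := Nat.dvd_sub h1 h2
  have h4 : Q ^ M - (Q ^ M - 1) = 1 := by omega
  rw [h4] at h3
  exact q.2.one_lt.ne' (Nat.dvd_one.1 h3)

include hj in
/-- the whole group -/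
theorem exists_RD_top (D : Subgroup (Gq q)) (hD : IsOpenSub L D) (htop : ∀ γ, γ ∈ D) {M : ℕ}
    (hM : 0 < M) : ∃ R : RD (hG.sub D hD) M, R.Q = q := by
  have hq1 : 1 < (q : ℕ) ^ M := Nat.one_lt_pow hM.ne' q.2.one_lt
  obtain ⟨g, hg, hgen⟩ := exists_rootFrob q (m := (q : ℕ) ^ M - 1) (by omega)
    (pow_sub_coprime hM ⟨1, one_ne_zero, (pow_one _).symm⟩)
  exact ⟨{
    Q := q
    hQ := q.2.one_lt
    hQq := ⟨1, (pow_one _).symm⟩
    F := ⟨g, htop g⟩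
    hF := fun ζ hζ => by
      show hG.j g ζ = _
      rw [hj]; exact hg ζ hζ
    hgen := fun γ => by
      obtain ⟨i, hi⟩ := hgen γ
      refine ⟨i, fun ζ hζ => ?_⟩
      show hG.j γ ζ = _
      rw [hj]; exact hi ζ hζ }, rfl⟩

include hj in
/-- subgroups of index at most two -/
theorem exists_RD (D : Subgroup (Gq q)) (hD : IsOpenSub L D)
    (h2 : ∀ a b : Gq q, a ∉ D → b ∉ D → a * b ∈ D) {M : ℕ} (hM : 0 < M) :
    Nonempty (RD (hG.sub D hD) M) := by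
  classical
  set m := (q : ℕ) ^ (2 * M) - 1 with hm
  have hq1 : 1 < (q : ℕ) ^ (2 * M) := Nat.one_lt_pow (by omega) q.2.one_lt
  obtain ⟨g, hg, hgen⟩ := exists_rootFrob q (m := m) (by omega)
    (pow_sub_coprime (by omega) ⟨1, one_ne_zero, (pow_one _).symm⟩)
  have hgg : g * g ∈ D := by
    by_cases hgD : g ∈ D
    · exact D.mul_mem hgD hgD
    · exact h2 g g hgD hgD
  have hgk : ∀ (k : ℕ) (ζ : Cq q), ζ ^ m = 1 → (g ^ k) ζ = ζ ^ ((q : ℕ) ^ k) := by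
    intro k
    induction k with
    | zero => intro ζ _; simp
    | succ k ih =>
      intro ζ hζ
      rw [pow_succ, AlgEquiv.mul_apply, hg ζ hζ, map_pow, ih ζ hζ, ← pow_mul, ← pow_succ]
  by_cases hcase : ∀ d ∈ D, ∃ i : ℕ, ∀ ζ : Cq q, ζ ^ m = 1 → d ζ = ζ ^ ((q : ℕ) ^ (2 * i))
  · refine ⟨{
      Q := (q : ℕ) ^ 2
      hQ := Nat.one_lt_pow two_ne_zero q.2.one_lt
      hQq := ⟨2, rfl⟩
      F := ⟨g * g, hgg⟩
      hF := fun ζ hζ => ?_
      hgen := fun γ => ?_ }⟩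
    · show hG.j (g * g) ζ = _
      have hζ' : ζ ^ m = 1 := by rw [hm, pow_mul]; exact hζ
      rw [hj, ← pow_two]
      exact hgk 2 ζ hζ'
    · obtain ⟨i, hi⟩ := hcase γ γ.2
      refine ⟨i, fun ζ hζ => ?_⟩
      have hζ' : ζ ^ m = 1 := by rw [hm, pow_mul]; exact hζ
      show hG.j γ ζ = _
      rw [hj, hi ζ hζ', pow_mul]
  · push Not at hcase
    obtain ⟨d, hdD, hd⟩ := hcase
    obtain ⟨i, hi⟩ := hgen d
    have hodd : Odd i := by
      rw [← Nat.not_even_iff_odd]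
      rintro ⟨j, hj'⟩
      obtain ⟨ζ, hζ, hne⟩ := hd j
      apply hne
      rw [hi ζ hζ, hj', ← two_mul]
    obtain ⟨j, hj'⟩ := hodd
    -- `k = (2M - 1) i + 1` is even and `i + k = 1 + 2 M i`
    obtain ⟨k', hk'⟩ : ∃ k' : ℕ, i + 2 * k' = 1 + 2 * M * i := by
      refine ⟨M * i - j, ?_⟩
      have h3 : j ≤ M * i := by
        calc j ≤ i := by omega
          _ = 1 * i := (one_mul i).symm
          _ ≤ M * i := Nat.mul_le_mul_right i hM
      have h4 : 2 * M * i = 2 * (M * i) := by ring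
      omega
    have hFD : d * (g ^ (2 * k')) ∈ D := by
      apply D.mul_mem hdD
      rw [pow_mul, pow_two]
      exact D.pow_mem hgg k'
    have hper : ∀ (n : ℕ) (ζ : Cq q), ζ ^ m = 1 → ζ ^ ((q : ℕ) ^ (1 + 2 * M * n)) = ζ ^ (q : ℕ) := by
      intro n ζ hζ
      have h3 : ζ ^ ((q : ℕ) ^ (2 * M)) = ζ := by
        have h4 : (q : ℕ) ^ (2 * M) = m + 1 := by omega
        rw [h4, pow_add, hζ, one_mul, pow_one]
      induction n with
      | zero => simp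
      | succ n ih =>
        have e : 1 + 2 * M * (n + 1) = 2 * M + (1 + 2 * M * n) := by ring
        rw [e, pow_add, pow_mul, h3, ih]
    have hdvd : (q : ℕ) ^ M - 1 ∣ m := by
      rw [hm, mul_comm, pow_mul]
      simpa using Nat.sub_dvd_pow_sub_pow ((q : ℕ) ^ M) 1 2
    have hroot : ∀ ζ : Cq q, ζ ^ ((q : ℕ) ^ M - 1) = 1 → ζ ^ m = 1 := by
      intro ζ hζ
      obtain ⟨c, hc⟩ := hdvd
      rw [hc, pow_mul, hζ, one_pow]
    refine ⟨{
      Q := q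
      hQ := q.2.one_lt
      hQq := ⟨1, (pow_one _).symm⟩
      F := ⟨d * (g ^ (2 * k')), hFD⟩
      hF := fun ζ hζ => ?_
      hgen := fun γ => ?_ }⟩
    · show hG.j (d * (g ^ (2 * k'))) ζ = _
      rw [hj, AlgEquiv.mul_apply, hgk _ ζ (hroot ζ hζ), map_pow, hi ζ (hroot ζ hζ), ← pow_mul,
        ← pow_add, hk', hper _ ζ (hroot ζ hζ)]
    · obtain ⟨i, hi⟩ := hgen γ
      refine ⟨i, fun ζ hζ => ?_⟩
      show hG.j γ ζ = _
      rw [hj]; exact hi ζ (hroot ζ hζ)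

end

end Fermat.Agent.ZCFT
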