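import Fermat.Agent.ZCFT.Cyc
import Fermat.Agent.PTC.Unr
import Fermat.Agent.PTLocal.LocHyp

/-!
# Unramified characters of local Galois groups, via roots of unity
-/

set_option autoImplicit false

namespace Fermat.Agent.ZCFT

open Fermat.Agent.PT Fermat.Agent.PTLocal Fermat.Agent.CFT Fermat.Agent.CFT6

/-- action of the local Galois group on roots of unity of order prime to `q`. -/
theorem exists_rootFrob (q : Nat.Primes) {m : ℕ} (hm : 0 < m) (hmq : m.Coprime q) :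
    ∃ g : Gq q, (∀ ζ : Cq q, ζ ^ m = 1 → g ζ = ζ ^ (q : ℕ)) ∧
      ∀ γ : Gq q, ∃ i : ℕ, ∀ ζ : Cq q, ζ ^ m = 1 → γ ζ = ζ ^ ((q : ℕ) ^ i) := by
  set r := localGaloisToGlobal (q : ℕ) with hrdef
  have hr : ∀ τ x, (padicEmbedding (q : ℕ)).toRingHom (r τ x) =
      τ ((padicEmbedding (q : ℕ)).toRingHom x) := fun τ x =>
    padicEmbedding_localGaloisToGlobal (q : ℕ) τ x
  have hfd2 := PTC.rootF_finite hm
  have hnm2 : Normal ℚ (PTC.rootF m) := PTC.rootF_normal m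
  have hAq := liesOver_padic (q : ℕ)
  have hFin := PTC.rootF_inertia hm q.2 hmq hAq
  obtain ⟨σ₀, g, hσ₀, hg⟩ := exists_frob_loc (padicEmbedding (q : ℕ)).toRingHom
    mem_nonunits_padic hAq r hr (PTC.rootF m)
  have hmem : ∀ t : AlgebraicClosure ℚ, t ^ m = 1 → t ∈ PTC.rootF m := fun t ht =>
    IntermediateField.subset_adjoin _ _ ht
  have : NeZero m := ⟨hm.ne'⟩
  obtain ⟨ζ₀, hζ₀⟩ := HasEnoughRootsOfUnity.exists_primitiveRoot (AlgebraicClosure ℚ) m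
  have hpre : ∀ ζ : Cq q, ζ ^ m = 1 → ∃ t : AlgebraicClosure ℚ, t ^ m = 1 ∧
      padicEmbedding (q : ℕ) t = ζ := by
    intro ζ hζ
    have h1 : IsPrimitiveRoot (padicEmbedding (q : ℕ) ζ₀) m :=
      hζ₀.map_of_injective (padicEmbedding (q : ℕ)).injective
    obtain ⟨i, -, hi⟩ := h1.eq_pow_of_pow_eq_one hζ
    exact ⟨ζ₀ ^ i, by rw [← pow_mul, mul_comm, pow_mul, hζ₀.pow_eq_one, one_pow],
      by rw [map_pow, hi]⟩
  have hgζ : ∀ ζ : Cq q, ζ ^ m = 1 → g ζ = ζ ^ (q : ℕ) := by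
    intro ζ hζ
    obtain ⟨t, ht, rfl⟩ := hpre ζ hζ
    have h1 := hr g t
    rw [hg t (hmem t ht), QuadRep.frobenius_smul_root q.2 hAq hσ₀ hm hmq t ht] at h1
    exact h1.symm.trans (map_pow (padicEmbedding (q : ℕ)) t q)
  refine ⟨g, hgζ, fun γ => ?_⟩
  obtain ⟨j, hj⟩ := procyc (padicEmbedding (q : ℕ)).toRingHom mem_nonunits_padic hAq r hr
    (PTC.rootF m) hFin hσ₀ hg γ
  have hpow : ∀ (i : ℕ) (ζ : Cq q), ζ ^ m = 1 → (g ^ i) ζ = ζ ^ ((q : ℕ) ^ i) := by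
    intro i
    induction i with
    | zero => intro ζ _; simp
    | succ i ih =>
      intro ζ hζ
      rw [pow_succ, AlgEquiv.mul_apply, hgζ ζ hζ, map_pow, ih ζ hζ, ← pow_mul, ← pow_succ]
  refine ⟨j, fun ζ hζ => ?_⟩
  obtain ⟨t, ht, rfl⟩ := hpre ζ hζ
  rw [IntermediateField.mem_fixingSubgroup_iff] at hj
  have h1 := hj t (hmem t ht)
  have h2 := hr ((g ^ j)⁻¹ * γ) t
  rw [h1, AlgEquiv.mul_apply] at h2
  have h3 : γ (padicEmbedding (q : ℕ) t) = (g ^ j) (padicEmbedding (q : ℕ) t) := by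
    have h4 := congrArg (g ^ j) h2
    rw [← AlgEquiv.mul_apply (g ^ j), mul_inv_cancel, AlgEquiv.one_apply] at h4
    exact h4.symm
  rw [h3, hpow j _ hζ]

section RD

variable {q : Nat.Primes} {G : Type} [Group G] {L : Levels G}

/-- data describing the action on roots of unity -/
structure RD (hG : LGal ℚ_[(q : ℕ)] (Cq q) L) (M : ℕ) where
  /-- cardinality of the residue field -/
  Q : ℕ
  hQ : 1 < Q
  hQq : ∃ e : ℕ, Q = (q : ℕ) ^ e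
  /-- a Frobenius element -/
  F : G
  hF : ∀ ζ : Cq q, ζ ^ (Q ^ M - 1) = 1 → hG.j F ζ = ζ ^ Q
  hgen : ∀ g : G, ∃ i : ℕ, ∀ ζ : Cq q, ζ ^ (Q ^ M - 1) = 1 → hG.j g ζ = ζ ^ (Q ^ i)

namespace RD

variable {hG : LGal ℚ_[(q : ℕ)] (Cq q) L} {M : ℕ} (R : RD hG M)

lemma pow_sub_pos (hM : 0 < M) : 0 < R.Q ^ M - 1 := by
  have := Nat.one_lt_pow hM.ne' R.hQ
  omega

lemma coprime_Q (hM : 0 < M) : (R.Q ^ M - 1).Coprime R.Q := by
  have h1 : 1 < R.Q ^ M := Nat.one_lt_pow hM.ne' R.hQ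
  rw [Nat.coprime_comm]
  have h2 : Nat.Coprime (R.Q ^ M) (R.Q ^ M - 1) := by
    have h3 : Nat.Coprime (R.Q ^ M - 1 + 1) (R.Q ^ M - 1) := by simp
    rwa [Nat.sub_add_cancel h1.le] at h3
  exact Nat.Coprime.coprime_dvd_left (dvd_pow_self _ hM.ne') h2

lemma coprime_q (hM : 0 < M) : (R.Q ^ M - 1).Coprime q := by
  obtain ⟨e, he⟩ := R.hQq
  have he0 : e ≠ 0 := by
    rintro rfl
    have := R.hQ
    rw [he, pow_zero] at this
    exact lt_irrefl _ this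
  refine Nat.Coprime.coprime_dvd_right ?_ (R.coprime_Q hM)
  rw [he]
  exact dvd_pow_self _ he0

lemma exists_root (hM : 0 < M) : ∃ ζ : Cq q, IsPrimitiveRoot ζ (R.Q ^ M - 1) := by
  have h0 := R.pow_sub_pos hM
  have : NeZero ((R.Q ^ M - 1 : ℕ) : Cq q) := ⟨Nat.cast_ne_zero.2 h0.ne'⟩
  exact HasEnoughRootsOfUnity.exists_primitiveRoot (Cq q) (R.Q ^ M - 1)

lemma modEq_of_pow_eq (hM : 0 < M) {ζ : Cq q} (hζ : IsPrimitiveRoot ζ (R.Q ^ M - 1)) {i i' : ℕ}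
    (h : ζ ^ (R.Q ^ i) = ζ ^ (R.Q ^ i')) : (i : ZMod M) = i' := by
  have key : ∀ a b : ℕ, a ≤ b → ζ ^ (R.Q ^ a) = ζ ^ (R.Q ^ b) → (a : ZMod M) = b := by
    intro a b hab hh
    have hζ0 : ζ ≠ 0 := hζ.ne_zero (R.pow_sub_pos hM).ne'
    have h1 : R.Q ^ b = R.Q ^ a + R.Q ^ a * (R.Q ^ (b - a) - 1) := by
      have h2 : 1 ≤ R.Q ^ (b - a) := Nat.one_le_pow _ _ (by have := R.hQ; omega)
      rw [Nat.mul_sub, ← pow_add, Nat.add_sub_cancel' hab, mul_one]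
      have h3 : R.Q ^ a ≤ R.Q ^ b := Nat.pow_le_pow_right (by have := R.hQ; omega) hab
      omega
    rw [h1, pow_add] at hh
    have h2 : ζ ^ (R.Q ^ a * (R.Q ^ (b - a) - 1)) = 1 :=
      (left_eq_mul₀ (pow_ne_zero _ hζ0)).1 hh
    rw [hζ.pow_eq_one_iff_dvd] at h2
    have h3 : R.Q ^ M - 1 ∣ R.Q ^ (b - a) - 1 :=
      Nat.Coprime.dvd_of_dvd_mul_left ((R.coprime_Q hM).pow_right a) h2
    have h4 := PTC.dvd_of_pow_sub_one_dvd R.hQ h3
    have h5 : ((b - a : ℕ) : ZMod M) = 0 := (ZMod.natCast_eq_zero_iff _ _).2 h4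
    rw [Nat.cast_sub hab, sub_eq_zero] at h5
    exact h5.symm
  rcases le_total i i' with h1 | h1
  · exact key i i' h1 h
  · exact (key i' i h1 h.symm).symm

/-- the exponent of Frobenius -/
noncomputable def ex (g : G) : ℕ := (R.hgen g).choose

lemma ex_spec (g : G) (ζ : Cq q) (hζ : ζ ^ (R.Q ^ M - 1) = 1) :
    hG.j g ζ = ζ ^ (R.Q ^ (R.ex g)) := (R.hgen g).choose_spec ζ hζ

lemma ex_mul (hM : 0 < M) (g h : G) : ((R.ex (g * h) : ℕ) : ZMod M) = R.ex g + R.ex h := by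
  obtain ⟨ζ, hζ⟩ := R.exists_root hM
  have h1 : ζ ^ (R.Q ^ (R.ex (g * h))) = ζ ^ (R.Q ^ (R.ex g + R.ex h)) := by
    rw [← R.ex_spec _ _ hζ.pow_eq_one, map_mul, AlgEquiv.mul_apply, R.ex_spec h _ hζ.pow_eq_one,
      map_pow, R.ex_spec g _ hζ.pow_eq_one, ← pow_mul, ← pow_add]
  rw [R.modEq_of_pow_eq hM hζ h1]
  push_cast
  ring

lemma ex_F (hM : 0 < M) : ((R.ex R.F : ℕ) : ZMod M) = 1 := by
  obtain ⟨ζ, hζ⟩ := R.exists_root hM
  have h1 : ζ ^ (R.Q ^ (R.ex R.F)) = ζ ^ (R.Q ^ 1) := by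
    rw [← R.ex_spec _ _ hζ.pow_eq_one, R.hF _ hζ.pow_eq_one, pow_one]
  rw [R.modEq_of_pow_eq hM hζ h1, Nat.cast_one]

lemma ex_eq_zero (hM : 0 < M) {g : G} (h : ∀ ζ : Cq q, ζ ^ (R.Q ^ M - 1) = 1 → hG.j g ζ = ζ) :
    ((R.ex g : ℕ) : ZMod M) = 0 := by
  obtain ⟨ζ, hζ⟩ := R.exists_root hM
  have h1 : ζ ^ (R.Q ^ (R.ex g)) = ζ ^ (R.Q ^ 0) := by
    rw [← R.ex_spec _ _ hζ.pow_eq_one, h _ hζ.pow_eq_one, pow_zero, pow_one]
  rw [R.modEq_of_pow_eq hM hζ h1, Nat.cast_zero]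

lemma castHom_natCast {N : ℕ} (hNM : N ∣ M) (i : ℕ) :
    ZMod.castHom hNM (ZMod N) ((i : ℕ) : ZMod M) = i := by
  rw [map_natCast]

/-- the unramified character -/
noncomputable def θur (hM : 0 < M) {N : ℕ} (hNM : N ∣ M) : Chi N L :=
  ⟨fun g => ((R.ex g : ℕ) : ZMod N), by
    have hadd : ∀ g h : G, ((R.ex (g * h) : ℕ) : ZMod N) = R.ex g + R.ex h := by
      intro g h
      have h1 := congrArg (ZMod.castHom hNM (ZMod N)) (R.ex_mul hM g h)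
      rwa [map_add, castHom_natCast, castHom_natCast, castHom_natCast] at h1
    rw [mem_Z1']
    refine ⟨?_, fun g h => ?_⟩
    · obtain ⟨ζ, hζ⟩ := R.exists_root hM
      have hfin : FiniteDimensional ℚ_[(q : ℕ)] (IntermediateField.adjoin ℚ_[(q : ℕ)] {ζ}) :=
        IntermediateField.adjoin.finiteDimensional
          (Algebra.IsAlgebraic.isAlgebraic (R := ℚ_[(q : ℕ)]) ζ).isIntegral
      obtain ⟨N₀, hN₀, hfix⟩ := hG.cof _ hfin
      refine ⟨N₀, hN₀, fun g s hs => ?_⟩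
      have h1 : hG.j s ζ = ζ := hfix s hs ⟨ζ, IntermediateField.mem_adjoin_simple_self _ ζ⟩
      have h2 : ∀ ξ : Cq q, ξ ^ (R.Q ^ M - 1) = 1 → hG.j s ξ = ξ := by
        intro ξ hξ
        have : NeZero (R.Q ^ M - 1) := ⟨(R.pow_sub_pos hM).ne'⟩
        obtain ⟨i, -, rfl⟩ := hζ.eq_pow_of_pow_eq_one hξ
        rw [map_pow, h1]
      have h3 := congrArg (ZMod.castHom hNM (ZMod N)) (R.ex_eq_zero hM h2)
      rw [castHom_natCast, map_zero] at h3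
      show ((R.ex (g * s) : ℕ) : ZMod N) = ((R.ex g : ℕ) : ZMod N)
      rw [hadd, h3, add_zero]
    · show ((R.ex (g * h) : ℕ) : ZMod N) = _
      rw [hadd, trivAct_apply]⟩

lemma θur_apply (hM : 0 < M) {N : ℕ} (hNM : N ∣ M) (g : G) :
    (R.θur hM hNM : G → ZMod N) g = ((R.ex g : ℕ) : ZMod N) := rfl

lemma θur_F (hM : 0 < M) {N : ℕ} (hNM : N ∣ M) : (R.θur hM hNM : G → ZMod N) R.F = 1 := by
  rw [θur_apply]
  have h1 := congrArg (ZMod.castHom hNM (ZMod N)) (R.ex_F hM)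
  rwa [castHom_natCast, map_one] at h1

/-- action on roots of unity of smaller level -/
lemma j_root (hM : 0 < M) {N : ℕ} (hN : 0 < N) (hNM : N ∣ M) (g : G) {i : ℕ}
    (h : (R.θur hM hNM : G → ZMod N) g = i) {ζ : Cq q} (hζ : ζ ^ (R.Q ^ N - 1) = 1) :
    hG.j g ζ = ζ ^ (R.Q ^ i) := by
  obtain ⟨d, hd⟩ := hNM
  have hdvd : R.Q ^ N - 1 ∣ R.Q ^ M - 1 := by
    have e1 : R.Q ^ M = (R.Q ^ N) ^ d := (congrArg (R.Q ^ ·) hd).trans (pow_mul _ _ _)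
    rw [e1]
    simpa using Nat.sub_dvd_pow_sub_pow (R.Q ^ N) 1 d
  have h1 : ζ ^ (R.Q ^ M - 1) = 1 := by
    obtain ⟨c, hc⟩ := hdvd
    rw [hc, pow_mul, hζ, one_pow]
  rw [R.ex_spec g ζ h1]
  rw [θur_apply, ZMod.natCast_eq_natCast_iff] at h
  -- periodicity of the exponent
  have hper : ∀ a b : ℕ, ζ ^ (R.Q ^ (a + N * b)) = ζ ^ (R.Q ^ a) := by
    intro a b
    have h2 : ζ ^ (R.Q ^ N) = ζ := by
      have h3 : R.Q ^ N = (R.Q ^ N - 1) + 1 :=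
        (Nat.sub_add_cancel (Nat.one_le_pow _ _ (by have := R.hQ; omega))).symm
      rw [h3, pow_add, hζ, one_mul, pow_one]
    have h3 : ∀ b : ℕ, ζ ^ (R.Q ^ (N * b)) = ζ := by
      intro b
      induction b with
      | zero => simp
      | succ b ih => rw [mul_add, mul_one, pow_add, pow_mul, ih, h2]
    rw [add_comm, pow_add, pow_mul, h3]
  rcases le_total (R.ex g) i with h4 | h4
  · obtain ⟨c, hc⟩ := (Nat.modEq_iff_dvd' h4).1 h
    have h5 : i = R.ex g + N * c := by omega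
    rw [h5, hper]
  · obtain ⟨c, hc⟩ := (Nat.modEq_iff_dvd' h4).1 h.symm
    have h5 : R.ex g = i + N * c := by omega
    rw [h5, hper]

end RD

end RD

end Fermat.Agent.ZCFT
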