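import Fermat.Agent.ZCFT.Align2
import Fermat.Agent.ZCFT.Count
import Fermat.Agent.ZCFT.Abo4
import Fermat.Agent.FrobDensity.Final

/-!
# Frobenius elements in the fixing group of a number field, and splitting
-/

set_option autoImplicit false

set_option maxHeartbeats 1000000

open NumberField IsDedekindDomain
open scoped Pointwise

namespace Fermat.Agent.ZCFT

open Fermat.Agent.PT Fermat.Agent.CFT Fermat.Agent.CFT6 Fermat.Agent.PTLocal

section sys

variable {Ω : Type} [Field Ω] [CharZero Ω] [IsGalois ℚ Ω] {G : Type} [Group G] {L : Levels G}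
  {hG : LGal ℚ Ω L} (S : ABHN.LocSys hG) {U : Subgroup G}

/-- if Frobenius is in `U`, then the decomposition group is contained in `U`. -/
theorem split_of_frob (F : IntermediateField ℚ Ω) [FiniteDimensional ℚ F]
    (hF : ∀ g, hG.j g ∈ F.fixingSubgroup → g ∈ U) (v : Nat.Primes) (g : G)
    (hIF : ∀ i ∈ (plc (eg S v g)).inertiaSubgroupIn ℚ, ∀ x ∈ F, i x = x) {τ : G} (hτ : τ ∈ U)
    (hτF : (plc (eg S v g)).IsFrobeniusAt (hG.j τ) (v : ℕ)) (γ : Gq v) :
    ABHN.cj (S.r v) g γ ∈ U := by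
  obtain ⟨f, hf0, hf⟩ := exists_root_near (eg S v g) F
  have hq1 : 1 < (v : ℕ) ^ f := Nat.one_lt_pow hf0.ne' v.2.one_lt
  obtain ⟨γ₀, -, hgen⟩ := exists_rootFrob v (m := (v : ℕ) ^ f - 1) (by omega)
    (pow_sub_coprime hf0 ⟨1, one_ne_zero, (pow_one _).symm⟩)
  obtain ⟨i, hi⟩ := hgen γ
  have h1 : ∀ x : integralClosure ℤ Ω, (x : Ω) ∈ F →
      ‖eg S v g (hG.j (ABHN.cj (S.r v) g γ) x) - eg S v g (x : Ω) ^ ((v : ℕ) ^ i)‖ < 1 :=
    near_of_root (eg S v g) (F := F) (M := f) (hf f hf0 dvd_rfl)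
      (hG.j (ABHN.cj (S.r v) g γ)) γ (fun x => eg_cj S v g γ x)
      (pow_ne_zero _ v.2.ne_zero) hi
  have h2 : ∀ (i : ℕ) (x : integralClosure ℤ Ω),
      ‖eg S v g (((hG.j τ) ^ i) (x : Ω)) - eg S v g (x : Ω) ^ ((v : ℕ) ^ i)‖ < 1 := by
    intro i
    induction i with
    | zero => intro x; simp
    | succ i ih =>
      intro x
      have e1 := ih (hG.j τ • x)
      have e2 : ((hG.j τ • x : integralClosure ℤ Ω) : Ω) = hG.j τ (x : Ω) := rfl
      rw [e2] at e1
      have e3 := near_frob (eg S v g) hτF x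
      have e4 := norm_pow_sub_pow_lt' (by
        have := norm_iota_le (eg S v g) (hG.j τ • x)
        rwa [e2] at this) (by
        rw [norm_pow]; exact pow_le_one₀ (norm_nonneg _) (norm_iota_le (eg S v g) x)) e3
        ((v : ℕ) ^ i)
      have e5 := norm_sub_lt_trans e1 e4
      rw [← pow_mul, ← pow_succ'] at e5
      rw [pow_succ, AlgEquiv.mul_apply]
      exact e5
  have h3 : (hG.j (ABHN.cj (S.r v) g γ))⁻¹ * (hG.j τ) ^ i ∈ F.fixingSubgroup := by
    refine inv_mul_mem (eg S v g) F (U := ⊤) le_top le_rfl ?_ (Subgroup.mem_top _)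
      (Subgroup.mem_top _) (fun y => ?_) (fun x hx => ?_)
    · intro s hs _
      rw [IntermediateField.mem_fixingSubgroup_iff]
      exact hIF s hs
    · rw [eg_cj, norm_gq]
    · refine norm_sub_lt_trans (h2 i x) ?_
      rw [norm_sub_rev]
      exact h1 x hx
  have h4 : (ABHN.cj (S.r v) g γ)⁻¹ * τ ^ i ∈ U := by
    apply hF
    rw [map_mul, map_inv, map_pow]
    exact h3
  have h5 : ABHN.cj (S.r v) g γ = τ ^ i * ((ABHN.cj (S.r v) g γ)⁻¹ * τ ^ i)⁻¹ := by group
  rw [h5]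
  exact U.mul_mem (U.pow_mem hτ i) (U.inv_mem h4)

omit [IsGalois ℚ Ω] in
/-- conjugate valuation rings -/
lemma plc_eg (q : Nat.Primes) (g : G) :
    plc (eg S q g) = (hG.j g)⁻¹ • plc (S.e q) := by
  ext x
  rw [ValuationSubring.mem_inv_pointwise_smul_iff, mem_plc, mem_plc]
  rfl

/-- every place is of this form -/
lemma exists_plc (hj : Function.Surjective hG.j) (v : Nat.Primes) {A : ValuationSubring Ω}
    (hA : A.LiesOverPrime (v : ℕ)) : ∃ g : G, A = plc (eg S v g) := by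
  obtain ⟨σ, hσ⟩ := Fermat.Agent.Frob.exists_smul_eq v.2 (liesOver_plc (S.e v)) hA
  obtain ⟨g, hg⟩ := hj σ⁻¹
  refine ⟨g, ?_⟩
  rw [plc_eg, hg, inv_inv, hσ]

end sys

end Fermat.Agent.ZCFT
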